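import Fermat.Agent.S59.LoSqC.H987.CondW

/-!
# S59 / cell (C) LO-SQ (helper987): the E-form LEVEL WALL from R-SURJ1-E and the toric wall

Context = binders of `S36.Alg3.LeafStepA` (`Eng.TripleCtx`).

* `condW_pair` : for the residues `b`, `c` of `redPair` (`u ≡ β b` on `V₂`,
  `α c · (β b) ^ q ≡ 1` on `V₃`), `CondW R m V₂' b` and `CondW R m V₂' (c ^ q')`.
* `RSurj1E`   : R-SURJ1 in E-form, shape `(0, *)`:
  every unit `b` of `V₂'` whose residue has `m`-divisible divisor (`CondW R m V₂' b`) is, up to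
  `m`-th powers, the residue on `V₂'` of some `g` with `m ∣ div g` and `g ≡ 1` on `V₁'`.
* `ToricWallE` : the toric wall: every `u ≡ 1` on `V₁, V₂, V₃` with `m ∣ div u` is
  `α g · β g' · h ^ m` with `m ∣ div g, g'`.
* `LevelWallE` : for `f ≠ 0`, `m ∣ div f`, `NormPow α m f`, `NormPow β m f`, slope zero:
  `f = w ^ s * α g * β g' * h ^ m` with `m ∣ div g, g'`.
* **`levelWall_of`** : `RSurj1E → ToricWallE → LevelWallE`.
-/

set_option autoImplicit false
set_option linter.style.haveILetI false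
set_option linter.unusedSectionVars false
set_option linter.unusedVariables false
set_option synthInstance.maxHeartbeats 400000
set_option maxHeartbeats 1600000

noncomputable section

namespace Fermat.Agent.S59.LoSqC.H987

open Fermat.Agent.S36.Eng
open Fermat.Agent.S36.H586
open Fermat.Agent

section Defs

variable {R E F F' : Type} [CommRing R] [Field E] [Field F] [Algebra E F] [Algebra R F]
  [Field F'] [Algebra E F'] [Algebra R F']

/-- **R-SURJ1 in E-form**, shape `(0, *)`. -/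
def RSurj1E (R E : Type) {F' : Type} [CommRing R] [Field E] [Field F'] [Algebra E F']
    [Algebra R F'] (m : ℕ) (V₁' V₂' : ValuationSubring F') : Prop :=
  ∀ b : F', V₂'.valuation b = 1 → CondW R m V₂' b → RSurjAt (E := E) m V₁' V₂' b

/-- **The toric wall** at level `M q²` in E-form. -/
def ToricWallE (E : Type) {F F' : Type} [Field E] [Field F] [Algebra E F] [Field F']
    [Algebra E F'] (m : ℕ) (α β : F' →ₐ[E] F) (V₁ V₂ V₃ : ValuationSubring F) : Prop :=
  ∀ u : F, A2.DivisibleDiv E m u → u - 1 ∈ V₁.nonunits → u - 1 ∈ V₂.nonunits →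
    u - 1 ∈ V₃.nonunits →
    ∃ (g g' : F') (h : F), A2.DivisibleDiv E m g ∧ A2.DivisibleDiv E m g' ∧
      u = α g * β g' * h ^ m

/-- **The level wall** in E-form. -/
def LevelWallE (R E : Type) {F F' : Type} [CommRing R] [Field E] [Field F] [Algebra E F]
    [Algebra R F] [Field F'] [Algebra E F'] (w : R) (m : ℕ) (α β : F' →ₐ[E] F)
    (V₁ V₃ : ValuationSubring F) : Prop :=
  ∀ f : F, f ≠ 0 → A2.DivisibleDiv E m f → S35.G.NormPow α m f → S35.G.NormPow β m f →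
    SlopeZero (algebraMap R F w) m V₁ V₃ f →
    ∃ (s : ℤ) (g g' : F') (h : F), g ≠ 0 ∧ g' ≠ 0 ∧ h ≠ 0 ∧ A2.DivisibleDiv E m g ∧
      A2.DivisibleDiv E m g' ∧ f = algebraMap R F w ^ s * α g * β g' * h ^ m

end Defs

section Main

variable {R E F F' : Type} [CommRing R] [IsDomain R] [IsDiscreteValuationRing R]
  [HenselianLocalRing R] [IsAlgClosed (IsLocalRing.ResidueField R)]
  [Field E] [CharZero E] [Algebra R E] [IsFractionRing R E]
  [Field F] [Algebra E F] [Algebra R F] [IsScalarTower R E F]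
  [Field F'] [Algebra E F'] [Algebra R F'] [IsScalarTower R E F']

theorem unitAt_of_val_987 {V : ValuationSubring F} {u : F} (h : V.valuation u = 1) :
    UnitAt V u := by
  refine ⟨?_, (vs_val_le_one_iff V _).1 h.le, (vs_val_le_one_iff V _).1 ?_⟩
  · rintro rfl
    rw [map_zero] at h
    exact zero_ne_one h
  · rw [map_inv₀, h, inv_one]

theorem val_of_sub_one_987 {V : ValuationSubring F} {u : F} (h : u - 1 ∈ V.nonunits) :
    V.valuation u = 1 :=
  (pu_iff.2 h : PU V u).val_eq_one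

/-- The prime `q` lies in the maximal ideal of `V₃`. -/
theorem natCast_lt_one_987 (w : R) (hw : Irreducible w) (q : ℕ)
    (hqR : (q : R) ∈ IsLocalRing.maximalIdeal R) {V : ValuationSubring F}
    (hbase : ∀ r : R, algebraMap R F r ∈ V) (hwV : algebraMap R F w ∈ V.nonunits) :
    V.valuation (q : F) < 1 := by
  rw [hw.maximalIdeal_eq, Ideal.mem_span_singleton] at hqR
  obtain ⟨r, hr⟩ := hqR
  have e : (q : F) = algebraMap R F w * algebraMap R F r := by
    rw [← map_mul, ← hr, map_natCast]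
  rw [e, map_mul]
  have h1 : V.valuation (algebraMap R F w) < 1 := (ValuationSubring.mem_nonunits_iff V).1 hwV
  have h2 : V.valuation (algebraMap R F r) ≤ 1 := (vs_val_le_one_iff V _).2 (hbase r)
  exact mul_lt_one_of_nonneg_of_lt_one_left zero_le h1 h2

/-- Frobenius is additive modulo `𝔪_V` when `q ∈ 𝔪_V`. -/
theorem add_pow_sub_lt_987 {q : ℕ} (hq : q.Prime) {V : ValuationSubring F}
    (hqV : V.valuation (q : F) < 1) (y y' : F) (hy : y ∈ V) (hy' : y' ∈ V) :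
    V.valuation ((y + y') ^ q - y ^ q - y' ^ q) < 1 := by
  obtain ⟨r, hr⟩ := exists_add_pow_prime_eq hq (⟨y, hy⟩ : V) (⟨y', hy'⟩ : V)
  have h1 := congrArg V.subtype hr
  simp only [map_add, map_pow, map_mul, map_natCast] at h1
  change (y + y') ^ q = y ^ q + y' ^ q + (q : F) * y * y' * (r : F) at h1
  have e : (y + y') ^ q - y ^ q - y' ^ q = (q : F) * (y * y' * (r : F)) := by
    rw [h1]
    ring
  rw [e, map_mul]
  have h2 : V.valuation (y * y' * (r : F)) ≤ 1 :=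
    (vs_val_le_one_iff V _).2 (V.mul_mem _ _ (V.mul_mem _ _ hy hy') r.2)
  exact mul_lt_one_of_nonneg_of_lt_one_left zero_le hqV h2

/-- **`CondW` for the residues of `redPair`.** -/
theorem condW_pair (w : R) (hw : Irreducible w) (q : ℕ) (hq : q.Prime)
    (hqR : (q : R) ∈ IsLocalRing.maximalIdeal R)
    (α β : F' →ₐ[E] F) (x : F) (x' : F')
    (V₁ V₂ V₃ : ValuationSubring F) (V₁' V₂' : ValuationSubring F')
    (T : TripleCtx w q α β x x' V₁ V₂ V₃ V₁' V₂') {m : ℕ} (hm : 0 < m)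
    (u : F) (hdu : A2.DivisibleDiv E m u)
    (hu₁ : u - 1 ∈ V₁.nonunits) (hu₂ : V₂.valuation u = 1) (hu₃ : u - 1 ∈ V₃.nonunits)
    (b c : F') (hb : V₂'.valuation b = 1)
    (hub : u / β b - 1 ∈ V₂.nonunits) (hcb : α c * (β b) ^ q - 1 ∈ V₃.nonunits) (q' : ℕ) :
    CondW R m V₂' b ∧ CondW R m V₂' (c ^ q') := by
  obtain ⟨π, hπ, A⟩ := absCtx_of_ctx w hw q hq hqR α β x x' V₁ V₂ V₃ V₁' V₂' T
  have hαR : ∀ r : R, (α : F' →+* F) (algebraMap R F' r) = algebraMap R F r := by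
    intro r
    change α (algebraMap R F' r) = algebraMap R F r
    rw [IsScalarTower.algebraMap_apply R E F', α.commutes,
      ← IsScalarTower.algebraMap_apply R E F]
  have hβR : ∀ r : R, (β : F' →+* F) (algebraMap R F' r) = algebraMap R F r := by
    intro r
    change β (algebraMap R F' r) = algebraMap R F r
    rw [IsScalarTower.algebraMap_apply R E F', β.commutes,
      ← IsScalarTower.algebraMap_apply R E F]
  -- (C1) purity
  have hU₁ : UnitAt V₁ u := unitAt_of_val_987 (val_of_sub_one_987 hu₁)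
  have hU₂ : UnitAt V₂ u := unitAt_of_val_987 hu₂
  have hU₃ : UnitAt V₃ u := unitAt_of_val_987 (val_of_sub_one_987 hu₃)
  have c1 : CondW R m V₂ u :=
    condW_unit hw hq T hm hdu hU₁ hU₂ hU₃ V₂ (Or.inr (Or.inl rfl))
  -- (C2) down to `V₂'` along `β` (residue degree one)
  have hβb2 : V₂.valuation ((β : F' →+* F) b) = 1 := val_eq_one_up A.Tβ.over_r hb
  have hub' : V₂.valuation (u ^ 1 - (β : F' →+* F) b) < 1 := by
    rw [pow_one]
    exact sub_lt_of_div_sub_one hβb2 ((ValuationSubring.mem_nonunits_iff V₂).1 hub)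
  have c2 : CondW R m V₂' b :=
    condW_down m (β : F' →+* F) hβR V₂ V₂' 1 Nat.one_pos A.Tβ.over_r
      (fun y hy => by
        obtain ⟨a, ha⟩ := A.Tβ.res_r y hy
        exact ⟨a, by rw [pow_one]; exact ha⟩)
      (fun y y' _ _ => by
        have e : (y + y') ^ 1 - y ^ 1 - y' ^ 1 = 0 := by ring
        rw [e, map_zero]
        exact zero_lt_one)
      hu₂ hub' c1
  -- (C3) up to `V₃` along `β`
  have c3 : CondW R m V₃ ((β : F' →+* F) b) := condW_up m (β : F' →+* F) hβR V₃ V₂' A.Tβ.over_u c2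
  have hβb3 : V₃.valuation ((β : F' →+* F) b) = 1 := val_eq_one_up A.Tβ.over_u hb
  have c4 : CondW R m V₃ ((β : F' →+* F) b)⁻¹ := condW_inv m hβb3 c3
  -- (C4) down to `V₂'` along `α` (purely inseparable)
  have hqV₃ : V₃.valuation (q : F) < 1 :=
    natCast_lt_one_987 w hw q hqR T.base₃ T.unif₃.2.1
  have hβb0 : (β : F' →+* F) b ≠ 0 := by
    intro h0
    rw [h0, map_zero] at hβb3
    exact zero_ne_one hβb3
  have hcb1 : V₃.valuation ((α : F' →+* F) c * ((β : F' →+* F) b) ^ q - 1) < 1 :=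
    (ValuationSubring.mem_nonunits_iff V₃).1 hcb
  have hcb' : V₃.valuation (((β : F' →+* F) b)⁻¹ ^ q - (α : F' →+* F) c) < 1 := by
    have e : ((β : F' →+* F) b)⁻¹ ^ q - (α : F' →+* F) c =
        -(((α : F' →+* F) c * ((β : F' →+* F) b) ^ q - 1) * (((β : F' →+* F) b) ^ q)⁻¹) := by
      rw [inv_pow]
      have : ((β : F' →+* F) b) ^ q ≠ 0 := pow_ne_zero _ hβb0
      field_simp
      ring
    rw [e, Valuation.map_neg, map_mul, map_inv₀, map_pow, hβb3, one_pow, inv_one, mul_one]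
    exact hcb1
  have c5 : CondW R m V₂' c :=
    condW_down m (α : F' →+* F) hαR V₃ V₂' q hq.pos A.Tα.over_i A.Tα.res_i
      (fun y y' hy hy' => add_pow_sub_lt_987 hq hqV₃ y y' hy hy')
      (by rw [map_inv₀, hβb3, inv_one]) hcb' c4
  have hc1 : V₂'.valuation c = 1 := by
    apply val_eq_one_down A.Tα.over_i
    have h1 : V₃.valuation (((β : F' →+* F) b)⁻¹ ^ q) = 1 := by
      rw [map_pow, map_inv₀, hβb3, inv_one, one_pow]
    exact val_eq_one_of_sub_lt' h1 (val_sub_lt_symm hcb')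
  exact ⟨c2, condW_pow m hc1 c5 q'⟩

/-- An inverse of `q` modulo `m`. -/
theorem exists_inv_mod_987 {q m : ℕ} (hq : 0 < q) (hm : 0 < m) (hqm : Nat.Coprime q m) :
    ∃ q' j : ℕ, q * q' = 1 + j * m := by
  rcases Nat.lt_or_ge 1 m with h | h
  · obtain ⟨q', -, hq'⟩ := Nat.exists_mul_mod_eq_one_of_coprime hqm h
    refine ⟨q', q * q' / m, ?_⟩
    have := Nat.div_add_mod (q * q') m
    rw [hq'] at this
    rw [mul_comm (q * q' / m) m, add_comm]
    exact this.symm
  · have hm1 : m = 1 := le_antisymm h hm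
    subst hm1
    refine ⟨1, q - 1, ?_⟩
    omega

/-- `DivisibleDiv` of `f / (w ^ s * G ^ m)`. -/
theorem divisibleDiv_of_eq_987 (w : R) {m : ℕ} {f G u : F} {s : ℤ} (hG : G ≠ 0)
    (hw0 : algebraMap R F w ≠ 0)
    (hfu : f = algebraMap R F w ^ s * G ^ m * u) (hf : A2.DivisibleDiv E m f) :
    A2.DivisibleDiv E m u := by
  intro V hV hEV
  obtain ⟨h, v, hh, hv, hv', e⟩ := hf V hV hEV
  have hwE : algebraMap R F w = algebraMap E F (algebraMap R E w) :=
    IsScalarTower.algebraMap_apply R E F w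
  have hwV : algebraMap R F w ∈ V := by rw [hwE]; exact hEV _
  have hwV' : (algebraMap R F w)⁻¹ ∈ V := by
    rw [hwE, ← map_inv₀]
    exact hEV _
  have hzV : ∀ n : ℤ, (algebraMap R F w) ^ n ∈ V := by
    intro n
    cases n with
    | ofNat n => rw [Int.ofNat_eq_natCast, zpow_natCast]; exact pow_mem hwV n
    | negSucc n => rw [zpow_negSucc, ← inv_pow]; exact pow_mem hwV' _
  refine ⟨h * G⁻¹, v * (algebraMap R F w ^ s)⁻¹, mul_ne_zero hh (inv_ne_zero hG), ?_, ?_, ?_⟩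
  · rw [← zpow_neg]
    exact V.mul_mem _ _ hv (hzV _)
  · rw [mul_inv, inv_inv]
    exact V.mul_mem _ _ hv' (hzV _)
  · have h1 : algebraMap R F w ^ s ≠ 0 := zpow_ne_zero _ hw0
    have h2 : G ^ m ≠ 0 := pow_ne_zero _ hG
    have e2 : u = f * (algebraMap R F w ^ s)⁻¹ * (G ^ m)⁻¹ := by
      rw [hfu]
      field_simp
    rw [e2, e, mul_pow, inv_pow]
    ring

/-- `DivisibleDiv` of a product. -/
theorem divisibleDiv_mul_987 {E F : Type*} [Field E] [Field F] [Algebra E F] (m : ℕ) {f g : F}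
    (hf : A2.DivisibleDiv E m f) (hg : A2.DivisibleDiv E m g) : A2.DivisibleDiv E m (f * g) := by
  intro V hV hE
  obtain ⟨h₁, u₁, hh₁, hu₁, hu₁', e₁⟩ := hf V hV hE
  obtain ⟨h₂, u₂, hh₂, hu₂, hu₂', e₂⟩ := hg V hV hE
  refine ⟨h₁ * h₂, u₁ * u₂, mul_ne_zero hh₁ hh₂, V.mul_mem _ _ hu₁ hu₂, ?_, ?_⟩
  · rw [mul_inv]
    exact V.mul_mem _ _ hu₁' hu₂'
  · rw [e₁, e₂, mul_pow]
    ring

/-- **The E-form level wall** from R-SURJ1-E (shape `(0, *)`) and the toric wall. -/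
theorem levelWall_of (w : R) (hw : Irreducible w) (q : ℕ) (hq : q.Prime)
    (hqR : (q : R) ∈ IsLocalRing.maximalIdeal R)
    (α β : F' →ₐ[E] F) (x : F) (x' : F')
    (V₁ V₂ V₃ : ValuationSubring F) (V₁' V₂' : ValuationSubring F')
    (T : TripleCtx w q α β x x' V₁ V₂ V₃ V₁' V₂') (m : ℕ) (hm : 0 < m) (hqm : ¬ q ∣ m)
    (hR : RSurj1E R E m V₁' V₂') (hT : ToricWallE E m α β V₁ V₂ V₃) :
    LevelWallE R E w m α β V₁ V₃ := by
  intro f hf hdf hNα hNβ hslope
  obtain ⟨s, G, u, k₁, k₂, hG, hfu, hu₁, hu₃, hu₂, -, -, -, -, -, -, -, -⟩ :=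
    wNew w hw q hq hqR α β x x' V₁ V₂ V₃ V₁' V₂' T m hm hqm f hf hNα hNβ hslope
  have hw0 : algebraMap R F w ≠ 0 := T.unif₁.1
  have hdu : A2.DivisibleDiv E m u := divisibleDiv_of_eq_987 (E := E) w hG hw0 hfu hdf
  obtain ⟨b, c, hb, hc, hub, hcb⟩ :=
    redPair w hw q hq hqR α β x x' V₁ V₂ V₃ V₁' V₂' T u hu₂
  obtain ⟨q', j, hqq⟩ := exists_inv_mod_987 hq.pos hm ((Nat.Prime.coprime_iff_not_dvd hq).2 hqm)
  obtain ⟨hCb, hCc⟩ := condW_pair w hw q hq hqR α β x x' V₁ V₂ V₃ V₁' V₂' T hm u hdu hu₁ hu₂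
    hu₃ b c hb hub hcb q'
  have hcq : V₂'.valuation (c ^ q') = 1 := by rw [map_pow, hc, one_pow]
  obtain ⟨g₁, g₁', G₁, u', hG₁, hdg₁, hdg₁', hdu', huu', h1, h2, h3⟩ :=
    redSub_of_surj w hw q hq hqR α β x x' V₁ V₂ V₃ V₁' V₂' T m u hdu hu₁ hu₃ b c hb hub hcb
      q' j hqq (hR b hb hCb) (hR (c ^ q') hcq hCc)
  obtain ⟨g₂, g₂', h, hdg₂, hdg₂', hu'⟩ := hT u' hdu' h1 h2 h3
  have hu'0 : u' ≠ 0 := (pu_iff.2 h1 : PU V₁ u').ne_zero
  have hg₂ : g₂ ≠ 0 := by
    rintro rfl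
    rw [map_zero, zero_mul, zero_mul] at hu'
    exact hu'0 hu'
  have hg₂' : g₂' ≠ 0 := by
    rintro rfl
    rw [map_zero, mul_zero, zero_mul] at hu'
    exact hu'0 hu'
  have hh : h ≠ 0 := by
    rintro rfl
    rw [zero_pow hm.ne', mul_zero] at hu'
    exact hu'0 hu'
  have hu0 : u ≠ 0 := (pu_iff.2 hu₁ : PU V₁ u).ne_zero
  have hg₁0 : g₁ ≠ 0 := by
    rintro rfl
    rw [map_zero, zero_mul, zero_mul, zero_mul] at huu'
    exact hu0 huu'
  have hg₁'0 : g₁' ≠ 0 := by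
    rintro rfl
    rw [map_zero, mul_zero, zero_mul, zero_mul] at huu'
    exact hu0 huu'
  refine ⟨s, g₁ * g₂, g₁' * g₂', G * G₁ * h, mul_ne_zero hg₁0 hg₂, mul_ne_zero hg₁'0 hg₂',
    mul_ne_zero (mul_ne_zero hG hG₁) hh, ?_, ?_, ?_⟩
  · exact divisibleDiv_mul_987 m hdg₁ hdg₂
  · exact divisibleDiv_mul_987 m hdg₁' hdg₂'
  · rw [hfu, huu', hu', map_mul, map_mul, mul_pow, mul_pow]
    ring

end Main

end Fermat.Agent.S59.LoSqC.H987

end
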