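import Fermat.Agent.S59.LoSqC.H987.ToricLeaf
import Fermat.Agent.A2.Alg.H348.Roots

/-!
# S59 / cell (C) LO-SQ (helper987): REALIZE pointwise, and the HARD leaf form

* `realizeAt_of_surj_pt` : at ONE system of objects and ONE prime `p ≠ q`:
  `RSurj1E` + `Lab1SurjE` (some primitive root) ⟹ `LoSqC.RealizeAt` (needs `LeafCtx` only at
  this system of objects).
* `leafRealizeHard_of_surj` : the hard leaf (`5 ≤ q`, `p ∣ q² - 1`), stated with the unfolded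
  bodies of `H756.LeafRSurjHard`, `H756.LeafLabSurjHard` (hypotheses) and `H433.LeafRealizeHard`
  (conclusion), so that it plugs by `exact`.
-/

set_option autoImplicit false
set_option linter.style.haveILetI false
set_option linter.unusedSectionVars false
set_option linter.unusedVariables false
set_option synthInstance.maxHeartbeats 400000
set_option maxHeartbeats 1600000

noncomputable section

namespace Fermat.Agent.S59.LoSqC.H987

open ModularCurve AlgebraicCurve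
open Fermat.Agent.S36 Fermat.Agent.S36.Eng
open Fermat.Agent

/-- **REALIZE at one system of objects**, from the two surjectivities of level `M q`. -/
theorem realizeAt_of_surj_pt (hCtx : LoSqC.LeafCtx)
    (P : ValuationSubring A2.Qb) (E : IntermediateField ℚ A2.Qb) (M q : ℕ)
    [NeZero M] [NeZero q] [NeZero (M * q)] (w : A2.RE P E) (hS : Mod3.Std P E M q w)
    (V₁' V₂' : ValuationSubring (A2.Mod.FE E (M * q)))
    (V₁ V₂ V₃ : ValuationSubring (A2.Mod.FE E (M * q * q)))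
    (W' : A2.Mod.FE E (M * q) ≃ₐ[E] A2.Mod.FE E (M * q))
    (W : A2.Mod.FE E (M * q * q) ≃ₐ[E] A2.Mod.FE E (M * q * q))
    (hO : Mod3.Objs P E M q V₁' V₂' V₁ V₂ V₃ W' W)
    (p : ℕ) (hp : p.Prime) (hpq : p ≠ q)
    (hR : RSurj1E (A2.RE P E) E p V₁' V₂')
    (hL : ∃ ζ : A2.RE P E, IsPrimitiveRoot ζ p ∧
      Fermat.Agent.S59.LoSqC.H630.Lab1SurjE E w (A2.Mod.xE E M q) V₁' V₂' p ζ) :
    LoSqC.RealizeAt E p (A2.Mod.αE E (M * q) q) (A2.Mod.βE E (M * q) q) V₁ V₂ V₃ := by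
  haveI : IsDiscreteValuationRing ↥(A2.RE P E) := hS.unram.1.dvr
  haveI : HenselianLocalRing ↥(A2.RE P E) := hS.unram.1.henselian
  haveI : IsAlgClosed (IsLocalRing.ResidueField ↥(A2.RE P E)) := hS.unram.1.algClosed
  have hctx := hCtx P E M q w hS V₁' V₂' V₁ V₂ V₃ W' W hO
  have hqp : ¬ q ∣ p := fun hd => hpq ((Nat.prime_dvd_prime_iff_eq hS.q_prime hp).1 hd).symm
  obtain ⟨ζ, hζ, hLab⟩ := hL
  have hT : ToricWallE E p (A2.Mod.αE E (M * q) q) (A2.Mod.βE E (M * q) q) V₁ V₂ V₃ :=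
    Fermat.Agent.S59.LoSqC.H630.toricWallE630 (R := ↥(A2.RE P E)) (E := E)
      (F := ↥(A2.Mod.FE E (M * q * q))) (F' := ↥(A2.Mod.FE E (M * q))) hctx hS.unif hS.q_prime
      (natCast_mem_maximalIdeal_RE E hS.lies_over) hp.pos hqp hζ hLab
  have hRed : RedSurjE (A2.RE P E) E p V₁' V₂' :=
    redSurjE_of_rsurj1 (R := ↥(A2.RE P E)) (E := E) (F' := ↥(A2.Mod.FE E (M * q))) p V₁' V₂'
      W' hO.fricke'.2 hO.vzero' hR
  exact realizeAt_of (R := ↥(A2.RE P E)) (E := E) (F := ↥(A2.Mod.FE E (M * q * q)))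
    (F' := ↥(A2.Mod.FE E (M * q))) w hS.unif q hS.q_prime
    (natCast_mem_maximalIdeal_RE E hS.lies_over)
    (A2.Mod.αE E (M * q) q) (A2.Mod.βE E (M * q) q) (Mod3.x3E E M q) (A2.Mod.xE E M q)
    V₁ V₂ V₃ V₁' V₂' hctx p hp.pos hqp hRed hT

/-- **The hard leaf** (`5 ≤ q`, `p ∣ q² - 1`) from the two hard surjectivity leaves. -/
theorem leafRealizeHard_of_surj (hCtx : LoSqC.LeafCtx)
    (hR : Mod3.Leaf fun P E _ q _ _ _ _ V₁' V₂' _ _ _ =>
      5 ≤ q → ∀ p : ℕ, p.Prime → p ≠ 2 → p ≠ q → p ∣ q ^ 2 - 1 →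
        RSurj1E (A2.RE P E) E p V₁' V₂')
    (hL : Mod3.Leaf fun P E M q _ _ _ w V₁' V₂' _ _ _ =>
      5 ≤ q → ∀ p : ℕ, p.Prime → p ≠ 2 → p ≠ q → p ∣ q ^ 2 - 1 →
        ∀ ζ : A2.RE P E, IsPrimitiveRoot ζ p →
          Fermat.Agent.S59.LoSqC.H630.Lab1SurjE E w (A2.Mod.xE E M q) V₁' V₂' p ζ) :
    Mod3.Leaf fun _ E M q _ _ _ _ _ _ V₁ V₂ V₃ =>
      5 ≤ q → ∀ p : ℕ, p.Prime → p ≠ 2 → p ≠ q → p ∣ q ^ 2 - 1 →
        LoSqC.RealizeAt E p (A2.Mod.αE E (M * q) q) (A2.Mod.βE E (M * q) q) V₁ V₂ V₃ := by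
  intro P E M q _ _ _ w hS V₁' V₂' V₁ V₂ V₃ W' W hO h5 p hp hp2 hpq hdvd
  haveI : IsDiscreteValuationRing ↥(A2.RE P E) := hS.unram.1.dvr
  haveI : HenselianLocalRing ↥(A2.RE P E) := hS.unram.1.henselian
  haveI : IsAlgClosed (IsLocalRing.ResidueField ↥(A2.RE P E)) := hS.unram.1.algClosed
  have hqp : ¬ q ∣ p := fun hd => hpq ((Nat.prime_dvd_prime_iff_eq hS.q_prime hp).1 hd).symm
  obtain ⟨ζ, hζ⟩ := Fermat.Agent.A2.Alg.H348.exists_primitiveRoot (R := ↥(A2.RE P E)) q p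
    hS.q_prime (natCast_mem_maximalIdeal_RE E hS.lies_over) hp.pos hqp
  exact realizeAt_of_surj_pt hCtx P E M q w hS V₁' V₂' V₁ V₂ V₃ W' W hO p hp hpq
    (hR P E M q w hS V₁' V₂' V₁ V₂ V₃ W' W hO h5 p hp hp2 hpq hdvd)
    ⟨ζ, hζ, hL P E M q w hS V₁' V₂' V₁ V₂ V₃ W' W hO h5 p hp hp2 hpq hdvd ζ hζ⟩

end Fermat.Agent.S59.LoSqC.H987

end
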