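import Fermat.Agent.S36.H586.StepAB

/-!
# S59 / cell (C) LO-SQ, leaf W-NEW (helper987): STEP-A without the power `q² - 1`

Abstract setting of `S36/H586/StepAB.lean` (Mathlib only): three vertical valuations
`V_FF`, `V_mid`, `V_VV` of `F` over the two vertical valuations `V1`, `V2` of `F'`, with the norm
tables of the two degeneracy embeddings `α`, `β` (`H586.NormTable`).

Let `f ≠ 0` with `N_α f, N_β f ∈ w' ^ ℤ · (F'ˣ) ^ m`, `gcd(q, m) = 1`.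

* `stepNew_slope` : `f = w ^ s * G ^ m * u` where `u` has orders `(d, -d, 0)` at
  `(V_FF | w, V_mid | π, V_VV | w)` and `m ∣ (q + 1) d`  (the slope of a new class).
* `stepNew` : if the slope vanishes (`m ∣ a_FF - a_VV`), then `f = w ^ s * G ^ m * u` with
  `u ≡ 1` on `V_FF` and `V_VV`, `u` a unit at `V_mid`, `N_α u = k₁ ^ m`, `N_β u = k₂ ^ m` with
  `k₁`, `k₂` units at `V1`, `V2`, and the residue of `u ^ (q - 1)` at `V_mid` is the `m`-th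
  power of the residue of `α k₁` and of `β k₂`.
* `slope_of_coprime` : the slope hypothesis is automatic when `gcd(q + 1, m) = 1`.

No power of `f` is taken: this is the form needed when `p ∣ q² - 1`.
-/

set_option autoImplicit false

namespace Fermat.Agent.S59.LoSqC.H987

open Fermat.Agent.S36.H586

section Aux

variable {F : Type*} [Field F] {V : ValuationSubring F}

theorem pu_val_one_987 {u : F} (h : PU V u) : V.valuation u = 1 := h.val_eq_one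

/-- A principal unit times a unit-valued element keeps the valuation. -/
theorem val_one_of_pu_div_987 {g g₁ : F} (hg₁ : V.valuation g₁ = 1) (h : PU V (g / g₁)) :
    V.valuation g = 1 := by
  have h1 := h.val_eq_one
  rw [map_div₀, hg₁, div_one] at h1
  exact h1

theorem val_one_of_pu_div_pow_987 {x G : F} {m : ℕ} (hm : 0 < m) (hx : V.valuation x = 1)
    (h : PU V (x / G ^ m)) : V.valuation G = 1 := by
  apply val_eq_one_of_pow hm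
  have h1 := h.val_eq_one
  rw [map_div₀, hx] at h1
  have h2 : V.valuation (G ^ m) ≠ 0 := by
    intro h0
    rw [h0, div_zero] at h1
    exact zero_ne_one h1
  field_simp at h1
  exact h1.symm

end Aux

section Table

variable {F' F : Type*} [Field F'] [Field F]
variable {φ : F' →+* F} {N : F → F'} {q : ℕ} {w' : F'} {π : F}
  {Os Oi : ValuationSubring F'} {Vu Vr Vi : ValuationSubring F}

/-- The norm of an element which is a unit at the three places is a unit at both places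
below. -/
theorem norm_val_one_987 (T : NormTable φ N q w' π Os Oi Vu Vr Vi) {y : F}
    (hu : Vu.valuation y = 1) (hr : Vr.valuation y = 1) (hi : Vi.valuation y = 1) :
    Os.valuation (N y) = 1 ∧ Oi.valuation (N y) = 1 := by
  constructor
  · have := T.val_s y 0 0 (isOrd_zero_of_val hu) (isOrd_zero_of_val hr)
    rw [add_zero] at this
    exact this.val_eq_one
  · have := T.val_i y 0 (isOrd_zero_of_val hi)
    rw [mul_zero] at this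
    exact this.val_eq_one

/-- The split place, exact form: if `y ≡ 1` at `Vu`, `y` is a unit at `Vr` and `N y = k ^ m`,
then `y ^ (q - 1) ≡ (φ k) ^ m` at `Vr`. -/
theorem pu_mid_987 (T : NormTable φ N q w' π Os Oi Vu Vr Vi) {m : ℕ}
    {y : F} (hyu : PU Vu y) (hyr : Vr.valuation y = 1) {k : F'}
    (hk : Os.valuation k = 1) (hN : N y = k ^ m) :
    PU Vr (y ^ (q - 1) / (φ k) ^ m) := by
  obtain ⟨b, hb⟩ := T.res_r y hyr
  have hyu1 : Vu.valuation y = 1 := hyu.val_eq_one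
  have ha : Vu.valuation (y - φ 1) < 1 := by
    rw [map_one]
    exact hyu
  have h1 := T.norm_s y 1 b hyu1 hyr ha hb
  rw [hN, one_mul] at h1
  have hφb : Vr.valuation (φ b) = 1 := val_eq_one_of_sub_lt hyr hb
  have hb1 : Os.valuation b = 1 := (over_val_eq_one T.over_r b).1 hφb
  have hb0 : b ≠ 0 := ne_of_val hb1
  have hk0 : k ≠ 0 := ne_of_val hk
  have hφb0 : φ b ≠ 0 := ne_of_val hφb
  have hφk0 : φ k ≠ 0 := (map_ne_zero φ).2 hk0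
  have hbq : Os.valuation (b ^ (q - 1)) = 1 := by rw [map_pow, hb1, one_pow]
  -- `k ^ m ≡ b ^ (q - 1)` at `Os`
  have p1 : PU Os (k ^ m / b ^ (q - 1)) := pu_div_of_sub hbq h1
  have p2 : PU Vr (φ (k ^ m / b ^ (q - 1))) := (over_pu T.over_r _).2 p1
  have p3 : PU Vr (y / φ b) := pu_div_of_sub hφb hb
  have e : y ^ (q - 1) / (φ k) ^ m = (y / φ b) ^ (q - 1) * (φ (k ^ m / b ^ (q - 1)))⁻¹ := by
    rw [map_div₀, map_pow, map_pow, div_pow]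
    field_simp
  rw [e]
  exact (p3.pow _).mul p2.inv

end Table

section Main

variable {F' F : Type*} [Field F'] [Field F]

/-- **W-NEW, slopes.**  If the norms of `f` along `α` and `β` are of the form `w' ^ s * g ^ m`,
then `f = w ^ s * G ^ m * u` where `u` has orders `(d, -d, 0)` at `(V_FF, V_mid, V_VV)` and
`m ∣ (q + 1) d`. -/
theorem stepNew_slope
    (α β : F' →+* F) (Nα Nβ : F → F') (q m : ℕ)
    (w' : F') (w π : F) (hαw : α w' = w) (hβw : β w' = w)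
    (V1 V2 : ValuationSubring F') (VFF Vmid VVV : ValuationSubring F)
    (Tα : NormTable α Nα q w' π V1 V2 VFF Vmid VVV)
    (Tβ : NormTable β Nβ q w' π V2 V1 VVV Vmid VFF)
    (hw'0 : w' ≠ 0) (hw1 : V1.valuation w' < 1) (hw2 : V2.valuation w' < 1)
    (hπ0 : π ≠ 0)
    (hram : IsOrd Vmid π w ((q : ℤ) - 1))
    (hordFF : ∀ y : F, y ≠ 0 → ∃ a : ℤ, IsOrd VFF w y a)
    (hordmid : ∀ y : F, y ≠ 0 → ∃ a : ℤ, IsOrd Vmid π y a)
    (hordVV : ∀ y : F, y ≠ 0 → ∃ a : ℤ, IsOrd VVV w y a)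
    (hord1 : ∀ y : F', y ≠ 0 → ∃ a : ℤ, IsOrd V1 w' y a)
    (hord2 : ∀ y : F', y ≠ 0 → ∃ a : ℤ, IsOrd V2 w' y a)
    (hap_ord : ∀ a b c : ℤ, ∃ g : F, IsOrd VFF w g a ∧ IsOrd Vmid π g b ∧ IsOrd VVV w g c)
    (f : F) (hf : f ≠ 0)
    (hNα : ∃ (s : ℤ) (g : F'), g ≠ 0 ∧ Nα f = w' ^ s * g ^ m)
    (hNβ : ∃ (s : ℤ) (g : F'), g ≠ 0 ∧ Nβ f = w' ^ s * g ^ m) :
    ∃ (s d : ℤ) (G u : F), G ≠ 0 ∧ f = w ^ s * G ^ m * u ∧
      (m : ℤ) ∣ ((q : ℤ) + 1) * d ∧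
      IsOrd VFF w f (s + d) ∧ IsOrd VVV w f s ∧
      IsOrd VFF w u d ∧ IsOrd Vmid π u (-d) ∧ IsOrd VVV w u 0 := by
  have hw0 : w ≠ 0 := by
    rw [← hαw]
    exact (map_ne_zero α).2 hw'0
  obtain ⟨aFF, hFF⟩ := hordFF f hf
  obtain ⟨amid, hmid⟩ := hordmid f hf
  obtain ⟨aVV, hVV⟩ := hordVV f hf
  obtain ⟨sα, gα, hgα0, hNα⟩ := hNα
  obtain ⟨sβ, gβ, hgβ0, hNβ⟩ := hNβ
  obtain ⟨cα1, hcα1⟩ := hord1 gα hgα0
  obtain ⟨cα2, hcα2⟩ := hord2 gα hgα0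
  obtain ⟨cβ1, hcβ1⟩ := hord1 gβ hgβ0
  obtain ⟨cβ2, hcβ2⟩ := hord2 gβ hgβ0
  have E1 : aFF + amid = sα * 1 + m * cα1 := by
    have e1a : IsOrd V1 w' (Nα f) (aFF + amid) := Tα.val_s f aFF amid (hαw ▸ hFF) hmid
    have e1b : IsOrd V1 w' (Nα f) (sα * 1 + m * cα1) := by
      rw [hNα]
      exact ((IsOrd.self).zpow sα).mul hw'0 (hcα1.pow m)
    exact IsOrd.unique hw'0 hw1 e1a e1b
  have E2 : (q : ℤ) * aVV = sα * 1 + m * cα2 := by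
    have e2a : IsOrd V2 w' (Nα f) (q * aVV) := Tα.val_i f aVV (hαw ▸ hVV)
    have e2b : IsOrd V2 w' (Nα f) (sα * 1 + m * cα2) := by
      rw [hNα]
      exact ((IsOrd.self).zpow sα).mul hw'0 (hcα2.pow m)
    exact IsOrd.unique hw'0 hw2 e2a e2b
  have E3 : aVV + amid = sβ * 1 + m * cβ2 := by
    have e3a : IsOrd V2 w' (Nβ f) (aVV + amid) := Tβ.val_s f aVV amid (hβw ▸ hVV) hmid
    have e3b : IsOrd V2 w' (Nβ f) (sβ * 1 + m * cβ2) := by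
      rw [hNβ]
      exact ((IsOrd.self).zpow sβ).mul hw'0 (hcβ2.pow m)
    exact IsOrd.unique hw'0 hw2 e3a e3b
  have E4 : (q : ℤ) * aFF = sβ * 1 + m * cβ1 := by
    have e4a : IsOrd V1 w' (Nβ f) (q * aFF) := Tβ.val_i f aFF (hβw ▸ hFF)
    have e4b : IsOrd V1 w' (Nβ f) (sβ * 1 + m * cβ1) := by
      rw [hNβ]
      exact ((IsOrd.self).zpow sβ).mul hw'0 (hcβ1.pow m)
    exact IsOrd.unique hw'0 hw1 e4a e4b
  obtain ⟨g₀, hg₀FF, hg₀mid, hg₀VV⟩ := hap_ord 0 (cα1 - cα2) 0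
  have hg₀0 : g₀ ≠ 0 := hg₀FF.ne_zero hw0
  have hwz : w ^ aVV ≠ 0 := zpow_ne_zero _ hw0
  have hgm : g₀ ^ m ≠ 0 := pow_ne_zero _ hg₀0
  refine ⟨aVV, aFF - aVV, g₀, f * (w ^ aVV)⁻¹ * (g₀ ^ m)⁻¹, hg₀0, ?_, ?_, ?_, hVV, ?_, ?_, ?_⟩
  · field_simp
  · refine ⟨cα1 - cα2 - cβ2 + cβ1, ?_⟩
    linear_combination E1 - E2 - E3 + E4
  · exact hFF.congr (by ring)
  · have h1 : IsOrd VFF w (f * (w ^ aVV)⁻¹ * (g₀ ^ m)⁻¹) (aFF + -(aVV * 1) + -(m * 0)) :=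
      (hFF.mul hw0 ((IsOrd.self).zpow aVV).inv).mul hw0 (hg₀FF.pow m).inv
    exact h1.congr (by ring)
  · have h1 : IsOrd Vmid π (f * (w ^ aVV)⁻¹ * (g₀ ^ m)⁻¹)
        (amid + -(aVV * ((q : ℤ) - 1)) + -(m * (cα1 - cα2))) :=
      (hmid.mul hπ0 (hram.zpow aVV).inv).mul hπ0 (hg₀mid.pow m).inv
    refine h1.congr ?_
    linear_combination E1 - E2
  · have h1 : IsOrd VVV w (f * (w ^ aVV)⁻¹ * (g₀ ^ m)⁻¹) (aVV + -(aVV * 1) + -(m * 0)) :=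
      (hVV.mul hw0 ((IsOrd.self).zpow aVV).inv).mul hw0 (hg₀VV.pow m).inv
    exact h1.congr (by ring)

/-- The slope hypothesis of `stepNew` is automatic when `gcd(q + 1, m) = 1`. -/
theorem slope_of_coprime
    (α β : F' →+* F) (Nα Nβ : F → F') (q m : ℕ) (hqm1 : Nat.Coprime (q + 1) m)
    (w' : F') (w π : F) (hαw : α w' = w) (hβw : β w' = w)
    (V1 V2 : ValuationSubring F') (VFF Vmid VVV : ValuationSubring F)
    (Tα : NormTable α Nα q w' π V1 V2 VFF Vmid VVV)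
    (Tβ : NormTable β Nβ q w' π V2 V1 VVV Vmid VFF)
    (hw'0 : w' ≠ 0) (hw1 : V1.valuation w' < 1) (hw2 : V2.valuation w' < 1)
    (hordmid : ∀ y : F, y ≠ 0 → ∃ a : ℤ, IsOrd Vmid π y a)
    (hord1 : ∀ y : F', y ≠ 0 → ∃ a : ℤ, IsOrd V1 w' y a)
    (hord2 : ∀ y : F', y ≠ 0 → ∃ a : ℤ, IsOrd V2 w' y a)
    (f : F) (hf : f ≠ 0)
    (hNα : ∃ (s : ℤ) (g : F'), g ≠ 0 ∧ Nα f = w' ^ s * g ^ m)
    (hNβ : ∃ (s : ℤ) (g : F'), g ≠ 0 ∧ Nβ f = w' ^ s * g ^ m) :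
    ∀ a₁ a₃ : ℤ, IsOrd VFF w f a₁ → IsOrd VVV w f a₃ → (m : ℤ) ∣ a₁ - a₃ := by
  intro aFF aVV hFF hVV
  obtain ⟨amid, hmid⟩ := hordmid f hf
  obtain ⟨sα, gα, hgα0, hNα⟩ := hNα
  obtain ⟨sβ, gβ, hgβ0, hNβ⟩ := hNβ
  obtain ⟨cα1, hcα1⟩ := hord1 gα hgα0
  obtain ⟨cα2, hcα2⟩ := hord2 gα hgα0
  obtain ⟨cβ1, hcβ1⟩ := hord1 gβ hgβ0
  obtain ⟨cβ2, hcβ2⟩ := hord2 gβ hgβ0
  have E1 : aFF + amid = sα * 1 + m * cα1 := by
    have e1a : IsOrd V1 w' (Nα f) (aFF + amid) := Tα.val_s f aFF amid (hαw ▸ hFF) hmid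
    have e1b : IsOrd V1 w' (Nα f) (sα * 1 + m * cα1) := by
      rw [hNα]
      exact ((IsOrd.self).zpow sα).mul hw'0 (hcα1.pow m)
    exact IsOrd.unique hw'0 hw1 e1a e1b
  have E2 : (q : ℤ) * aVV = sα * 1 + m * cα2 := by
    have e2a : IsOrd V2 w' (Nα f) (q * aVV) := Tα.val_i f aVV (hαw ▸ hVV)
    have e2b : IsOrd V2 w' (Nα f) (sα * 1 + m * cα2) := by
      rw [hNα]
      exact ((IsOrd.self).zpow sα).mul hw'0 (hcα2.pow m)
    exact IsOrd.unique hw'0 hw2 e2a e2b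
  have E3 : aVV + amid = sβ * 1 + m * cβ2 := by
    have e3a : IsOrd V2 w' (Nβ f) (aVV + amid) := Tβ.val_s f aVV amid (hβw ▸ hVV) hmid
    have e3b : IsOrd V2 w' (Nβ f) (sβ * 1 + m * cβ2) := by
      rw [hNβ]
      exact ((IsOrd.self).zpow sβ).mul hw'0 (hcβ2.pow m)
    exact IsOrd.unique hw'0 hw2 e3a e3b
  have E4 : (q : ℤ) * aFF = sβ * 1 + m * cβ1 := by
    have e4a : IsOrd V1 w' (Nβ f) (q * aFF) := Tβ.val_i f aFF (hβw ▸ hFF)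
    have e4b : IsOrd V1 w' (Nβ f) (sβ * 1 + m * cβ1) := by
      rw [hNβ]
      exact ((IsOrd.self).zpow sβ).mul hw'0 (hcβ1.pow m)
    exact IsOrd.unique hw'0 hw1 e4a e4b
  have key : (m : ℤ) ∣ (((q + 1 : ℕ) : ℤ)) * (aFF - aVV) := by
    refine ⟨cα1 - cα2 - cβ2 + cβ1, ?_⟩
    push_cast
    linear_combination E1 - E2 - E3 + E4
  have hcop : IsCoprime (m : ℤ) ((q + 1 : ℕ) : ℤ) :=
    (Nat.isCoprime_iff_coprime.2 hqm1).symm
  exact hcop.dvd_of_dvd_mul_left key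

/-- **W-NEW.**  `f ≠ 0` with `N_α f`, `N_β f` of the form `w' ^ s * g ^ m`, `gcd(q, m) = 1`, of
slope zero.  Then `f = w ^ s * G ^ m * u` with `u ≡ 1` at `V_FF` and `V_VV`, `u` a unit at
`V_mid` whose `(q - 1)`-st power is congruent to `(α k₁) ^ m` and to `(β k₂) ^ m`, where
`N_α u = k₁ ^ m`, `N_β u = k₂ ^ m`.  No power of `f` is taken. -/
theorem stepNew
    (α β : F' →+* F) (Nα Nβ : F → F') (q m : ℕ) (hm : 0 < m)
    (hqm : Nat.Coprime q m)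
    (w' : F') (w π : F) (hαw : α w' = w) (hβw : β w' = w)
    (V1 V2 : ValuationSubring F') (VFF Vmid VVV : ValuationSubring F)
    (Tα : NormTable α Nα q w' π V1 V2 VFF Vmid VVV)
    (Tβ : NormTable β Nβ q w' π V2 V1 VVV Vmid VFF)
    (hw'0 : w' ≠ 0) (hw1 : V1.valuation w' < 1) (hw2 : V2.valuation w' < 1)
    (hπ0 : π ≠ 0)
    (hram : IsOrd Vmid π w ((q : ℤ) - 1))
    (hordFF : ∀ y : F, y ≠ 0 → ∃ a : ℤ, IsOrd VFF w y a)
    (hordmid : ∀ y : F, y ≠ 0 → ∃ a : ℤ, IsOrd Vmid π y a)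
    (hordVV : ∀ y : F, y ≠ 0 → ∃ a : ℤ, IsOrd VVV w y a)
    (hord1 : ∀ y : F', y ≠ 0 → ∃ a : ℤ, IsOrd V1 w' y a)
    (hord2 : ∀ y : F', y ≠ 0 → ∃ a : ℤ, IsOrd V2 w' y a)
    (hap_ord : ∀ a b c : ℤ, ∃ g : F, IsOrd VFF w g a ∧ IsOrd Vmid π g b ∧ IsOrd VVV w g c)
    (hap_res : ∀ g₁ g₂ g₃ : F, VFF.valuation g₁ = 1 → Vmid.valuation g₂ = 1 →
      VVV.valuation g₃ = 1 → ∃ g : F, PU VFF (g / g₁) ∧ PU Vmid (g / g₂) ∧ PU VVV (g / g₃))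
    (f : F) (hf : f ≠ 0)
    (hNα : ∃ (s : ℤ) (g : F'), g ≠ 0 ∧ Nα f = w' ^ s * g ^ m)
    (hNβ : ∃ (s : ℤ) (g : F'), g ≠ 0 ∧ Nβ f = w' ^ s * g ^ m)
    (hslope : ∀ a₁ a₃ : ℤ, IsOrd VFF w f a₁ → IsOrd VVV w f a₃ → (m : ℤ) ∣ a₁ - a₃) :
    ∃ (s : ℤ) (G u : F) (k₁ k₂ : F'), G ≠ 0 ∧ f = w ^ s * G ^ m * u ∧
      PU VFF u ∧ PU VVV u ∧ Vmid.valuation u = 1 ∧
      PU Vmid (u ^ (q - 1) / (α k₁) ^ m) ∧ PU Vmid (u ^ (q - 1) / (β k₂) ^ m) ∧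
      V1.valuation k₁ = 1 ∧ V2.valuation k₁ = 1 ∧
      V1.valuation k₂ = 1 ∧ V2.valuation k₂ = 1 ∧
      Nα u = k₁ ^ m ∧ Nβ u = k₂ ^ m := by
  have hw0 : w ≠ 0 := by
    rw [← hαw]
    exact (map_ne_zero α).2 hw'0
  have hwFF : VFF.valuation w < 1 := by
    rw [← hαw]
    exact (over_val_lt_one Tα.over_u w').2 hw1
  obtain ⟨s, d, G₀, u₀, hG₀, hfu₀, -, hFFf, hVVf, hu₀FF, hu₀mid, hu₀VV⟩ :=
    stepNew_slope α β Nα Nβ q m w' w π hαw hβw V1 V2 VFF Vmid VVV Tα Tβ hw'0 hw1 hw2 hπ0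
      hram hordFF hordmid hordVV hord1 hord2 hap_ord f hf hNα hNβ
  -- the slope is divisible by `m`
  obtain ⟨d', hd'⟩ : (m : ℤ) ∣ d := by
    have := hslope (s + d) s hFFf hVVf
    rwa [add_sub_cancel_left] at this
  obtain ⟨g₁, hg₁FF, hg₁mid, hg₁VV⟩ := hap_ord d' (-d') 0
  have hg₁0 : g₁ ≠ 0 := hg₁FF.ne_zero hw0
  -- `f₁ = u₀ / g₁ ^ m` is a unit at the three places
  set f₁ : F := u₀ * (g₁ ^ m)⁻¹ with hf₁
  have hf₁FF : VFF.valuation f₁ = 1 := by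
    have h1 : IsOrd VFF w f₁ (d + -(m * d')) := hu₀FF.mul hw0 (hg₁FF.pow m).inv
    refine (h1.congr ?_).val_eq_one
    rw [hd']
    ring
  have hf₁mid : Vmid.valuation f₁ = 1 := by
    have h1 : IsOrd Vmid π f₁ (-d + -(m * (-d'))) := hu₀mid.mul hπ0 (hg₁mid.pow m).inv
    refine (h1.congr ?_).val_eq_one
    rw [hd']
    ring
  have hf₁VV : VVV.valuation f₁ = 1 := by
    have h1 : IsOrd VVV w f₁ (0 + -(m * 0)) := hu₀VV.mul hw0 (hg₁VV.pow m).inv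
    exact (h1.congr (by ring)).val_eq_one
  -- `f = w ^ s * (G₀ g₁) ^ m * f₁`
  have hff₁ : f = w ^ s * (G₀ * g₁) ^ m * f₁ := by
    rw [hfu₀, hf₁, mul_pow]
    have : g₁ ^ m ≠ 0 := pow_ne_zero _ hg₁0
    field_simp
  have hf₁e : f₁ = f ^ 1 * (w ^ s)⁻¹ * ((G₀ * g₁) ^ m)⁻¹ := by
    have h1 : w ^ s ≠ 0 := zpow_ne_zero _ hw0
    have h2 : (G₀ * g₁) ^ m ≠ 0 := pow_ne_zero _ (mul_ne_zero hG₀ hg₁0)
    rw [pow_one]
    rw [hff₁]
    field_simp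
  have hGg0 : G₀ * g₁ ≠ 0 := mul_ne_zero hG₀ hg₁0
  -- norms of `f₁`
  obtain ⟨sα, gα, hgα0, hNα⟩ := hNα
  obtain ⟨sβ, gβ, hgβ0, hNβ⟩ := hNβ
  obtain ⟨hα, hα1, hα2, hNα₁⟩ : ∃ h : F', V1.valuation h = 1 ∧ V2.valuation h = 1 ∧
      Nα f₁ = h ^ m := by
    have := Tα.norm_unit_pow hm hw'0 hw1 hord1 hGg0 hgα0 hNα 1 s
      (by rw [hαw, ← hf₁e]; exact hf₁FF) (by rw [hαw, ← hf₁e]; exact hf₁mid)
      (by rw [hαw, ← hf₁e]; exact hf₁VV)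
    rw [hαw, ← hf₁e] at this
    exact this
  obtain ⟨hβ, hβ2, hβ1, hNβ₁⟩ : ∃ h : F', V2.valuation h = 1 ∧ V1.valuation h = 1 ∧
      Nβ f₁ = h ^ m := by
    have := Tβ.norm_unit_pow hm hw'0 hw2 hord2 hGg0 hgβ0 hNβ 1 s
      (by rw [hβw, ← hf₁e]; exact hf₁VV) (by rw [hβw, ← hf₁e]; exact hf₁mid)
      (by rw [hβw, ← hf₁e]; exact hf₁FF)
    rw [hβw, ← hf₁e] at this
    exact this
  -- residues at the purely inseparable places
  obtain ⟨GVV, hGVV0, hGVV⟩ := Tα.pu_insep hqm hf₁VV hα2 hNα₁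
  obtain ⟨GFF, hGFF0, hGFF⟩ := Tβ.pu_insep hqm hf₁FF hβ1 hNβ₁
  have hGFF1 : VFF.valuation GFF = 1 := val_one_of_pu_div_pow_987 hm hf₁FF hGFF
  have hGVV1 : VVV.valuation GVV = 1 := val_one_of_pu_div_pow_987 hm hf₁VV hGVV
  -- approximation
  obtain ⟨G, hGa, hGb, hGc⟩ := hap_res GFF 1 GVV hGFF1 (map_one _) hGVV1
  have hG0 : G ≠ 0 := by
    intro h0
    rw [h0, zero_div] at hGa
    exact hGa.ne_zero rfl
  have hGFFv : VFF.valuation G = 1 := val_one_of_pu_div_987 hGFF1 hGa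
  have hGmidv : Vmid.valuation G = 1 := val_one_of_pu_div_987 (map_one _) hGb
  have hGVVv : VVV.valuation G = 1 := val_one_of_pu_div_987 hGVV1 hGc
  have hGm0 : G ^ m ≠ 0 := pow_ne_zero _ hG0
  -- the unit `u`
  set u : F := f₁ / G ^ m with hu
  have huFF : PU VFF u := by
    have e : u = (f₁ / GFF ^ m) * ((G / GFF) ^ m)⁻¹ := by
      rw [hu, div_pow]
      have h4 : GFF ^ m ≠ 0 := pow_ne_zero _ hGFF0
      field_simp
    rw [e]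
    exact hGFF.mul (hGa.pow m).inv
  have huVV : PU VVV u := by
    have e : u = (f₁ / GVV ^ m) * ((G / GVV) ^ m)⁻¹ := by
      rw [hu, div_pow]
      have h4 : GVV ^ m ≠ 0 := pow_ne_zero _ hGVV0
      field_simp
    rw [e]
    exact hGVV.mul (hGc.pow m).inv
  have humid : Vmid.valuation u = 1 := by
    rw [hu, map_div₀, map_pow, hf₁mid, hGmidv, one_pow, div_one]
  -- norms of `G`
  obtain ⟨hNG1, hNG2⟩ := norm_val_one_987 Tα hGFFv hGmidv hGVVv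
  obtain ⟨hNG2', hNG1'⟩ := norm_val_one_987 Tβ hGVVv hGmidv hGFFv
  have hNαu : Nα u = (hα * (Nα G)⁻¹) ^ m := by
    rw [hu, div_eq_mul_inv, Tα.norm_mul, hNα₁,
      nfn_inv Tα.norm_one Tα.norm_mul hGm0, nfn_pow Tα.norm_one Tα.norm_mul,
      mul_pow, inv_pow]
  have hNβu : Nβ u = (hβ * (Nβ G)⁻¹) ^ m := by
    rw [hu, div_eq_mul_inv, Tβ.norm_mul, hNβ₁,
      nfn_inv Tβ.norm_one Tβ.norm_mul hGm0, nfn_pow Tβ.norm_one Tβ.norm_mul,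
      mul_pow, inv_pow]
  have hk₁1 : V1.valuation (hα * (Nα G)⁻¹) = 1 := by
    rw [map_mul, map_inv₀, hα1, hNG1, inv_one, mul_one]
  have hk₁2 : V2.valuation (hα * (Nα G)⁻¹) = 1 := by
    rw [map_mul, map_inv₀, hα2, hNG2, inv_one, mul_one]
  have hk₂1 : V1.valuation (hβ * (Nβ G)⁻¹) = 1 := by
    rw [map_mul, map_inv₀, hβ1, hNG1', inv_one, mul_one]
  have hk₂2 : V2.valuation (hβ * (Nβ G)⁻¹) = 1 := by
    rw [map_mul, map_inv₀, hβ2, hNG2', inv_one, mul_one]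
  refine ⟨s, G₀ * g₁ * G, u, hα * (Nα G)⁻¹, hβ * (Nβ G)⁻¹,
    mul_ne_zero hGg0 hG0, ?_, huFF, huVV, humid, ?_, ?_, hk₁1, hk₁2, hk₂1, hk₂2, hNαu, hNβu⟩
  · rw [hff₁, hu, mul_pow (G₀ * g₁) G m]
    field_simp
  · exact pu_mid_987 Tα huFF humid hk₁1 hNαu
  · exact pu_mid_987 Tβ huVV humid hk₂2 hNβu

end Main

end Fermat.Agent.S59.LoSqC.H987
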