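import Fermat.Agent.S36.H586.LeafStepA
import Fermat.Agent.S59.LoSqC.H987.StepNew

/-!
# S59 / cell (C) LO-SQ, leaf W-NEW in `Eng.TripleCtx` form (helper987)

STEP-A of the S36 engine WITHOUT the power `q² - 1` (needed when `p ∣ q² - 1`).

Context = the binders of `S36.Alg3.LeafStepA` verbatim.  For `f ≠ 0` with
`S35.G.NormPow α m f`, `S35.G.NormPow β m f` (`q ∤ m`) and slope zero (`SlopeZero`):

    f = w ^ s * G ^ m * u,   u ≡ 1 on V₁ and V₃,   u a unit at V₂,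
    u ^ (q - 1) ≡ (α k₁) ^ m ≡ (β k₂) ^ m on V₂,
    N_α u = k₁ ^ m,  N_β u = k₂ ^ m,   k₁, k₂ units at V₁', V₂'.

* `WNewStatement`        : the Prop (slope zero as a hypothesis);
* `WNewCoprimeStatement` : the same without slope hypothesis, for `gcd(q + 1, m) = 1`;
* `WSlopeFormStatement`  : the slope form (no hypothesis): `f = w ^ s * G ^ m * u`, orders of `u`
  equal to `(d, -d, 0)` at `(V₁ | w, V₂ | π, V₃ | w)`, `m ∣ (q + 1) d`;
* `wNew`, `wNewCoprime`, `wSlopeForm` : the proofs.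
-/

set_option autoImplicit false
set_option linter.style.haveILetI false
set_option linter.unusedSectionVars false
set_option linter.unusedVariables false
set_option synthInstance.maxHeartbeats 400000
set_option maxHeartbeats 1600000

noncomputable section

namespace Fermat.Agent.S59.LoSqC.H987

open Fermat.Agent.S36.Eng
open Fermat.Agent.S36.H586
open Fermat.Agent.S18.H138 (chart baseField)
open Fermat.Agent.A2.H12 (IsSheet)
open Fermat.Agent

/-- The slope of `f` between `V₁` and `V₃` vanishes modulo `m`: the orders of `f` along `V₁` and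
`V₃` (both with uniformiser `w`) are congruent modulo `m`. -/
def SlopeZero {F : Type*} [Field F] (w : F) (m : ℕ) (V₁ V₃ : ValuationSubring F) (f : F) :
    Prop :=
  ∀ a₁ a₃ : ℤ, V₁.valuation f = V₁.valuation w ^ a₁ → V₃.valuation f = V₃.valuation w ^ a₃ →
    (m : ℤ) ∣ a₁ - a₃

/-- **Leaf W-NEW** (slope zero as a hypothesis). -/
def WNewStatement : Prop :=
  ∀ {R E F F' : Type} [CommRing R] [IsDomain R] [IsDiscreteValuationRing R]
    [HenselianLocalRing R] [IsAlgClosed (IsLocalRing.ResidueField R)]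
    [Field E] [CharZero E] [Algebra R E] [IsFractionRing R E]
    [Field F] [Algebra E F] [Algebra R F] [IsScalarTower R E F]
    [Field F'] [Algebra E F'] [Algebra R F'] [IsScalarTower R E F']
    (w : R) (_ : Irreducible w) (q : ℕ) (_ : q.Prime)
    (_ : (q : R) ∈ IsLocalRing.maximalIdeal R)
    (α β : F' →ₐ[E] F) (x : F) (x' : F')
    (V₁ V₂ V₃ : ValuationSubring F) (V₁' V₂' : ValuationSubring F')
    (_ : TripleCtx w q α β x x' V₁ V₂ V₃ V₁' V₂'),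
    ∀ m : ℕ, 0 < m → ¬ q ∣ m →
      ∀ f : F, f ≠ 0 → S35.G.NormPow α m f → S35.G.NormPow β m f →
        SlopeZero (algebraMap R F w) m V₁ V₃ f →
        ∃ (s : ℤ) (G u : F) (k₁ k₂ : F'), G ≠ 0 ∧
          f = algebraMap R F w ^ s * G ^ m * u ∧
          u - 1 ∈ V₁.nonunits ∧ u - 1 ∈ V₃.nonunits ∧ V₂.valuation u = 1 ∧
          u ^ (q - 1) / (α k₁) ^ m - 1 ∈ V₂.nonunits ∧
          u ^ (q - 1) / (β k₂) ^ m - 1 ∈ V₂.nonunits ∧
          V₁'.valuation k₁ = 1 ∧ V₂'.valuation k₁ = 1 ∧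
          V₁'.valuation k₂ = 1 ∧ V₂'.valuation k₂ = 1 ∧
          S29.H395.normAlong α u = k₁ ^ m ∧ S29.H395.normAlong β u = k₂ ^ m

/-- **Leaf W-NEW** for `gcd(q + 1, m) = 1` (no slope hypothesis). -/
def WNewCoprimeStatement : Prop :=
  ∀ {R E F F' : Type} [CommRing R] [IsDomain R] [IsDiscreteValuationRing R]
    [HenselianLocalRing R] [IsAlgClosed (IsLocalRing.ResidueField R)]
    [Field E] [CharZero E] [Algebra R E] [IsFractionRing R E]
    [Field F] [Algebra E F] [Algebra R F] [IsScalarTower R E F]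
    [Field F'] [Algebra E F'] [Algebra R F'] [IsScalarTower R E F']
    (w : R) (_ : Irreducible w) (q : ℕ) (_ : q.Prime)
    (_ : (q : R) ∈ IsLocalRing.maximalIdeal R)
    (α β : F' →ₐ[E] F) (x : F) (x' : F')
    (V₁ V₂ V₃ : ValuationSubring F) (V₁' V₂' : ValuationSubring F')
    (_ : TripleCtx w q α β x x' V₁ V₂ V₃ V₁' V₂'),
    ∀ m : ℕ, 0 < m → ¬ q ∣ m → Nat.Coprime (q + 1) m →
      ∀ f : F, f ≠ 0 → S35.G.NormPow α m f → S35.G.NormPow β m f →
        ∃ (s : ℤ) (G u : F) (k₁ k₂ : F'), G ≠ 0 ∧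
          f = algebraMap R F w ^ s * G ^ m * u ∧
          u - 1 ∈ V₁.nonunits ∧ u - 1 ∈ V₃.nonunits ∧ V₂.valuation u = 1 ∧
          u ^ (q - 1) / (α k₁) ^ m - 1 ∈ V₂.nonunits ∧
          u ^ (q - 1) / (β k₂) ^ m - 1 ∈ V₂.nonunits ∧
          V₁'.valuation k₁ = 1 ∧ V₂'.valuation k₁ = 1 ∧
          V₁'.valuation k₂ = 1 ∧ V₂'.valuation k₂ = 1 ∧
          S29.H395.normAlong α u = k₁ ^ m ∧ S29.H395.normAlong β u = k₂ ^ m

/-- **Slope form** of W-NEW (no hypothesis on the slope): `f = w ^ s * G ^ m * u` where the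
orders of `u` at `(V₁ | w, V₂ | π, V₃ | w)` are `(d, -d, 0)` and `m ∣ (q + 1) d`; `π` is ANY
uniformiser of `V₂`. -/
def WSlopeFormStatement : Prop :=
  ∀ {R E F F' : Type} [CommRing R] [IsDomain R] [IsDiscreteValuationRing R]
    [HenselianLocalRing R] [IsAlgClosed (IsLocalRing.ResidueField R)]
    [Field E] [CharZero E] [Algebra R E] [IsFractionRing R E]
    [Field F] [Algebra E F] [Algebra R F] [IsScalarTower R E F]
    [Field F'] [Algebra E F'] [Algebra R F'] [IsScalarTower R E F']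
    (w : R) (_ : Irreducible w) (q : ℕ) (_ : q.Prime)
    (_ : (q : R) ∈ IsLocalRing.maximalIdeal R)
    (α β : F' →ₐ[E] F) (x : F) (x' : F')
    (V₁ V₂ V₃ : ValuationSubring F) (V₁' V₂' : ValuationSubring F')
    (_ : TripleCtx w q α β x x' V₁ V₂ V₃ V₁' V₂'),
    ∀ m : ℕ, 0 < m → ¬ q ∣ m →
      ∀ f : F, f ≠ 0 → S35.G.NormPow α m f → S35.G.NormPow β m f →
        ∃ (π : F) (s d : ℤ) (G u : F), UnifAt V₂ π ∧ G ≠ 0 ∧
          f = algebraMap R F w ^ s * G ^ m * u ∧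
          (m : ℤ) ∣ ((q : ℤ) + 1) * d ∧
          V₁.valuation f = V₁.valuation (algebraMap R F w) ^ (s + d) ∧
          V₃.valuation f = V₃.valuation (algebraMap R F w) ^ s ∧
          V₁.valuation u = V₁.valuation (algebraMap R F w) ^ d ∧
          V₂.valuation u = V₂.valuation π ^ (-d) ∧
          V₃.valuation u = 1

/-! ## From `TripleCtx` to the abstract norm calculus -/

/-- The abstract context of `StepAB.lean` / `StepNew.lean`, bundled. -/
structure AbsCtx {F' F : Type*} [Field F'] [Field F] (α β : F' →+* F) (Nα Nβ : F → F')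
    (q : ℕ) (w' : F') (w π : F) (V1 V2 : ValuationSubring F')
    (VFF Vmid VVV : ValuationSubring F) : Prop where
  hαw : α w' = w
  hβw : β w' = w
  Tα : NormTable α Nα q w' π V1 V2 VFF Vmid VVV
  Tβ : NormTable β Nβ q w' π V2 V1 VVV Vmid VFF
  hw'0 : w' ≠ 0
  hw1 : V1.valuation w' < 1
  hw2 : V2.valuation w' < 1
  hπ0 : π ≠ 0
  hram : IsOrd Vmid π w ((q : ℤ) - 1)
  hordFF : ∀ y : F, y ≠ 0 → ∃ a : ℤ, IsOrd VFF w y a
  hordmid : ∀ y : F, y ≠ 0 → ∃ a : ℤ, IsOrd Vmid π y a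
  hordVV : ∀ y : F, y ≠ 0 → ∃ a : ℤ, IsOrd VVV w y a
  hord1 : ∀ y : F', y ≠ 0 → ∃ a : ℤ, IsOrd V1 w' y a
  hord2 : ∀ y : F', y ≠ 0 → ∃ a : ℤ, IsOrd V2 w' y a
  hap_ord : ∀ a b c : ℤ, ∃ g : F, IsOrd VFF w g a ∧ IsOrd Vmid π g b ∧ IsOrd VVV w g c
  hap_res : ∀ g₁ g₂ g₃ : F, VFF.valuation g₁ = 1 → Vmid.valuation g₂ = 1 →
    VVV.valuation g₃ = 1 → ∃ g : F, PU VFF (g / g₁) ∧ PU Vmid (g / g₂) ∧ PU VVV (g / g₃)

section Setup

variable {R E F F' : Type} [CommRing R] [IsDomain R] [IsDiscreteValuationRing R]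
  [HenselianLocalRing R] [IsAlgClosed (IsLocalRing.ResidueField R)]
  [Field E] [CharZero E] [Algebra R E] [IsFractionRing R E]
  [Field F] [Algebra E F] [Algebra R F] [IsScalarTower R E F]
  [Field F'] [Algebra E F'] [Algebra R F'] [IsScalarTower R E F']

/-- The abstract norm calculus of a three-component context (the set-up of
`S36.H586.leafStepA`, for EVERY uniformiser `π` of `V₂`). -/
theorem absCtx_of_ctx (w : R) (hw : Irreducible w) (q : ℕ) (hq : q.Prime)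
    (hqR : (q : R) ∈ IsLocalRing.maximalIdeal R)
    (α β : F' →ₐ[E] F) (x : F) (x' : F')
    (V₁ V₂ V₃ : ValuationSubring F) (V₁' V₂' : ValuationSubring F')
    (T : TripleCtx w q α β x x' V₁ V₂ V₃ V₁' V₂') :
    ∃ π : F, UnifAt V₂ π ∧
      AbsCtx (α : F' →+* F) (β : F' →+* F) (S29.H395.normAlong α) (S29.H395.normAlong β) q
        (algebraMap R F' w) (algebraMap R F w) π V₁' V₂' V₁ V₂ V₃ := by
  haveI := T.dvr₁
  haveI := T.dvr₂
  haveI := T.dvr₃
  have hq2 : 2 ≤ q := hq.two_le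
  obtain ⟨π, hπ, hram⟩ := T.ram₂
  have hαw : α (algebraMap R F' w) = algebraMap R F w := by
    rw [IsScalarTower.algebraMap_apply R E F', α.commutes,
      ← IsScalarTower.algebraMap_apply R E F]
  have hβw : β (algebraMap R F' w) = algebraMap R F w := by
    rw [IsScalarTower.algebraMap_apply R E F', β.commutes,
      ← IsScalarTower.algebraMap_apply R E F]
  have hαw' : (α : F' →+* F) (algebraMap R F' w) = algebraMap R F w := hαw
  have hβw' : (β : F' →+* F) (algebraMap R F' w) = algebraMap R F w := hβw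
  have hwF0 : algebraMap R F w ≠ 0 := T.unif₁.1
  have hw'0 : algebraMap R F' w ≠ 0 := by
    intro h
    rw [h, map_zero] at hαw
    exact hwF0 hαw.symm
  obtain ⟨s₁, s₂, s₃⟩ := Fermat.Agent.S36.H919.h919_isSheet_of_ctx hq2 T
  haveI : CharZero F := charZero_of_injective_algebraMap (algebraMap E F).injective
  haveI : FiniteDimensional (baseField R x) F :=
    Fermat.Agent.S36.H919.h919_finiteDimensional E T.hfin
  have hinj : Function.Injective (algebraMap R F) := Fermat.Agent.S36.H919.h919_injective E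
  have hxR : Transcendental R x := Fermat.Agent.S36.H919.h919_transcendental E T.hx
  have resα₁ : ∀ y : F, V₁.valuation y = 1 → ∃ a : F', V₁.valuation (y - α a) < 1 :=
    res_lift_of_chart hinj hw.prime hxR s₁ (α : F' →+* F)
      (fun b hb => let ⟨b', _, h⟩ := T.res_α₁ b hb; ⟨b', h⟩)
  have resα₂ : ∀ y : F, V₂.valuation y = 1 → ∃ a : F', V₂.valuation (y - α a) < 1 :=
    res_lift_of_chart hinj hw.prime hxR s₂ (α : F' →+* F)
      (fun b hb => let ⟨b', _, h⟩ := T.res_α₂ b hb; ⟨b', h⟩)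
  have resβ₃ : ∀ y : F, V₃.valuation y = 1 → ∃ a : F', V₃.valuation (y - β a) < 1 :=
    res_lift_of_chart hinj hw.prime hxR s₃ (β : F' →+* F)
      (fun b hb => let ⟨b', _, h⟩ := T.res_β₃ b hb; ⟨b', h⟩)
  have resβ₂ : ∀ y : F, V₂.valuation y = 1 → ∃ a : F', V₂.valuation (y - β a) < 1 :=
    res_lift_of_chart hinj hw.prime hxR s₂ (β : F' →+* F)
      (fun b hb => let ⟨b', _, h⟩ := T.res_β₂ b hb; ⟨b', h⟩)
  have Tα : NormTable (α : F' →+* F) (S29.H395.normAlong α) q (algebraMap R F' w) π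
      V₁' V₂' V₁ V₂ V₃ :=
    normTable_of_fields α q hq.pos (algebraMap R F' w) (algebraMap R F w) π hαw V₁' V₂' V₁ V₂ V₃
      T.unif₁ T.unif₃ hπ hram T.comap_α₁ T.comap_α₂ T.comap_α₃ resα₁ resα₂ (T.nv_α π hπ)
      T.nr_α₁ T.nr_α₂
  have Tβ : NormTable (β : F' →+* F) (S29.H395.normAlong β) q (algebraMap R F' w) π
      V₂' V₁' V₃ V₂ V₁ :=
    normTable_of_fields β q hq.pos (algebraMap R F' w) (algebraMap R F w) π hβw V₂' V₁' V₃ V₂ V₁
      T.unif₃ T.unif₁ hπ hram T.comap_β₃ T.comap_β₂ T.comap_β₁ resβ₃ resβ₂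
      (fun y au ar ai hy hu hr hi => T.nv_β π hπ y ai ar au hy hi hr hu) T.nr_β₁ T.nr_β₂
  have hordFF : ∀ y : F, y ≠ 0 → ∃ a : ℤ, IsOrd V₁ (algebraMap R F w) y a :=
    exists_isOrd_of_unifAt V₁ T.unif₁
  have hordmid : ∀ y : F, y ≠ 0 → ∃ a : ℤ, IsOrd V₂ π y a := exists_isOrd_of_unifAt V₂ hπ
  have hordVV : ∀ y : F, y ≠ 0 → ∃ a : ℤ, IsOrd V₃ (algebraMap R F w) y a :=
    exists_isOrd_of_unifAt V₃ T.unif₃
  have hord1 : ∀ y : F', y ≠ 0 → ∃ a : ℤ, IsOrd V₁' (algebraMap R F' w) y a := by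
    intro y hy
    obtain ⟨a, ha⟩ := hordFF (α y) ((map_ne_zero α).2 hy)
    refine ⟨a, over_isOrd_down (φ := (α : F' →+* F)) Tα.over_u hw'0 y a ?_⟩
    rw [hαw']
    exact ha
  have hord2 : ∀ y : F', y ≠ 0 → ∃ a : ℤ, IsOrd V₂' (algebraMap R F' w) y a := by
    intro y hy
    obtain ⟨a, ha⟩ := hordVV (α y) ((map_ne_zero α).2 hy)
    refine ⟨a, over_isOrd_down (φ := (α : F' →+* F)) Tα.over_i hw'0 y a ?_⟩
    rw [hαw']
    exact ha
  have hw1 : V₁'.valuation (algebraMap R F' w) < 1 := by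
    rw [← over_val_lt_one Tα.over_u, hαw']
    exact UnifAt.val_lt_one T.unif₁
  have hw2 : V₂'.valuation (algebraMap R F' w) < 1 := by
    rw [← over_val_lt_one Tα.over_i, hαw']
    exact UnifAt.val_lt_one T.unif₃
  have hramO : IsOrd V₂ π (algebraMap R F w) ((q : ℤ) - 1) := by
    have h1 : IsOrd V₂ π (algebraMap R F w) ((q - 1 : ℕ) : ℤ) := by
      rw [isOrd_iff_unitAt hπ.1, zpow_natCast]
      exact hram
    have h4 : ((q - 1 : ℕ) : ℤ) = (q : ℤ) - 1 := by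
      rw [Nat.cast_sub hq.pos]
      simp
    rwa [h4] at h1
  have hap_ord : ∀ a b c : ℤ, ∃ g : F, IsOrd V₁ (algebraMap R F w) g a ∧ IsOrd V₂ π g b ∧
      IsOrd V₃ (algebraMap R F w) g c :=
    exists_approx_ord3 V₁ V₂ V₃ T.ne₁₂ T.ne₁₃ T.ne₂₃ T.unif₁.1 T.unif₁.2.1 T.unif₁.2.2
      hπ.1 hπ.2.1 hπ.2.2 T.unif₃.1 T.unif₃.2.1 T.unif₃.2.2
  have hap_res : ∀ g₁ g₂ g₃ : F, V₁.valuation g₁ = 1 → V₂.valuation g₂ = 1 →
      V₃.valuation g₃ = 1 → ∃ g : F, PU V₁ (g / g₁) ∧ PU V₂ (g / g₂) ∧ PU V₃ (g / g₃) :=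
    exists_approx_res3 V₁ V₂ V₃ T.ne₁₂ T.ne₁₃ T.ne₂₃
  exact ⟨π, hπ, ⟨hαw', hβw', Tα, Tβ, hw'0, hw1, hw2, hπ.1, hramO, hordFF, hordmid, hordVV,
    hord1, hord2, hap_ord, hap_res⟩⟩

end Setup

/-! ## The leaves -/

/-- **Slope form** of W-NEW, verbatim. -/
theorem wSlopeForm : WSlopeFormStatement := by
  intro R E F F' _ _ _ _ _ _ _ _ _ _ _ _ _ _ _ _ _ w hw q hq hqR α β x x' V₁ V₂ V₃ V₁' V₂' T
    m hm hqm f hf hNα hNβ
  obtain ⟨π, hπ, A⟩ := absCtx_of_ctx w hw q hq hqR α β x x' V₁ V₂ V₃ V₁' V₂' T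
  have hNα' := exists_zpow_of_normPow (E := E) w hw q m hq hqR hm hqm
    (S29.H395.normAlong_ne_zero α T.fin_α hf) hNα
  have hNβ' := exists_zpow_of_normPow (E := E) w hw q m hq hqR hm hqm
    (S29.H395.normAlong_ne_zero β T.fin_β hf) hNβ
  obtain ⟨s, d, G, u, hG, hfu, hd, hf1, hf3, hu1, hu2, hu3⟩ :=
    stepNew_slope (α : F' →+* F) (β : F' →+* F) (S29.H395.normAlong α) (S29.H395.normAlong β)
      q m (algebraMap R F' w) (algebraMap R F w) π A.hαw A.hβw V₁' V₂' V₁ V₂ V₃ A.Tα A.Tβ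
      A.hw'0 A.hw1 A.hw2 A.hπ0 A.hram A.hordFF A.hordmid A.hordVV A.hord1 A.hord2 A.hap_ord
      f hf hNα' hNβ'
  exact ⟨π, s, d, G, u, hπ, hG, hfu, hd, hf1, hf3, hu1, hu2, hu3.val_eq_one⟩

/-- **Leaf W-NEW**, verbatim. -/
theorem wNew : WNewStatement := by
  intro R E F F' _ _ _ _ _ _ _ _ _ _ _ _ _ _ _ _ _ w hw q hq hqR α β x x' V₁ V₂ V₃ V₁' V₂' T
    m hm hqm f hf hNα hNβ hslope
  obtain ⟨π, hπ, A⟩ := absCtx_of_ctx w hw q hq hqR α β x x' V₁ V₂ V₃ V₁' V₂' T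
  have hNα' := exists_zpow_of_normPow (E := E) w hw q m hq hqR hm hqm
    (S29.H395.normAlong_ne_zero α T.fin_α hf) hNα
  have hNβ' := exists_zpow_of_normPow (E := E) w hw q m hq hqR hm hqm
    (S29.H395.normAlong_ne_zero β T.fin_β hf) hNβ
  obtain ⟨s, G, u, k₁, k₂, hG, hfu, hu1, hu3, hu2, hm1, hm2, h11, h12, h21, h22, hN1, hN2⟩ :=
    stepNew (α : F' →+* F) (β : F' →+* F) (S29.H395.normAlong α) (S29.H395.normAlong β)
      q m hm ((Nat.Prime.coprime_iff_not_dvd hq).2 hqm)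
      (algebraMap R F' w) (algebraMap R F w) π A.hαw A.hβw V₁' V₂' V₁ V₂ V₃ A.Tα A.Tβ
      A.hw'0 A.hw1 A.hw2 A.hπ0 A.hram A.hordFF A.hordmid A.hordVV A.hord1 A.hord2 A.hap_ord
      A.hap_res f hf hNα' hNβ' hslope
  exact ⟨s, G, u, k₁, k₂, hG, hfu, pu_iff.1 hu1, pu_iff.1 hu3, hu2, pu_iff.1 hm1,
    pu_iff.1 hm2, h11, h12, h21, h22, hN1, hN2⟩

/-- The slope vanishes for `gcd(q + 1, m) = 1`. -/
theorem slopeZero_of_coprime {R E F F' : Type} [CommRing R] [IsDomain R]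
    [IsDiscreteValuationRing R]
    [HenselianLocalRing R] [IsAlgClosed (IsLocalRing.ResidueField R)]
    [Field E] [CharZero E] [Algebra R E] [IsFractionRing R E]
    [Field F] [Algebra E F] [Algebra R F] [IsScalarTower R E F]
    [Field F'] [Algebra E F'] [Algebra R F'] [IsScalarTower R E F']
    (w : R) (hw : Irreducible w) (q : ℕ) (hq : q.Prime)
    (hqR : (q : R) ∈ IsLocalRing.maximalIdeal R)
    (α β : F' →ₐ[E] F) (x : F) (x' : F')
    (V₁ V₂ V₃ : ValuationSubring F) (V₁' V₂' : ValuationSubring F')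
    (T : TripleCtx w q α β x x' V₁ V₂ V₃ V₁' V₂')
    (m : ℕ) (hm : 0 < m) (hqm : ¬ q ∣ m) (hqm1 : Nat.Coprime (q + 1) m)
    (f : F) (hf : f ≠ 0) (hNα : S35.G.NormPow α m f) (hNβ : S35.G.NormPow β m f) :
    SlopeZero (algebraMap R F w) m V₁ V₃ f := by
  obtain ⟨π, hπ, A⟩ := absCtx_of_ctx w hw q hq hqR α β x x' V₁ V₂ V₃ V₁' V₂' T
  have hNα' := exists_zpow_of_normPow (E := E) w hw q m hq hqR hm hqm
    (S29.H395.normAlong_ne_zero α T.fin_α hf) hNα
  have hNβ' := exists_zpow_of_normPow (E := E) w hw q m hq hqR hm hqm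
    (S29.H395.normAlong_ne_zero β T.fin_β hf) hNβ
  exact slope_of_coprime (α : F' →+* F) (β : F' →+* F) (S29.H395.normAlong α)
    (S29.H395.normAlong β) q m hqm1 (algebraMap R F' w) (algebraMap R F w) π A.hαw A.hβw
    V₁' V₂' V₁ V₂ V₃ A.Tα A.Tβ A.hw'0 A.hw1 A.hw2 A.hordmid A.hord1 A.hord2 f hf hNα' hNβ'

/-- **Leaf W-NEW** for `gcd(q + 1, m) = 1`, verbatim. -/
theorem wNewCoprime : WNewCoprimeStatement := by
  intro R E F F' _ _ _ _ _ _ _ _ _ _ _ _ _ _ _ _ _ w hw q hq hqR α β x x' V₁ V₂ V₃ V₁' V₂' T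
    m hm hqm hqm1 f hf hNα hNβ
  exact wNew w hw q hq hqR α β x x' V₁ V₂ V₃ V₁' V₂' T m hm hqm f hf hNα hNβ
    (slopeZero_of_coprime w hw q hq hqR α β x x' V₁ V₂ V₃ V₁' V₂' T m hm hqm hqm1 f hf hNα hNβ)

end Fermat.Agent.S59.LoSqC.H987

end
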