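import Fermat.Agent.S59.LoSqC.Spec
import Fermat.Agent.S59.LoSqC.H987.LeafNew

/-!
# S59 / cell (C) LO-SQ: leaf NEW-UNITS, VERBATIM (helper987)

`newUnits : LoSqC.NewUnitsStatement` (frozen in `LoSqC/Spec.lean`, cell architect helper885),
from `H987.wNew` (STEP-A without the power `q² - 1`).
-/

set_option autoImplicit false
set_option linter.style.haveILetI false
set_option linter.unusedSectionVars false
set_option linter.unusedVariables false
set_option synthInstance.maxHeartbeats 400000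
set_option maxHeartbeats 1600000

noncomputable section

namespace Fermat.Agent.S59.LoSqC.H987

open Fermat.Agent.S36.Eng
open Fermat.Agent.S36.H586
open Fermat.Agent

section Aux

variable {F : Type*} [Field F]

/-- The frozen `LoSqC.SlopeZero` (existential form) gives the `H987.SlopeZero` (universal
form). -/
theorem slopeZero_of_frozen {R : Type*} [CommRing R] [Algebra R F] (w : R) (m : ℕ)
    {V₁ V₃ : ValuationSubring F} (hw₁ : V₁.valuation (algebraMap R F w) < 1)
    (hw₃ : V₃.valuation (algebraMap R F w) < 1) (hw0 : algebraMap R F w ≠ 0) {f : F}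
    (h : LoSqC.SlopeZero w m V₁ V₃ f) : SlopeZero (algebraMap R F w) m V₁ V₃ f := by
  obtain ⟨a₁, a₃, h1, h3, hd⟩ := h
  intro b₁ b₃ hb₁ hb₃
  have e1 : b₁ = a₁ :=
    IsOrd.unique hw0 hw₁ (show IsOrd V₁ (algebraMap R F w) f b₁ from hb₁)
      ((isOrd_iff_unitAt hw0 f a₁).2 h1)
  have e3 : b₃ = a₃ :=
    IsOrd.unique hw0 hw₃ (show IsOrd V₃ (algebraMap R F w) f b₃ from hb₃)
      ((isOrd_iff_unitAt hw0 f a₃).2 h3)
  rw [e1, e3]
  exact hd

theorem unitAt_of_val_one {V : ValuationSubring F} {u : F} (h : V.valuation u = 1) :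
    UnitAt V u := unitAt_iff.2 h

end Aux

/-- **Leaf NEW-UNITS**, verbatim. -/
theorem newUnits : LoSqC.NewUnitsStatement := by
  intro R E F F' _ _ _ _ _ _ _ _ _ _ _ _ _ _ _ _ _ w hw q hq hqR α β x x' V₁ V₂ V₃ V₁' V₂' T
    m hm hqm f hf hNα hNβ hslope
  have hw0 : algebraMap R F w ≠ 0 := T.unif₁.1
  have hslope' : SlopeZero (algebraMap R F w) m V₁ V₃ f := by
    by_cases hc : Nat.Coprime m (q + 1)
    · exact slopeZero_of_coprime w hw q hq hqR α β x x' V₁ V₂ V₃ V₁' V₂' T m hm hqm hc.symm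
        f hf hNα hNβ
    · exact slopeZero_of_frozen w m (UnifAt.val_lt_one T.unif₁) (UnifAt.val_lt_one T.unif₃) hw0
        (hslope hc)
  obtain ⟨s, G, u, k₁, k₂, hG, hfu, hu₁, hu₃, hu₂, -, -, -, -, -, -, -, -⟩ :=
    wNew w hw q hq hqR α β x x' V₁ V₂ V₃ V₁' V₂' T m hm hqm f hf hNα hNβ hslope'
  have hwE0 : algebraMap R E w ≠ 0 := by
    intro h0
    apply hw0
    rw [IsScalarTower.algebraMap_apply R E F, h0, map_zero]
  have hcF : algebraMap E F (algebraMap R E w ^ s) = algebraMap R F w ^ s := by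
    rw [map_zpow₀, ← IsScalarTower.algebraMap_apply R E F]
  have hu0 : u ≠ 0 := (pu_iff.2 hu₁ : PU V₁ u).ne_zero
  have hwz : algebraMap R F w ^ s ≠ 0 := zpow_ne_zero _ hw0
  have hGm : G ^ m ≠ 0 := pow_ne_zero _ hG
  have e : f * (algebraMap E F (algebraMap R E w ^ s) * G ^ m)⁻¹ = u := by
    rw [hcF, hfu]
    field_simp
  refine ⟨algebraMap R E w ^ s, G, zpow_ne_zero _ hwE0, hG, ?_, ?_, ?_⟩
  · rw [e]
    exact unitAt_of_val_one (pu_iff.2 hu₁ : PU V₁ u).val_eq_one
  · rw [e]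
    exact unitAt_of_val_one hu₂
  · rw [e]
    exact unitAt_of_val_one (pu_iff.2 hu₃ : PU V₃ u).val_eq_one

end Fermat.Agent.S59.LoSqC.H987

end
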