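import Mathlib

/-!
# S59 / cell (C) LO-SQ (helper987): `m ∣ div` of a residue, without residue fields

`CondW R m V b` : "the residue of `b` along `V` has `m`-divisible divisor": for every valuation
subring `W ≤ V` of `F` containing (the image of) `R`, `b ≡ v · h ^ m` modulo `𝔪_V` with `v` a
unit of `W` and `h` a unit of `V`.  (The valuation subrings `W ≤ V` are the places of the residue
field of `V`.)

Mathlib only.  Transfer along an embedding `φ : F' → F` with `V ∩ F' = O`:

* `liftVal` : the valuation subring `{y | ∃ a ∈ W', y ^ k ≡ φ a mod 𝔪_V}` of `F` attached to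
  `W' ≤ O` (`k = 1`: residue degree one; `k = q`: purely inseparable residue extension);
* `condW_down` : `CondW V y₀`, `y₀ ^ k ≡ φ c` ⟹ `CondW O c`;
* `condW_up`   : `CondW O b` ⟹ `CondW V (φ b)`.
-/

set_option autoImplicit false

namespace Fermat.Agent.S59.LoSqC.H987

/-- `m ∣ div` of the residue of `b` along `V` (see the file header). -/
def CondW (R : Type*) [CommSemiring R] {F : Type*} [Field F] [Algebra R F] (m : ℕ)
    (V : ValuationSubring F) (b : F) : Prop :=
  ∀ W : ValuationSubring F, W ≤ V → (∀ r : R, algebraMap R F r ∈ W) →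
    ∃ h v : F, V.valuation h = 1 ∧ v ∈ W ∧ v⁻¹ ∈ W ∧ V.valuation (b / (v * h ^ m) - 1) < 1

section Basic

variable {F : Type*} [Field F]

theorem vs_val_le_one_iff (V : ValuationSubring F) (y : F) : V.valuation y ≤ 1 ↔ y ∈ V :=
  ValuationSubring.valuation_le_one_iff V y

/-- `W ≤ V` ⟹ `𝔪_V ⊆ 𝔪_W`. -/
theorem val_lt_one_of_le {W V : ValuationSubring F} (h : W ≤ V) {y : F}
    (hy : V.valuation y < 1) : W.valuation y < 1 := by
  have h1 : y ∈ V.nonunits := (ValuationSubring.mem_nonunits_iff V).2 hy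
  have h2 : V.nonunits ≤ W.nonunits := ValuationSubring.nonunits_le_nonunits.2 h
  exact (ValuationSubring.mem_nonunits_iff W).1 (h2 h1)

/-- A unit of `W ≤ V` is a unit of `V`. -/
theorem val_eq_one_of_unit_le {W V : ValuationSubring F} (h : W ≤ V) {v : F} (hv0 : v ≠ 0)
    (hv : v ∈ W) (hv' : v⁻¹ ∈ W) : V.valuation v = 1 := by
  have h1 : V.valuation v ≤ 1 := (vs_val_le_one_iff V v).2 (h hv)
  have h2 : V.valuation v⁻¹ ≤ 1 := (vs_val_le_one_iff V _).2 (h hv')
  rw [map_inv₀] at h2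
  have h0 : V.valuation v ≠ 0 := (Valuation.ne_zero_iff _).2 hv0
  have h3 : 1 ≤ V.valuation v := (inv_le_one₀ (zero_lt_iff.2 h0)).1 h2
  exact le_antisymm h1 h3

/-- In a congruence `b / (v * h ^ m) ≡ 1` the element `v` is not zero. -/
theorem ne_zero_of_cong {V : ValuationSubring F} {b v h : F} {m : ℕ}
    (hc : V.valuation (b / (v * h ^ m) - 1) < 1) : v ≠ 0 := by
  rintro rfl
  rw [zero_mul, div_zero, zero_sub, Valuation.map_neg, map_one] at hc
  exact lt_irrefl _ hc

theorem val_pow_eq_one {V : ValuationSubring F} {y : F} {k : ℕ} (hk : 0 < k)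
    (h : V.valuation (y ^ k) = 1) : V.valuation y = 1 := by
  rw [map_pow] at h
  exact (pow_eq_one_iff_of_nonneg zero_le hk.ne').1 h

theorem val_le_one_of_pow {V : ValuationSubring F} {y : F} {k : ℕ} (hk : 0 < k)
    (h : V.valuation (y ^ k) ≤ 1) : V.valuation y ≤ 1 := by
  rw [map_pow] at h
  by_contra hlt
  push Not at hlt
  have : 1 < V.valuation y ^ k := one_lt_pow₀ hlt hk.ne'
  exact absurd h (not_le.2 this)

/-- `x ≡ y` mod `𝔪_V`, `y` a unit ⟹ `x` a unit. -/
theorem val_eq_one_of_sub_lt' {V : ValuationSubring F} {x y : F} (hy : V.valuation y = 1)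
    (h : V.valuation (x - y) < 1) : V.valuation x = 1 := by
  have h1 : x = y + (x - y) := by ring
  rw [h1]
  have h2 : V.valuation (x - y) < V.valuation y := by rw [hy]; exact h
  rw [Valuation.map_add_eq_of_lt_left _ h2, hy]

theorem val_sub_lt_symm {V : ValuationSubring F} {x y : F} (h : V.valuation (x - y) < 1) :
    V.valuation (y - x) < 1 := by
  rw [← Valuation.map_neg, neg_sub]
  exact h

/-- `x / y ≡ 1`, `y` a unit ⟹ `x ≡ y`. -/
theorem sub_lt_of_div_sub_one {V : ValuationSubring F} {x y : F} (hy : V.valuation y = 1)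
    (h : V.valuation (x / y - 1) < 1) : V.valuation (x - y) < 1 := by
  have hy0 : y ≠ 0 := by
    rintro rfl
    rw [map_zero] at hy
    exact zero_ne_one hy
  have h1 : x - y = (x / y - 1) * y := by field_simp
  rw [h1, map_mul, hy, mul_one]
  exact h

/-- `x ≡ y`, `y` a unit ⟹ `x / y ≡ 1`. -/
theorem div_sub_one_lt_of_sub {V : ValuationSubring F} {x y : F} (hy : V.valuation y = 1)
    (h : V.valuation (x - y) < 1) : V.valuation (x / y - 1) < 1 := by
  have hy0 : y ≠ 0 := by
    rintro rfl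
    rw [map_zero] at hy
    exact zero_ne_one hy
  have h1 : x / y - 1 = (x - y) * y⁻¹ := by field_simp
  rw [h1, map_mul, map_inv₀, hy, inv_one, mul_one]
  exact h

theorem pu1_mul {V : ValuationSubring F} {s t : F} (hs : V.valuation (s - 1) < 1)
    (ht : V.valuation (t - 1) < 1) : V.valuation (s * t - 1) < 1 := by
  have e : s * t - 1 = (s - 1) * t + (t - 1) := by ring
  rw [e]
  have ht1 : V.valuation t = 1 := by
    have e2 : t = 1 + (t - 1) := by ring
    rw [e2]
    exact Valuation.map_one_add_of_lt _ ht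
  refine Valuation.map_add_lt _ ?_ ht
  rw [map_mul, ht1, mul_one]
  exact hs

theorem pu1_pow {V : ValuationSubring F} {s : F} (hs : V.valuation (s - 1) < 1) (n : ℕ) :
    V.valuation (s ^ n - 1) < 1 := by
  induction n with
  | zero => rw [pow_zero, sub_self, map_zero]; exact zero_lt_one
  | succ n ih => rw [pow_succ]; exact pu1_mul ih hs

end Basic

section Lift

variable {F' F : Type*} [Field F'] [Field F]

/-- The valuation subring of `F` attached to a valuation subring `W' ≤ O` of `F'`, where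
`V` lies over `O` and every unit of `V` has `k`-th power congruent to an element of `φ F'`. -/
def liftVal (φ : F' →+* F) (V : ValuationSubring F) (O W' : ValuationSubring F') (k : ℕ)
    (hk : 0 < k) (hov : ∀ a : F', φ a ∈ V ↔ a ∈ O) (hW' : W' ≤ O)
    (hres : ∀ y : F, V.valuation y = 1 → ∃ a : F', V.valuation (y ^ k - φ a) < 1)
    (hadd : ∀ y y' : F, y ∈ V → y' ∈ V → V.valuation ((y + y') ^ k - y ^ k - y' ^ k) < 1) :
    ValuationSubring F where
  carrier := {y | ∃ a ∈ W', V.valuation (y ^ k - φ a) < 1}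
  mul_mem' := by
    rintro y y' ⟨a, ha, hya⟩ ⟨a', ha', hya'⟩
    refine ⟨a * a', W'.mul_mem _ _ ha ha', ?_⟩
    have hφa : V.valuation (φ a) ≤ 1 := (vs_val_le_one_iff V _).2 ((hov a).2 (hW' ha))
    have hφa' : V.valuation (φ a') ≤ 1 := (vs_val_le_one_iff V _).2 ((hov a').2 (hW' ha'))
    have hy'k : V.valuation (y' ^ k) ≤ 1 := by
      have e : y' ^ k = (y' ^ k - φ a') + φ a' := by ring
      rw [e]
      exact le_trans (Valuation.map_add _ _ _) (max_le hya'.le hφa')
    have e : (y * y') ^ k - φ (a * a') = (y ^ k - φ a) * y' ^ k + φ a * (y' ^ k - φ a') := by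
      rw [map_mul, mul_pow]
      ring
    rw [e]
    refine Valuation.map_add_lt _ ?_ ?_
    · rw [map_mul]
      exact mul_lt_one_of_nonneg_of_lt_one_left zero_le hya hy'k
    · rw [map_mul]
      exact mul_lt_one_of_nonneg_of_lt_one_right hφa zero_le hya'
  one_mem' := ⟨1, W'.one_mem, by rw [one_pow, map_one, sub_self, map_zero]; exact zero_lt_one⟩
  add_mem' := by
    rintro y y' ⟨a, ha, hya⟩ ⟨a', ha', hya'⟩
    refine ⟨a + a', W'.add_mem _ _ ha ha', ?_⟩
    have hφa : V.valuation (φ a) ≤ 1 := (vs_val_le_one_iff V _).2 ((hov a).2 (hW' ha))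
    have hφa' : V.valuation (φ a') ≤ 1 := (vs_val_le_one_iff V _).2 ((hov a').2 (hW' ha'))
    have hyk : V.valuation (y ^ k) ≤ 1 := by
      have e : y ^ k = (y ^ k - φ a) + φ a := by ring
      rw [e]
      exact le_trans (Valuation.map_add _ _ _) (max_le hya.le hφa)
    have hy'k : V.valuation (y' ^ k) ≤ 1 := by
      have e : y' ^ k = (y' ^ k - φ a') + φ a' := by ring
      rw [e]
      exact le_trans (Valuation.map_add _ _ _) (max_le hya'.le hφa')
    have hyV : y ∈ V := (vs_val_le_one_iff V _).1 (val_le_one_of_pow hk hyk)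
    have hy'V : y' ∈ V := (vs_val_le_one_iff V _).1 (val_le_one_of_pow hk hy'k)
    have e : (y + y') ^ k - φ (a + a') =
        ((y + y') ^ k - y ^ k - y' ^ k) + ((y ^ k - φ a) + (y' ^ k - φ a')) := by
      rw [map_add]
      ring
    rw [e]
    exact Valuation.map_add_lt _ (hadd y y' hyV hy'V) (Valuation.map_add_lt _ hya hya')
  zero_mem' := ⟨0, W'.zero_mem, by
    rw [zero_pow hk.ne', map_zero, sub_self, map_zero]; exact zero_lt_one⟩
  neg_mem' := by
    rintro y ⟨a, ha, hya⟩
    refine ⟨(-1) ^ k * a, W'.mul_mem _ _ (pow_mem (W'.neg_mem _ W'.one_mem) k) ha, ?_⟩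
    have e : (-y) ^ k - φ ((-1) ^ k * a) = (-1) ^ k * (y ^ k - φ a) := by
      rw [map_mul, map_pow, map_neg, map_one, neg_pow]
      ring
    rw [e, map_mul, map_pow, Valuation.map_neg, map_one, one_pow, one_mul]
    exact hya
  mem_or_inv_mem' := by
    intro y
    rcases lt_trichotomy (V.valuation y) 1 with h | h | h
    · left
      refine ⟨0, W'.zero_mem, ?_⟩
      rw [map_zero, sub_zero, map_pow]
      exact pow_lt_one₀ zero_le h hk.ne'
    · obtain ⟨a, ha⟩ := hres y h
      have hyk : V.valuation (y ^ k) = 1 := by rw [map_pow, h, one_pow]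
      have hφa : V.valuation (φ a) = 1 := val_eq_one_of_sub_lt' hyk (val_sub_lt_symm ha)
      rcases W'.mem_or_inv_mem a with h1 | h1
      · exact Or.inl ⟨a, h1, ha⟩
      · right
        refine ⟨a⁻¹, h1, ?_⟩
        have hy0 : y ^ k ≠ 0 := by
          intro h0
          rw [h0, map_zero] at hyk
          exact zero_ne_one hyk
        have hφa0 : φ a ≠ 0 := by
          intro h0
          rw [h0, map_zero] at hφa
          exact zero_ne_one hφa
        have e : y⁻¹ ^ k - φ a⁻¹ = -((y ^ k - φ a) * (y ^ k)⁻¹ * (φ a)⁻¹) := by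
          rw [map_inv₀, inv_pow]
          field_simp
          ring
        rw [e, Valuation.map_neg, map_mul, map_mul, map_inv₀, map_inv₀, hyk, hφa, inv_one,
          mul_one, mul_one]
        exact ha
    · right
      refine ⟨0, W'.zero_mem, ?_⟩
      rw [map_zero, sub_zero, map_pow, map_inv₀]
      have h0 : 0 < V.valuation y := lt_trans zero_lt_one h
      exact pow_lt_one₀ zero_le (inv_lt_one_of_one_lt₀ h) hk.ne'

variable {φ : F' →+* F} {V : ValuationSubring F} {O W' : ValuationSubring F'} {k : ℕ}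
  {hk : 0 < k} {hov : ∀ a : F', φ a ∈ V ↔ a ∈ O} {hW' : W' ≤ O}
  {hres : ∀ y : F, V.valuation y = 1 → ∃ a : F', V.valuation (y ^ k - φ a) < 1}
  {hadd : ∀ y y' : F, y ∈ V → y' ∈ V → V.valuation ((y + y') ^ k - y ^ k - y' ^ k) < 1}

theorem mem_liftVal {y : F} :
    y ∈ liftVal φ V O W' k hk hov hW' hres hadd ↔
      ∃ a ∈ W', V.valuation (y ^ k - φ a) < 1 := Iff.rfl

theorem liftVal_le : liftVal φ V O W' k hk hov hW' hres hadd ≤ V := by
  rintro y ⟨a, ha, hya⟩
  have hφa : V.valuation (φ a) ≤ 1 := (vs_val_le_one_iff V _).2 ((hov a).2 (hW' ha))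
  have hyk : V.valuation (y ^ k) ≤ 1 := by
    have e : y ^ k = (y ^ k - φ a) + φ a := by ring
    rw [e]
    exact le_trans (Valuation.map_add _ _ _) (max_le hya.le hφa)
  exact (vs_val_le_one_iff V _).1 (val_le_one_of_pow hk hyk)

theorem map_mem_liftVal {a : F'} (ha : a ∈ W') :
    φ a ∈ liftVal φ V O W' k hk hov hW' hres hadd :=
  ⟨a ^ k, pow_mem ha k, by rw [map_pow, sub_self, map_zero]; exact zero_lt_one⟩

/-- Units of `liftVal` come from units of `W'`. -/
theorem exists_unit_of_liftVal {v : F} (hv0 : v ≠ 0)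
    (hv : v ∈ liftVal φ V O W' k hk hov hW' hres hadd)
    (hv' : v⁻¹ ∈ liftVal φ V O W' k hk hov hW' hres hadd) :
    ∃ a : F', a ∈ W' ∧ a⁻¹ ∈ W' ∧ V.valuation (v ^ k - φ a) < 1 := by
  obtain ⟨a, ha, hva⟩ := hv
  obtain ⟨a', ha', hva'⟩ := hv'
  have hle : liftVal φ V O W' k hk hov hW' hres hadd ≤ V := liftVal_le
  have hv1 : V.valuation v = 1 :=
    val_eq_one_of_unit_le hle hv0 ⟨a, ha, hva⟩ ⟨a', ha', hva'⟩
  have hvk : V.valuation (v ^ k) = 1 := by rw [map_pow, hv1, one_pow]
  have hφa : V.valuation (φ a) = 1 := val_eq_one_of_sub_lt' hvk (val_sub_lt_symm hva)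
  have hvk' : V.valuation (v⁻¹ ^ k) = 1 := by rw [map_pow, map_inv₀, hv1, inv_one, one_pow]
  have hφa' : V.valuation (φ a') = 1 := val_eq_one_of_sub_lt' hvk' (val_sub_lt_symm hva')
  refine ⟨a, ha, ?_, hva⟩
  -- `φ (a a') ≡ 1`
  have h1 : V.valuation (φ (a * a') - 1) < 1 := by
    have e : φ (a * a') - 1 = -((v ^ k - φ a) * φ a') - v ^ k * (v⁻¹ ^ k - φ a') := by
      rw [map_mul, inv_pow]
      have : v ^ k ≠ 0 := pow_ne_zero _ hv0
      field_simp
      ring
    rw [e]
    refine Valuation.map_sub_lt _ ?_ ?_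
    · rw [Valuation.map_neg, map_mul, hφa', mul_one]
      exact hva
    · rw [map_mul, hvk, one_mul]
      exact hva'
  -- so `a a' - 1 ∈ 𝔪_O ⊆ 𝔪_{W'}`
  have h2 : O.valuation (a * a' - 1) < 1 := by
    have h3 : φ (a * a' - 1) ∈ V.nonunits := by
      rw [map_sub, map_one]
      exact (ValuationSubring.mem_nonunits_iff V).2 h1
    rw [← ValuationSubring.mem_nonunits_iff]
    rw [ValuationSubring.mem_nonunits_iff_or] at h3 ⊢
    rcases h3 with h3 | h3
    · left
      exact (map_eq_zero φ).1 h3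
    · right
      intro h4
      apply h3
      rw [← map_inv₀]
      exact (hov _).2 h4
  have h4 : W'.valuation (a * a' - 1) < 1 := val_lt_one_of_le hW' h2
  have h5 : W'.valuation (a * a') = 1 := by
    have e : a * a' = 1 + (a * a' - 1) := by ring
    rw [e]
    exact Valuation.map_one_add_of_lt _ h4
  have h6 : (a * a')⁻¹ ∈ W' := by
    rw [← vs_val_le_one_iff, map_inv₀, h5, inv_one]
  have ha0 : a ≠ 0 := by
    rintro rfl
    rw [map_zero, map_zero] at hφa
    exact zero_ne_one hφa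
  have ha'0 : a' ≠ 0 := by
    rintro rfl
    rw [map_zero, map_zero] at hφa'
    exact zero_ne_one hφa'
  have e : a⁻¹ = a' * (a * a')⁻¹ := by field_simp
  rw [e]
  exact W'.mul_mem _ _ ha' h6

end Lift

section Transfer

variable {R : Type*} [CommSemiring R] {F' F : Type*} [Field F'] [Field F]
  [Algebra R F'] [Algebra R F]

/-- Over-lying valuation rings: congruences to `1` descend. -/
theorem val_sub_one_lt_down {φ : F' →+* F} {V : ValuationSubring F} {O : ValuationSubring F'}
    (hov : ∀ a : F', φ a ∈ V ↔ a ∈ O) {a : F'} (h : V.valuation (φ a - 1) < 1) :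
    O.valuation (a - 1) < 1 := by
  have h3 : φ (a - 1) ∈ V.nonunits := by
    rw [map_sub, map_one]
    exact (ValuationSubring.mem_nonunits_iff V).2 h
  rw [← ValuationSubring.mem_nonunits_iff]
  rw [ValuationSubring.mem_nonunits_iff_or] at h3 ⊢
  rcases h3 with h3 | h3
  · left
    exact (map_eq_zero φ).1 h3
  · right
    intro h4
    apply h3
    rw [← map_inv₀]
    exact (hov _).2 h4

theorem val_sub_one_lt_up {φ : F' →+* F} {V : ValuationSubring F} {O : ValuationSubring F'}
    (hov : ∀ a : F', φ a ∈ V ↔ a ∈ O) {a : F'} (h : O.valuation (a - 1) < 1) :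
    V.valuation (φ a - 1) < 1 := by
  have h3 : a - 1 ∈ O.nonunits := (ValuationSubring.mem_nonunits_iff O).2 h
  rw [← ValuationSubring.mem_nonunits_iff]
  rw [ValuationSubring.mem_nonunits_iff_or] at h3 ⊢
  rw [← map_one φ, ← map_sub]
  rcases h3 with h3 | h3
  · left
    rw [h3, map_zero]
  · right
    intro h4
    apply h3
    rw [← map_inv₀] at h4
    exact (hov _).1 h4

theorem val_eq_one_down {φ : F' →+* F} {V : ValuationSubring F} {O : ValuationSubring F'}
    (hov : ∀ a : F', φ a ∈ V ↔ a ∈ O) {a : F'} (h : V.valuation (φ a) = 1) :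
    O.valuation a = 1 := by
  have h1 : a ∈ O := (hov a).1 ((vs_val_le_one_iff V _).1 h.le)
  have h2 : a⁻¹ ∈ O := by
    refine (hov _).1 ((vs_val_le_one_iff V _).1 ?_)
    rw [map_inv₀, map_inv₀, h, inv_one]
  have ha0 : a ≠ 0 := by
    rintro rfl
    rw [map_zero, map_zero] at h
    exact zero_ne_one h
  exact val_eq_one_of_unit_le (le_refl O) ha0 h1 h2

theorem val_eq_one_up {φ : F' →+* F} {V : ValuationSubring F} {O : ValuationSubring F'}
    (hov : ∀ a : F', φ a ∈ V ↔ a ∈ O) {a : F'} (h : O.valuation a = 1) :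
    V.valuation (φ a) = 1 := by
  have h1 : φ a ∈ V := (hov a).2 ((vs_val_le_one_iff O _).1 h.le)
  have h2 : (φ a)⁻¹ ∈ V := by
    rw [← map_inv₀]
    refine (hov _).2 ((vs_val_le_one_iff O _).1 ?_)
    rw [map_inv₀, h, inv_one]
  have ha0 : φ a ≠ 0 := by
    intro h0
    rw [(map_eq_zero φ).1 h0, map_zero] at h
    exact zero_ne_one h
  exact val_eq_one_of_unit_le (le_refl V) ha0 h1 h2

/-- **Descent of `CondW`** along `φ` (`V` over `O`): if `y₀ ^ k ≡ φ c` on `V` then `CondW V y₀`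
implies `CondW O c`. -/
theorem condW_down (m : ℕ) (φ : F' →+* F) (hφR : ∀ r : R, φ (algebraMap R F' r) = algebraMap R F r)
    (V : ValuationSubring F) (O : ValuationSubring F') (k : ℕ) (hk : 0 < k)
    (hov : ∀ a : F', φ a ∈ V ↔ a ∈ O)
    (hres : ∀ y : F, V.valuation y = 1 → ∃ a : F', V.valuation (y ^ k - φ a) < 1)
    (hadd : ∀ y y' : F, y ∈ V → y' ∈ V → V.valuation ((y + y') ^ k - y ^ k - y' ^ k) < 1)
    {y₀ : F} {c : F'} (hy₀ : V.valuation y₀ = 1) (hc : V.valuation (y₀ ^ k - φ c) < 1)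
    (h : CondW R m V y₀) : CondW R m O c := by
  intro W' hW' hRW'
  set W := liftVal φ V O W' k hk hov hW' hres hadd with hWdef
  have hWV : W ≤ V := liftVal_le
  have hRW : ∀ r : R, algebraMap R F r ∈ W := by
    intro r
    rw [← hφR r]
    exact map_mem_liftVal (hRW' r)
  obtain ⟨h₀, v, hh₀, hv, hv', hcong⟩ := h W hWV hRW
  have hv00 : v ≠ 0 := ne_zero_of_cong hcong
  obtain ⟨a_v, hav, hav', hva⟩ := exists_unit_of_liftVal hv00 hv hv'
  obtain ⟨a_h, hha⟩ := hres h₀ hh₀
  have hv1 : V.valuation v = 1 := val_eq_one_of_unit_le hWV hv00 hv hv'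
  have hvk : V.valuation (v ^ k) = 1 := by rw [map_pow, hv1, one_pow]
  have hhk : V.valuation (h₀ ^ k) = 1 := by rw [map_pow, hh₀, one_pow]
  have hφav : V.valuation (φ a_v) = 1 := val_eq_one_of_sub_lt' hvk (val_sub_lt_symm hva)
  have hφah : V.valuation (φ a_h) = 1 := val_eq_one_of_sub_lt' hhk (val_sub_lt_symm hha)
  have hah1 : O.valuation a_h = 1 := val_eq_one_down hov hφah
  have hy₀k : V.valuation (y₀ ^ k) = 1 := by rw [map_pow, hy₀, one_pow]
  have hφc : V.valuation (φ c) = 1 := val_eq_one_of_sub_lt' hy₀k (val_sub_lt_symm hc)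
  refine ⟨a_h, a_v, hah1, hav, hav', ?_⟩
  apply val_sub_one_lt_down hov
  -- nonvanishing
  have ne_of_one : ∀ {z : F}, V.valuation z = 1 → z ≠ 0 := by
    intro z hz h0
    rw [h0, map_zero] at hz
    exact zero_ne_one hz
  have hv0 := ne_of_one hv1
  have hh0 := ne_of_one hh₀
  have hy0 := ne_of_one hy₀
  have hφav0 := ne_of_one hφav
  have hφah0 := ne_of_one hφah
  have hφc0 := ne_of_one hφc
  -- the congruences as quotients
  have q1 : V.valuation (φ c / y₀ ^ k - 1) < 1 :=
    div_sub_one_lt_of_sub hy₀k (val_sub_lt_symm hc)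
  have hvhm : V.valuation (v * h₀ ^ m) = 1 := by rw [map_mul, map_pow, hv1, hh₀, one_pow, one_mul]
  have q2 : V.valuation (y₀ / (v * h₀ ^ m) - 1) < 1 := hcong
  have q3 : V.valuation (v ^ k / φ a_v - 1) < 1 := div_sub_one_lt_of_sub hφav hva
  have q4 : V.valuation (h₀ ^ k / φ a_h - 1) < 1 := div_sub_one_lt_of_sub hφah hha
  -- product of principal units
  have pu_mul : ∀ {s t : F}, V.valuation (s - 1) < 1 → V.valuation (t - 1) < 1 →
      V.valuation (s * t - 1) < 1 := by
    intro s t hs ht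
    have e : s * t - 1 = (s - 1) * t + (t - 1) := by ring
    rw [e]
    have ht1 : V.valuation t = 1 := by
      have e2 : t = 1 + (t - 1) := by ring
      rw [e2]
      exact Valuation.map_one_add_of_lt _ ht
    refine Valuation.map_add_lt _ ?_ ht
    rw [map_mul, ht1, mul_one]
    exact hs
  have pu_pow : ∀ {s : F} (n : ℕ), V.valuation (s - 1) < 1 → V.valuation (s ^ n - 1) < 1 := by
    intro s n hs
    induction n with
    | zero => rw [pow_zero, sub_self, map_zero]; exact zero_lt_one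
    | succ n ih => rw [pow_succ]; exact pu_mul ih hs
  have e : φ (c / (a_v * a_h ^ m)) =
      (φ c / y₀ ^ k) * (y₀ / (v * h₀ ^ m)) ^ k * (v ^ k / φ a_v) * (h₀ ^ k / φ a_h) ^ m := by
    rw [map_div₀, map_mul, map_pow, div_pow, div_pow, mul_pow, ← pow_mul, ← pow_mul,
      mul_comm m k]
    field_simp
  rw [e]
  exact pu_mul (pu_mul (pu_mul q1 (pu_pow k q2)) q3) (pu_pow m q4)

/-- **Ascent of `CondW`** along `φ` (`V` over `O`). -/
theorem condW_up (m : ℕ) (φ : F' →+* F) (hφR : ∀ r : R, φ (algebraMap R F' r) = algebraMap R F r)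
    (V : ValuationSubring F) (O : ValuationSubring F')
    (hov : ∀ a : F', φ a ∈ V ↔ a ∈ O) {b : F'} (h : CondW R m O b) : CondW R m V (φ b) := by
  intro W hWV hRW
  have hW'O : W.comap φ ≤ O := by
    intro a ha
    exact (hov a).1 (hWV (ValuationSubring.mem_comap.1 ha))
  have hRW' : ∀ r : R, algebraMap R F' r ∈ W.comap φ := by
    intro r
    rw [ValuationSubring.mem_comap, hφR]
    exact hRW r
  obtain ⟨h₀, v, hh₀, hv, hv', hcong⟩ := h (W.comap φ) hW'O hRW'
  refine ⟨φ h₀, φ v, val_eq_one_up hov hh₀, ValuationSubring.mem_comap.1 hv, ?_, ?_⟩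
  · have := ValuationSubring.mem_comap.1 hv'
    rwa [map_inv₀] at this
  · have := val_sub_one_lt_up hov hcong
    rwa [map_div₀, map_mul, map_pow] at this

/-- `CondW` of an inverse. -/
theorem condW_inv (m : ℕ) {V : ValuationSubring F} {b : F} (hb : V.valuation b = 1)
    (h : CondW R m V b) : CondW R m V b⁻¹ := by
  intro W hWV hRW
  obtain ⟨h₀, v, hh₀, hv, hv', hcong⟩ := h W hWV hRW
  have hv1 : V.valuation v = 1 := val_eq_one_of_unit_le hWV (ne_zero_of_cong hcong) hv hv'
  refine ⟨h₀⁻¹, v⁻¹, by rw [map_inv₀, hh₀, inv_one], hv', by rwa [inv_inv], ?_⟩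
  have hb0 : b ≠ 0 := by
    rintro rfl
    rw [map_zero] at hb
    exact zero_ne_one hb
  have hv0 : v ≠ 0 := by
    rintro rfl
    rw [map_zero] at hv1
    exact zero_ne_one hv1
  have hh0 : h₀ ≠ 0 := by
    rintro rfl
    rw [map_zero] at hh₀
    exact zero_ne_one hh₀
  have hq : V.valuation (b / (v * h₀ ^ m)) = 1 := by
    rw [map_div₀, map_mul, map_pow, hb, hv1, hh₀, one_pow, one_mul, div_one]
  have e : b⁻¹ / (v⁻¹ * h₀⁻¹ ^ m) - 1 = -((b / (v * h₀ ^ m) - 1) * (b / (v * h₀ ^ m))⁻¹) := by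
    rw [inv_pow]
    have : h₀ ^ m ≠ 0 := pow_ne_zero _ hh0
    field_simp
    ring
  rw [e, Valuation.map_neg, map_mul, map_inv₀, hq, inv_one, mul_one]
  exact hcong

/-- `CondW` of a power. -/
theorem condW_pow (m : ℕ) {V : ValuationSubring F} {b : F} (hb : V.valuation b = 1)
    (h : CondW R m V b) (n : ℕ) : CondW R m V (b ^ n) := by
  intro W hWV hRW
  obtain ⟨h₀, v, hh₀, hv, hv', hcong⟩ := h W hWV hRW
  have hv1 : V.valuation v = 1 := val_eq_one_of_unit_le hWV (ne_zero_of_cong hcong) hv hv'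
  refine ⟨h₀ ^ n, v ^ n, by rw [map_pow, hh₀, one_pow], pow_mem hv n, ?_, ?_⟩
  · rw [← inv_pow]
    exact pow_mem hv' n
  · have e : b ^ n / (v ^ n * (h₀ ^ n) ^ m) = (b / (v * h₀ ^ m)) ^ n := by
      rw [div_pow, mul_pow, ← pow_mul, ← pow_mul, mul_comm n m]
    rw [e]
    exact pu1_pow hcong n

/-- `CondW` only depends on the residue. -/
theorem condW_congr (m : ℕ) {V : ValuationSubring F} {b b' : F} (hb : V.valuation b = 1)
    (hbb' : V.valuation (b' / b - 1) < 1) (h : CondW R m V b) : CondW R m V b' := by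
  intro W hWV hRW
  obtain ⟨h₀, v, hh₀, hv, hv', hcong⟩ := h W hWV hRW
  have hv1 : V.valuation v = 1 := val_eq_one_of_unit_le hWV (ne_zero_of_cong hcong) hv hv'
  refine ⟨h₀, v, hh₀, hv, hv', ?_⟩
  have hb0 : b ≠ 0 := by
    rintro rfl
    rw [map_zero] at hb
    exact zero_ne_one hb
  have hq : V.valuation (b / (v * h₀ ^ m)) = 1 := by
    rw [map_div₀, map_mul, map_pow, hb, hv1, hh₀, one_pow, one_mul, div_one]
  have e : b' / (v * h₀ ^ m) - 1 = (b' / b - 1) * (b / (v * h₀ ^ m)) + (b / (v * h₀ ^ m) - 1) := by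
    field_simp
    ring
  rw [e]
  refine Valuation.map_add_lt _ ?_ hcong
  rw [map_mul, hq, mul_one]
  exact hbb'

end Transfer

end Fermat.Agent.S59.LoSqC.H987
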