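import Fermat.Agent.S59.LoSqC.H987.RedSub
import Fermat.Agent.S59.LoSqC.H987.CondWCore
import Fermat.Agent.S36.H987.PureCtx

/-!
# S59 / cell (C) LO-SQ (helper987): `CondW` from purity, and the E-form level wall

* `centre_isMaximal_987` : for a sheet `V` and a valuation subring `W < V` containing the chart
  `B = chart R {x}`, the centre `B ∩ 𝔪_W` is a closed point of the special fibre.
* `condW_unit` : in a three-component context, `m ∣ div u` and `u` a unit at `V₁, V₂, V₃` give
  `CondW R m Vᵢ u` (purity `H987.ctx_pure_fin / ctx_pure_cusp` at the centre of `W`).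
* `condW_pair` : `CondW R m V₂' b` and `CondW R m V₂' (c ^ q')` for the residues of `redPair`.
* `levelWall_of` : the E-form level wall
  `f = w ^ s * α g * β g' * h ^ m`, `m ∣ div g, g'`, for `f` with `m ∣ div f`, `NormPow α m f`,
  `NormPow β m f`, slope zero — from R-SURJ1-E (reductions at level `M q`, form `(0, *)`) and the
  toric wall.
-/

set_option autoImplicit false
set_option linter.style.haveILetI false
set_option linter.unusedSectionVars false
set_option linter.unusedVariables false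
set_option synthInstance.maxHeartbeats 400000
set_option maxHeartbeats 1600000

noncomputable section

namespace Fermat.Agent.S59.LoSqC.H987

open Fermat.Agent.S36.Eng
open Fermat.Agent.S36.H586
open Fermat.Agent.A2.H12 (IsSheet)
open Fermat.Agent.S18.H138 (chart baseField)
open Fermat.Agent.S36.H193 (centreW mem_centreW sheet_chart_le)
open Fermat.Agent

/-! ## The centre of a valuation subring below a sheet -/

section Centre

variable {R E F : Type} [CommRing R] [IsDomain R] [IsDiscreteValuationRing R]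
  [Field E] [CharZero E] [Algebra R E] [IsFractionRing R E]
  [Field F] [Algebra E F] [Algebra R F] [IsScalarTower R E F]

omit [IsDomain R] [IsDiscreteValuationRing R] in
theorem chart_le_of_mem_987 (W : ValuationSubring F) (hRW : ∀ r : R, algebraMap R F r ∈ W)
    {x : F} (hx : x ∈ W) : ∀ c ∈ chart R ({x} : Set F), c ∈ W := by
  intro c hc
  refine Fermat.Agent.A2.H12.mem_of_isIntegral_of_le W (Algebra.adjoin R ({x} : Set F)) ?_ hc
  intro a ha
  induction ha using Algebra.adjoin_induction with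
  | mem y hy =>
    rw [Set.mem_singleton_iff] at hy
    rw [hy]
    exact hx
  | algebraMap r => exact hRW r
  | add y z _ _ hy hz => exact W.add_mem _ _ hy hz
  | mul y z _ _ hy hz => exact W.mul_mem _ _ hy hz

include E in
/-- The centre on the chart of a valuation subring strictly below a sheet is a closed point of
the special fibre. -/
theorem centre_isMaximal_987 (w : R) (hw : Irreducible w) {x : F} (hx : Transcendental R x)
    [FiniteDimensional (baseField R x) F]
    {V : ValuationSubring F} (hV : IsSheet w x V) (W : ValuationSubring F) (hWV : W ≤ V)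
    (hne : W ≠ V) (hBW : ∀ c ∈ chart R ({x} : Set F), c ∈ W) :
    (centreW W (chart R ({x} : Set F)) hBW).IsMaximal ∧
      algebraMap R (chart R ({x} : Set F)) w ∈ centreW W (chart R ({x} : Set F)) hBW := by
  classical
  haveI : CharZero F := charZero_of_injective_algebraMap (algebraMap E F).injective
  obtain ⟨hN, hIC, hFr⟩ := Fermat.Agent.S18.H394.chart_instances (R := R) hx
  haveI := hN
  haveI := hIC
  haveI := hFr
  have hinjR : Function.Injective (algebraMap R F) :=
    Fermat.Agent.A2.Alg.H754.algebraMap_base_injective (E := E) (F := F)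
  have hinjB : Function.Injective (algebraMap R (chart R ({x} : Set F))) :=
    Fermat.Agent.A2.Alg.H754.algebraMap_chart_injective (E := E) (chart R ({x} : Set F))
  have hwB0 : algebraMap R (chart R ({x} : Set F)) w ≠ 0 :=
    fun h0 => hw.ne_zero (hinjB (by rw [h0, map_zero]))
  have hBV : ∀ c ∈ (chart R ({x} : Set F)), c ∈ V := sheet_chart_le hV
  set p : Ideal (chart R ({x} : Set F)) := centreW V (chart R ({x} : Set F)) hBV with hp
  set n : Ideal (chart R ({x} : Set F)) := centreW W (chart R ({x} : Set F)) hBW with hn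
  haveI hpp : p.IsPrime := inferInstance
  haveI hnp : n.IsPrime := inferInstance
  have hwp : algebraMap R (chart R ({x} : Set F)) w ∈ p :=
    (mem_centreW V (chart R ({x} : Set F)) hBV _).2 hV.2.2.1
  have hp0 : p ≠ ⊥ := by
    intro h0
    rw [h0, Ideal.mem_bot] at hwp
    exact hwB0 hwp
  have hnu : V.nonunits ≤ W.nonunits := ValuationSubring.nonunits_le_nonunits.2 hWV
  have hle : p ≤ n := by
    intro b hb
    exact (mem_centreW W _ hBW b).2 (hnu ((mem_centreW V _ hBV b).1 hb))
  have hlt : p < n := by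
    refine lt_of_le_of_ne hle ?_
    intro heq
    apply hne
    refine le_antisymm hWV ?_
    intro z hz
    obtain ⟨a, s, hs, hzas⟩ := (Fermat.Agent.S36.H193.sheet_mem_iff hinjR hw.prime hx hV z).1 hz
    have hsW : (s : F) ∈ W := hBW s s.2
    have hsn : (s : F) ∉ W.nonunits := by
      intro h
      have h1 : s ∈ n := (mem_centreW W _ hBW s).2 h
      rw [← heq] at h1
      exact hs ((mem_centreW V _ hBV s).1 h1)
    have hsinv : (s : F)⁻¹ ∈ W := by
      by_contra h
      exact hsn ((ValuationSubring.mem_nonunits_iff_or W).2 (Or.inr h))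
    rw [hzas]
    exact W.mul_mem _ _ (hBW a a.2) hsinv
  haveI := Fermat.Agent.S18.H138.isNoetherianRing_adjoin_singleton (R := R) hx
  letI : Algebra (Algebra.adjoin R ({x} : Set F)) (chart R ({x} : Set F)) :=
    inferInstanceAs (Algebra (Algebra.adjoin R ({x} : Set F))
      (integralClosure (Algebra.adjoin R ({x} : Set F)) F))
  haveI : Algebra.IsIntegral (Algebra.adjoin R ({x} : Set F)) (chart R ({x} : Set F)) :=
    inferInstanceAs (Algebra.IsIntegral (Algebra.adjoin R ({x} : Set F))
      (integralClosure (Algebra.adjoin R ({x} : Set F)) F))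
  exact ⟨Fermat.Agent.A2.Alg.H754.isMaximal_of_lt_of_ne_bot
    (A₀ := Algebra.adjoin R ({x} : Set F))
    (Fermat.Agent.A2.Alg.H754.ringKrullDim_adjoin_le x hx) p n hp0 hlt, hle hwp⟩

end Centre

/-! ## `CondW` from purity -/

section Unit

variable {R E F F' : Type} [CommRing R] [IsDomain R] [IsDiscreteValuationRing R]
  [Field E] [CharZero E] [Algebra R E] [IsFractionRing R E]
  [Field F] [Algebra E F] [Algebra R F] [IsScalarTower R E F]
  [Field F'] [Algebra E F'] [Algebra R F']
variable {w : R} {q : ℕ} {α β : F' →ₐ[E] F} {x : F} {x' : F'}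
  {V₁ V₂ V₃ : ValuationSubring F} {V₁' V₂' : ValuationSubring F'}

/-- From a purity datum at the centre of `W` to the local shape `u = v * h ^ m`. -/
theorem condW_of_datum_987 {B : Subalgebra R F} {V W : ValuationSubring F} (hWV : W ≤ V)
    (hBW : ∀ c ∈ B, c ∈ W) {m : ℕ} (hm : 0 < m) {u : F} (hu : UnitAt V u)
    (h : ∃ d : F, d ≠ 0 ∧ ∃ a₀ s₀ : B, a₀ ∉ centreW W B hBW ∧ s₀ ∉ centreW W B hBW ∧
      u * d ^ m * (s₀ : F) = a₀) :
    ∃ h v : F, V.valuation h = 1 ∧ v ∈ W ∧ v⁻¹ ∈ W ∧ V.valuation (u / (v * h ^ m) - 1) < 1 := by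
  obtain ⟨d, hd0, a₀, s₀, ha₀, hs₀, hpure⟩ := h
  have haW : (a₀ : F) ∈ W := hBW a₀ a₀.2
  have hsW : (s₀ : F) ∈ W := hBW s₀ s₀.2
  have han : (a₀ : F) ∉ W.nonunits := fun h => ha₀ ((mem_centreW W B hBW a₀).2 h)
  have hsn : (s₀ : F) ∉ W.nonunits := fun h => hs₀ ((mem_centreW W B hBW s₀).2 h)
  have hainv : (a₀ : F)⁻¹ ∈ W := by
    by_contra h
    exact han ((ValuationSubring.mem_nonunits_iff_or W).2 (Or.inr h))
  have hsinv : (s₀ : F)⁻¹ ∈ W := by
    by_contra h
    exact hsn ((ValuationSubring.mem_nonunits_iff_or W).2 (Or.inr h))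
  have ha0 : (a₀ : F) ≠ 0 := fun h =>
    han ((ValuationSubring.mem_nonunits_iff_or W).2 (Or.inl h))
  have hs0 : (s₀ : F) ≠ 0 := fun h =>
    hsn ((ValuationSubring.mem_nonunits_iff_or W).2 (Or.inl h))
  have hv0 : (a₀ : F) * (s₀ : F)⁻¹ ≠ 0 := mul_ne_zero ha0 (inv_ne_zero hs0)
  have hvW : (a₀ : F) * (s₀ : F)⁻¹ ∈ W := W.mul_mem _ _ haW hsinv
  have hvW' : ((a₀ : F) * (s₀ : F)⁻¹)⁻¹ ∈ W := by
    rw [mul_inv, inv_inv]
    exact W.mul_mem _ _ hainv hsW
  have hv1 : V.valuation ((a₀ : F) * (s₀ : F)⁻¹) = 1 :=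
    val_eq_one_of_unit_le hWV hv0 hvW hvW'
  have hu1 : V.valuation u = 1 :=
    val_eq_one_of_unit_le (le_refl V) hu.1 hu.2.1 hu.2.2
  have hdm0 : d ^ m ≠ 0 := pow_ne_zero _ hd0
  have e : u = (a₀ : F) * (s₀ : F)⁻¹ * (d⁻¹) ^ m := by
    rw [inv_pow]
    field_simp
    rw [← hpure]
    ring
  refine ⟨d⁻¹, (a₀ : F) * (s₀ : F)⁻¹, ?_, hvW, hvW', ?_⟩
  · apply val_pow_eq_one hm
    have h1 := congrArg V.valuation e
    rw [hu1, map_mul, hv1, one_mul] at h1
    exact h1.symm
  · have e2 : u / ((a₀ : F) * (s₀ : F)⁻¹ * (d⁻¹) ^ m) - 1 = 0 := by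
      rw [← e, div_self hu.1, sub_self]
    rw [e2, map_zero]
    exact zero_lt_one

/-- **`CondW` from purity**: `m ∣ div u` and `u` a unit of `V₁, V₂, V₃` ⟹ the residue of `u`
along each `Vᵢ` has `m`-divisible divisor. -/
theorem condW_unit (hw : Irreducible w) (hq : q.Prime)
    (ctx : TripleCtx w q α β x x' V₁ V₂ V₃ V₁' V₂')
    {m : ℕ} (hm : 0 < m) {u : F} (hdiv : A2.DivisibleDiv E m u)
    (hu₁ : UnitAt V₁ u) (hu₂ : UnitAt V₂ u) (hu₃ : UnitAt V₃ u)
    (V : ValuationSubring F) (hV : V = V₁ ∨ V = V₂ ∨ V = V₃) : CondW R m V u := by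
  have hsheet : IsSheet w x V := by
    rcases hV with rfl | rfl | rfl
    · exact Fermat.Agent.S36.H987.ctx_isSheet₁ ctx
    · exact Fermat.Agent.S36.H987.ctx_isSheet₂ hq ctx
    · exact Fermat.Agent.S36.H987.ctx_isSheet₃ ctx
  have huV : UnitAt V u := by
    rcases hV with rfl | rfl | rfl
    · exact hu₁
    · exact hu₂
    · exact hu₃
  intro W hWV hRW
  by_cases hne : W = V
  · subst hne
    refine ⟨1, u, map_one _, huV.2.1, huV.2.2, ?_⟩
    rw [one_pow, mul_one, div_self huV.1, sub_self, map_zero]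
    exact zero_lt_one
  have hxR : Transcendental R x := Fermat.Agent.A2.Alg.H754.transcendental_base ctx.hx
  have hx0 : x ≠ 0 := ctx.x_unit₁.1
  by_cases hxW : x ∈ W
  · -- the finite chart
    haveI := Fermat.Agent.A2.Alg.H754.finiteDimensional_baseField (R := R) x ctx.hfin
    have hBW := chart_le_of_mem_987 W hRW hxW
    obtain ⟨hmax, hwn⟩ := centre_isMaximal_987 (E := E) w hw hxR hsheet W hWV hne hBW
    exact condW_of_datum_987 hWV hBW hm huV
      (Fermat.Agent.S36.H987.ctx_pure_fin hw hq ctx _ hmax hwn hm hdiv hu₁ hu₂ hu₃)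
  · -- the chart at infinity, at a cusp
    have hxiW : x⁻¹ ∈ W := (W.mem_or_inv_mem x).resolve_left hxW
    have hxin : x⁻¹ ∈ W.nonunits := by
      rw [ValuationSubring.mem_nonunits_iff_or]
      right
      rwa [inv_inv]
    have hxiR : Transcendental R x⁻¹ := Fermat.Agent.S18.H138.transcendental_inv hxR
    have hfini := Fermat.Agent.S36.H987.finiteDimensional_adjoin_inv987 ctx.hfin
    haveI := Fermat.Agent.A2.Alg.H754.finiteDimensional_baseField (R := R) x⁻¹ hfini
    have hsheet' : IsSheet w x⁻¹ V := (Fermat.Agent.S36.H193.isSheet_inv_iff w hx0 V).2 hsheet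
    have hBW := chart_le_of_mem_987 W hRW hxiW
    obtain ⟨hmax, hwn⟩ := centre_isMaximal_987 (E := E) w hw hxiR hsheet' W hWV hne hBW
    have hxn : (⟨x⁻¹, Fermat.Agent.S18.H138.mem_chart_of_mem rfl⟩ : chart R ({x⁻¹} : Set F)) ∈
        centreW W (chart R ({x⁻¹} : Set F)) hBW :=
      (mem_centreW W _ hBW _).2 hxin
    exact condW_of_datum_987 hWV hBW hm huV
      (Fermat.Agent.S36.H987.ctx_pure_cusp hw hq ctx _ hmax hwn hxn hm hdiv hu₁ hu₂ hu₃)

end Unit

end Fermat.Agent.S59.LoSqC.H987

end
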