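import Fermat.Agent.S36.H586.StepAB

/-!
# S59 / cell (C) LO-SQ, REALIZE, reduction half in MIXED form (helper987): abstract core

Setting of `S36/H586/StepAB.lean` (`H586.NormTable` for `α` and `β`).  Let `u` be a unit at
`V_FF`, `V_mid`, `V_VV` (NO newness).

* `exists_red_triple` : there are `a₁ b₂ c : F'` (units at `V1`, `V2`, `V2`) with
  `u ≡ α a₁` on `V_FF`, `u ≡ α a₁ · β b₂` on `V_mid`, `α c ≡ (u / β b₂) ^ q` on `V_VV`.
* `redGen_core` : for `g ≡ (a₁ h₁ ^ m, c ^ q' h₂ ^ m)` and `g' ≡ (h₁' ^ m, b₂ h₂' ^ m)` on `(V1, V2)`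
  (`q q' = 1 + j m`) there is `G ≠ 0` with `u / (α g · β g' · G ^ m) ≡ 1` on the three places.
-/

set_option autoImplicit false

namespace Fermat.Agent.S59.LoSqC.H987

open Fermat.Agent.S36.H586

section RedGen

variable {F' F : Type*} [Field F'] [Field F]

theorem val_one_ne_zero_987 {V : ValuationSubring F} {z : F} (hz : V.valuation z = 1) :
    z ≠ 0 := by
  intro h0
  rw [h0, map_zero] at hz
  exact zero_ne_one hz

/-- The residues to be realised at level `M q` (mixed form). -/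
theorem exists_red_triple
    (α β : F' →+* F) (Nα Nβ : F → F') (q : ℕ)
    (w' : F') (π : F)
    (V1 V2 : ValuationSubring F') (VFF Vmid VVV : ValuationSubring F)
    (Tα : NormTable α Nα q w' π V1 V2 VFF Vmid VVV)
    (Tβ : NormTable β Nβ q w' π V2 V1 VVV Vmid VFF)
    (u : F) (huFF : VFF.valuation u = 1) (humid : Vmid.valuation u = 1)
    (huVV : VVV.valuation u = 1) :
    ∃ a₁ b₂ c : F', V1.valuation a₁ = 1 ∧ V2.valuation b₂ = 1 ∧ V2.valuation c = 1 ∧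
      PU VFF (u / α a₁) ∧ PU Vmid (u / (α a₁ * β b₂)) ∧
      PU VVV ((u / β b₂) ^ q / α c) := by
  obtain ⟨a₁, ha₁⟩ := Tα.res_u u huFF
  have hαa₁FF : VFF.valuation (α a₁) = 1 := val_eq_one_of_sub_lt huFF ha₁
  have ha₁1 : V1.valuation a₁ = 1 := (over_val_eq_one Tα.over_u a₁).1 hαa₁FF
  have hαa₁mid : Vmid.valuation (α a₁) = 1 := (over_val_eq_one Tα.over_r a₁).2 ha₁1
  have hαa₁0 : α a₁ ≠ 0 := val_one_ne_zero_987 hαa₁FF
  have hy : Vmid.valuation (u / α a₁) = 1 := by rw [map_div₀, humid, hαa₁mid, div_one]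
  obtain ⟨b₂, hb₂⟩ := Tβ.res_r (u / α a₁) hy
  have hβb₂mid : Vmid.valuation (β b₂) = 1 := val_eq_one_of_sub_lt hy hb₂
  have hb₂1 : V2.valuation b₂ = 1 := (over_val_eq_one Tβ.over_r b₂).1 hβb₂mid
  have hβb₂VV : VVV.valuation (β b₂) = 1 := (over_val_eq_one Tβ.over_u b₂).2 hb₂1
  have hβb₂0 : β b₂ ≠ 0 := val_one_ne_zero_987 hβb₂mid
  have hz : VVV.valuation (u / β b₂) = 1 := by rw [map_div₀, huVV, hβb₂VV, div_one]
  obtain ⟨c, hc⟩ := Tα.res_i (u / β b₂) hz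
  have hzq : VVV.valuation ((u / β b₂) ^ q) = 1 := by rw [map_pow, hz, one_pow]
  have hαc : VVV.valuation (α c) = 1 := val_eq_one_of_sub_lt hzq hc
  have hc1 : V2.valuation c = 1 := (over_val_eq_one Tα.over_i c).1 hαc
  refine ⟨a₁, b₂, c, ha₁1, hb₂1, hc1, pu_div_of_sub hαa₁FF ha₁, ?_, pu_div_of_sub hαc hc⟩
  have h1 : PU Vmid (u / α a₁ / β b₂) := pu_div_of_sub hβb₂mid hb₂
  have e : u / (α a₁ * β b₂) = u / α a₁ / β b₂ := by field_simp
  rw [e]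
  exact h1

/-- **REALIZE, reduction half in mixed form (abstract core).** -/
theorem redGen_core
    (α β : F' →+* F) (Nα Nβ : F → F') (q m : ℕ)
    (w' : F') (π : F)
    (V1 V2 : ValuationSubring F') (VFF Vmid VVV : ValuationSubring F)
    (Tα : NormTable α Nα q w' π V1 V2 VFF Vmid VVV)
    (Tβ : NormTable β Nβ q w' π V2 V1 VVV Vmid VFF)
    (hap_res : ∀ g₁ g₂ g₃ : F, VFF.valuation g₁ = 1 → Vmid.valuation g₂ = 1 →
      VVV.valuation g₃ = 1 → ∃ g : F, PU VFF (g / g₁) ∧ PU Vmid (g / g₂) ∧ PU VVV (g / g₃))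
    (u : F) (huVV : VVV.valuation u = 1)
    (a₁ b₂ c : F') (ha₁ : V1.valuation a₁ = 1) (hb₂ : V2.valuation b₂ = 1)
    (hc : V2.valuation c = 1)
    (hu1 : PU VFF (u / α a₁)) (hu2 : PU Vmid (u / (α a₁ * β b₂)))
    (hu3 : PU VVV ((u / β b₂) ^ q / α c))
    (q' j : ℕ) (hqq : q * q' = 1 + j * m)
    (g g' h₁ h₂ h₁' h₂' : F') (hh₁ : V1.valuation h₁ = 1) (hh₂ : V2.valuation h₂ = 1)
    (hh₁' : V1.valuation h₁' = 1) (hh₂' : V2.valuation h₂' = 1)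
    (hg1 : PU V1 (g / (a₁ * h₁ ^ m))) (hg2 : PU V2 (g / (c ^ q' * h₂ ^ m)))
    (hg'1 : PU V1 (g' / h₁' ^ m)) (hg'2 : PU V2 (g' / (b₂ * h₂' ^ m))) :
    ∃ G : F, G ≠ 0 ∧ PU VFF (u / (α g * β g' * G ^ m)) ∧
      PU Vmid (u / (α g * β g' * G ^ m)) ∧ PU VVV (u / (α g * β g' * G ^ m)) := by
  -- nonvanishing and units
  have ha₁0 : a₁ ≠ 0 := val_one_ne_zero_987 ha₁
  have hb₂0 : b₂ ≠ 0 := val_one_ne_zero_987 hb₂
  have hc0 : c ≠ 0 := val_one_ne_zero_987 hc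
  have hh₁0 : h₁ ≠ 0 := val_one_ne_zero_987 hh₁
  have hh₂0 : h₂ ≠ 0 := val_one_ne_zero_987 hh₂
  have hh₂'0 : h₂' ≠ 0 := val_one_ne_zero_987 hh₂'
  have hh₁'0 : h₁' ≠ 0 := val_one_ne_zero_987 hh₁'
  have hH₁'0 : β h₁' ≠ 0 := (map_ne_zero β).2 hh₁'0
  have hH₁'FF : VFF.valuation (β h₁') = 1 := (over_val_eq_one Tβ.over_i h₁').2 hh₁'
  have hA₁0 : α a₁ ≠ 0 := (map_ne_zero α).2 ha₁0
  have hB₂0 : β b₂ ≠ 0 := (map_ne_zero β).2 hb₂0
  have hC0 : α c ≠ 0 := (map_ne_zero α).2 hc0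
  have hH₁0 : α h₁ ≠ 0 := (map_ne_zero α).2 hh₁0
  have hH₂0 : α h₂ ≠ 0 := (map_ne_zero α).2 hh₂0
  have hH₂'0 : β h₂' ≠ 0 := (map_ne_zero β).2 hh₂'0
  have hu0 : u ≠ 0 := val_one_ne_zero_987 huVV
  have hg0 : g ≠ 0 := by
    rintro rfl
    rw [zero_div] at hg1
    exact hg1.ne_zero rfl
  have hg'0 : g' ≠ 0 := by
    rintro rfl
    rw [zero_div] at hg'1
    exact hg'1.ne_zero rfl
  have hG0' : α g ≠ 0 := (map_ne_zero α).2 hg0
  have hG'0' : β g' ≠ 0 := (map_ne_zero β).2 hg'0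
  have hH₁FF : VFF.valuation (α h₁) = 1 := (over_val_eq_one Tα.over_u h₁).2 hh₁
  have hH₁mid : Vmid.valuation (α h₁) = 1 := (over_val_eq_one Tα.over_r h₁).2 hh₁
  have hH₂VV : VVV.valuation (α h₂) = 1 := (over_val_eq_one Tα.over_i h₂).2 hh₂
  have hH₂'mid : Vmid.valuation (β h₂') = 1 := (over_val_eq_one Tβ.over_r h₂').2 hh₂'
  have hH₂'VV : VVV.valuation (β h₂') = 1 := (over_val_eq_one Tβ.over_u h₂').2 hh₂'
  have hBVV : VVV.valuation (β b₂) = 1 := (over_val_eq_one Tβ.over_u b₂).2 hb₂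
  -- pull-backs
  have gFF : PU VFF (α g / (α a₁ * (α h₁) ^ m)) := by
    have := (over_pu Tα.over_u _).2 hg1
    rwa [map_div₀, map_mul, map_pow] at this
  have gmid : PU Vmid (α g / (α a₁ * (α h₁) ^ m)) := by
    have := (over_pu Tα.over_r _).2 hg1
    rwa [map_div₀, map_mul, map_pow] at this
  have gVV : PU VVV (α g / ((α c) ^ q' * (α h₂) ^ m)) := by
    have := (over_pu Tα.over_i _).2 hg2
    rwa [map_div₀, map_mul, map_pow, map_pow] at this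
  have g'FF : PU VFF (β g' / (β h₁') ^ m) := by
    have := (over_pu Tβ.over_i _).2 hg'1
    rwa [map_div₀, map_pow] at this
  have g'mid : PU Vmid (β g' / (β b₂ * (β h₂') ^ m)) := by
    have := (over_pu Tβ.over_r _).2 hg'2
    rwa [map_div₀, map_mul, map_pow] at this
  have g'VV : PU VVV (β g' / (β b₂ * (β h₂') ^ m)) := by
    have := (over_pu Tβ.over_u _).2 hg'2
    rwa [map_div₀, map_mul, map_pow] at this
  -- approximation
  have hyVV : VVV.valuation (u / β b₂) = 1 := by rw [map_div₀, huVV, hBVV, div_one]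
  obtain ⟨G, hG1, hG2, hG3⟩ := hap_res (α h₁ * β h₁')⁻¹ (α h₁ * β h₂')⁻¹
    (((u / β b₂) ^ j * (α h₂ * β h₂'))⁻¹)
    (by rw [map_inv₀, map_mul, hH₁FF, hH₁'FF, one_mul, inv_one])
    (by rw [map_inv₀, map_mul, hH₁mid, hH₂'mid, one_mul, inv_one])
    (by rw [map_inv₀, map_mul, map_mul, map_pow, hyVV, hH₂VV, hH₂'VV, one_pow, one_mul, one_mul,
      inv_one])
  have hG0 : G ≠ 0 := by
    intro h0
    rw [h0, zero_div] at hG1
    exact hG1.ne_zero rfl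
  have hGm0 : G ^ m ≠ 0 := pow_ne_zero _ hG0
  refine ⟨G, hG0, ?_, ?_, ?_⟩
  · have e : u / (α g * β g' * G ^ m) =
        (u / α a₁) * (α g / (α a₁ * (α h₁) ^ m))⁻¹ * (β g' / (β h₁') ^ m)⁻¹ *
          ((G / (α h₁ * β h₁')⁻¹) ^ m)⁻¹ := by
      rw [div_pow, inv_pow, mul_pow]
      field_simp
    rw [e]
    exact ((hu1.mul gFF.inv).mul g'FF.inv).mul (hG1.pow m).inv
  · have e : u / (α g * β g' * G ^ m) =
        (u / (α a₁ * β b₂)) * (α g / (α a₁ * (α h₁) ^ m))⁻¹ *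
          (β g' / (β b₂ * (β h₂') ^ m))⁻¹ * ((G / (α h₁ * β h₂')⁻¹) ^ m)⁻¹ := by
      rw [div_pow, inv_pow, mul_pow]
      field_simp
    rw [e]
    exact ((hu2.mul gmid.inv).mul g'mid.inv).mul (hG2.pow m).inv
  · have hpow : (u / β b₂) ^ (q * q') = (u / β b₂) * ((u / β b₂) ^ j) ^ m := by
      rw [hqq, pow_add, pow_one, pow_mul]
    have e : u / (α g * β g' * G ^ m) =
        (α g / ((α c) ^ q' * (α h₂) ^ m))⁻¹ * (β g' / (β b₂ * (β h₂') ^ m))⁻¹ *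
          ((G / ((u / β b₂) ^ j * (α h₂ * β h₂'))⁻¹) ^ m)⁻¹ *
          (((u / β b₂) ^ q / α c) ^ q') := by
      rw [div_pow (_ ^ q), ← pow_mul, hpow, div_pow G, inv_pow, mul_pow ((u / β b₂) ^ j),
        mul_pow (α h₂), div_pow, div_pow]
      field_simp
    rw [e]
    exact ((gVV.inv.mul g'VV.inv).mul (hG3.pow m).inv).mul (hu3.pow q')

end RedGen

end Fermat.Agent.S59.LoSqC.H987
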