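import Fermat.Agent.S59.LoSqC.H987.LevelWall
import Fermat.Agent.S59.LoSqC.H987.RedGenCore
import Fermat.Agent.S59.LoSqC.Spec

/-!
# S59 / cell (C) LO-SQ (helper987): REALIZE from RED-SURJ (E-form, mixed shape) and the toric wall

Context = `Eng.TripleCtx`.  NO newness.

* `condW_one`, `condW_mul` : `CondW` is multiplicative.
* `condW_triple` : for the residues `a₁`, `b₂`, `c` of `exists_red_triple`
  (`u ≡ α a₁` on `V₁`, `u ≡ α a₁ · β b₂` on `V₂`, `α c ≡ (u / β b₂) ^ q` on `V₃`) of a unit `u`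
  with `m ∣ div u`:  `CondW R m V₁' a₁`, `CondW R m V₂' b₂`, `CondW R m V₂' (c ^ q')`.
* `RedSurjE` : RED-SURJ in E-form, mixed shape `(*, *)`: every pair of residues `(a, b)` on
  `(V₁', V₂')` with `m`-divisible divisors (`CondW`) is, up to `m`-th powers, the pair of residues
  of some `g` with `m ∣ div g`.
* **`realizeAt_of`** : `RedSurjE → ToricWallE → LoSqC.RealizeAt` (frozen `Spec` shape, `c = 1`).
-/

set_option autoImplicit false
set_option linter.style.haveILetI false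
set_option linter.unusedSectionVars false
set_option linter.unusedVariables false
set_option synthInstance.maxHeartbeats 400000
set_option maxHeartbeats 1600000

noncomputable section

namespace Fermat.Agent.S59.LoSqC.H987

open Fermat.Agent.S36.Eng
open Fermat.Agent.S36.H586
open Fermat.Agent

section CondWMul

variable {R : Type*} [CommSemiring R] {F : Type*} [Field F] [Algebra R F]

theorem condW_one (m : ℕ) (V : ValuationSubring F) : CondW R m V (1 : F) := by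
  intro W _ _
  refine ⟨1, 1, map_one _, W.one_mem, by rw [inv_one]; exact W.one_mem, ?_⟩
  rw [one_pow, mul_one, div_one, sub_self, map_zero]
  exact zero_lt_one

theorem condW_mul (m : ℕ) {V : ValuationSubring F} {a b : F} (ha : CondW R m V a)
    (hb : CondW R m V b) : CondW R m V (a * b) := by
  intro W hWV hRW
  obtain ⟨h₁, v₁, hh₁, hv₁, hv₁', e₁⟩ := ha W hWV hRW
  obtain ⟨h₂, v₂, hh₂, hv₂, hv₂', e₂⟩ := hb W hWV hRW
  refine ⟨h₁ * h₂, v₁ * v₂, by rw [map_mul, hh₁, hh₂, one_mul], W.mul_mem _ _ hv₁ hv₂, ?_, ?_⟩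
  · rw [mul_inv]
    exact W.mul_mem _ _ hv₁' hv₂'
  · have e : a * b / (v₁ * v₂ * (h₁ * h₂) ^ m) = (a / (v₁ * h₁ ^ m)) * (b / (v₂ * h₂ ^ m)) := by
      rw [div_mul_div_comm, mul_pow]
      congr 1
      ring
    rw [e]
    exact pu1_mul e₁ e₂

end CondWMul

section Defs

/-- **RED-SURJ in E-form**, mixed shape `(*, *)`. -/
def RedSurjE (R E : Type) {F' : Type} [CommRing R] [Field E] [Field F'] [Algebra E F']
    [Algebra R F'] (m : ℕ) (V₁' V₂' : ValuationSubring F') : Prop :=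
  ∀ a b : F', V₁'.valuation a = 1 → V₂'.valuation b = 1 → CondW R m V₁' a → CondW R m V₂' b →
    ∃ g h₁ h₂ : F', A2.DivisibleDiv E m g ∧ V₁'.valuation h₁ = 1 ∧ V₂'.valuation h₂ = 1 ∧
      g / (a * h₁ ^ m) - 1 ∈ V₁'.nonunits ∧ g / (b * h₂ ^ m) - 1 ∈ V₂'.nonunits

end Defs

section Main

variable {R E F F' : Type} [CommRing R] [IsDomain R] [IsDiscreteValuationRing R]
  [HenselianLocalRing R] [IsAlgClosed (IsLocalRing.ResidueField R)]
  [Field E] [CharZero E] [Algebra R E] [IsFractionRing R E]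
  [Field F] [Algebra E F] [Algebra R F] [IsScalarTower R E F]
  [Field F'] [Algebra E F'] [Algebra R F'] [IsScalarTower R E F']

theorem val_of_unitAt_987 {V : ValuationSubring F} {u : F} (h : UnitAt V u) :
    V.valuation u = 1 :=
  val_eq_one_of_unit_le (le_refl V) h.1 h.2.1 h.2.2

/-- **`CondW` for the residues of `exists_red_triple`.** -/
theorem condW_triple (w : R) (hw : Irreducible w) (q : ℕ) (hq : q.Prime)
    (hqR : (q : R) ∈ IsLocalRing.maximalIdeal R)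
    (α β : F' →ₐ[E] F) (x : F) (x' : F')
    (V₁ V₂ V₃ : ValuationSubring F) (V₁' V₂' : ValuationSubring F')
    (T : TripleCtx w q α β x x' V₁ V₂ V₃ V₁' V₂') {m : ℕ} (hm : 0 < m)
    (u : F) (hdu : A2.DivisibleDiv E m u)
    (hU₁ : UnitAt V₁ u) (hU₂ : UnitAt V₂ u) (hU₃ : UnitAt V₃ u)
    (a₁ b₂ c : F') (ha₁ : V₁'.valuation a₁ = 1) (hb₂ : V₂'.valuation b₂ = 1)
    (hc : V₂'.valuation c = 1)
    (hu1 : PU V₁ (u / α a₁)) (hu2 : PU V₂ (u / (α a₁ * β b₂)))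
    (hu3 : PU V₃ ((u / β b₂) ^ q / α c)) (q' : ℕ) :
    CondW R m V₁' a₁ ∧ CondW R m V₂' b₂ ∧ CondW R m V₂' (c ^ q') := by
  obtain ⟨π, hπ, A⟩ := absCtx_of_ctx w hw q hq hqR α β x x' V₁ V₂ V₃ V₁' V₂' T
  have hαR : ∀ r : R, (α : F' →+* F) (algebraMap R F' r) = algebraMap R F r := by
    intro r
    change α (algebraMap R F' r) = algebraMap R F r
    rw [IsScalarTower.algebraMap_apply R E F', α.commutes,
      ← IsScalarTower.algebraMap_apply R E F]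
  have hβR : ∀ r : R, (β : F' →+* F) (algebraMap R F' r) = algebraMap R F r := by
    intro r
    change β (algebraMap R F' r) = algebraMap R F r
    rw [IsScalarTower.algebraMap_apply R E F', β.commutes,
      ← IsScalarTower.algebraMap_apply R E F]
  have hv₁ : V₁.valuation u = 1 := val_of_unitAt_987 hU₁
  have hv₂ : V₂.valuation u = 1 := val_of_unitAt_987 hU₂
  have hv₃ : V₃.valuation u = 1 := val_of_unitAt_987 hU₃
  have c1 : CondW R m V₁ u := condW_unit hw hq T hm hdu hU₁ hU₂ hU₃ V₁ (Or.inl rfl)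
  have c2 : CondW R m V₂ u := condW_unit hw hq T hm hdu hU₁ hU₂ hU₃ V₂ (Or.inr (Or.inl rfl))
  have c3 : CondW R m V₃ u := condW_unit hw hq T hm hdu hU₁ hU₂ hU₃ V₃ (Or.inr (Or.inr rfl))
  have htriv : ∀ (V : ValuationSubring F) (y y' : F), y ∈ V → y' ∈ V →
      V.valuation ((y + y') ^ 1 - y ^ 1 - y' ^ 1) < 1 := by
    intro V y y' _ _
    have e : (y + y') ^ 1 - y ^ 1 - y' ^ 1 = 0 := by ring
    rw [e, map_zero]
    exact zero_lt_one
  -- `a₁` on `V₁'`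
  have hαa₁1 : V₁.valuation ((α : F' →+* F) a₁) = 1 := val_eq_one_up A.Tα.over_u ha₁
  have hαa₁2 : V₂.valuation ((α : F' →+* F) a₁) = 1 := val_eq_one_up A.Tα.over_r ha₁
  have hua₁ : V₁.valuation (u ^ 1 - (α : F' →+* F) a₁) < 1 := by
    rw [pow_one]
    exact sub_lt_of_div_sub_one hαa₁1 ((ValuationSubring.mem_nonunits_iff V₁).1 (pu_iff.1 hu1))
  have cA : CondW R m V₁' a₁ :=
    condW_down m (α : F' →+* F) hαR V₁ V₁' 1 Nat.one_pos A.Tα.over_u
      (fun y hy => by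
        obtain ⟨a, ha⟩ := A.Tα.res_u y hy
        exact ⟨a, by rw [pow_one]; exact ha⟩)
      (htriv V₁) hv₁ hua₁ c1
  -- `b₂` on `V₂'`
  have cA2 : CondW R m V₂ ((α : F' →+* F) a₁) :=
    condW_up m (α : F' →+* F) hαR V₂ V₁' A.Tα.over_r cA
  have cB0 : CondW R m V₂ (u * ((α : F' →+* F) a₁)⁻¹) :=
    condW_mul m c2 (condW_inv m hαa₁2 cA2)
  have hβb₂2 : V₂.valuation ((β : F' →+* F) b₂) = 1 := val_eq_one_up A.Tβ.over_r hb₂
  have hβb₂3 : V₃.valuation ((β : F' →+* F) b₂) = 1 := val_eq_one_up A.Tβ.over_u hb₂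
  have hy2 : V₂.valuation (u * ((α : F' →+* F) a₁)⁻¹) = 1 := by
    rw [map_mul, map_inv₀, hv₂, hαa₁2, inv_one, one_mul]
  have hαa₁0 : (α : F' →+* F) a₁ ≠ 0 := val_one_ne_zero_987 hαa₁1
  have hβb₂0 : (β : F' →+* F) b₂ ≠ 0 := val_one_ne_zero_987 hβb₂2
  have hub₂ : V₂.valuation ((u * ((α : F' →+* F) a₁)⁻¹) ^ 1 - (β : F' →+* F) b₂) < 1 := by
    rw [pow_one]
    apply sub_lt_of_div_sub_one hβb₂2
    have e : u * ((α : F' →+* F) a₁)⁻¹ / (β : F' →+* F) b₂ =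
        u / ((α : F' →+* F) a₁ * (β : F' →+* F) b₂) := by
      field_simp
    rw [e]
    exact (ValuationSubring.mem_nonunits_iff V₂).1 (pu_iff.1 hu2)
  have cB : CondW R m V₂' b₂ :=
    condW_down m (β : F' →+* F) hβR V₂ V₂' 1 Nat.one_pos A.Tβ.over_r
      (fun y hy => by
        obtain ⟨a, ha⟩ := A.Tβ.res_r y hy
        exact ⟨a, by rw [pow_one]; exact ha⟩)
      (htriv V₂) hy2 hub₂ cB0
  -- `c` on `V₂'`
  have cB3 : CondW R m V₃ ((β : F' →+* F) b₂) :=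
    condW_up m (β : F' →+* F) hβR V₃ V₂' A.Tβ.over_u cB
  have cC0 : CondW R m V₃ (u * ((β : F' →+* F) b₂)⁻¹) :=
    condW_mul m c3 (condW_inv m hβb₂3 cB3)
  have hy3 : V₃.valuation (u * ((β : F' →+* F) b₂)⁻¹) = 1 := by
    rw [map_mul, map_inv₀, hv₃, hβb₂3, inv_one, one_mul]
  have hαc3 : V₃.valuation ((α : F' →+* F) c) = 1 := val_eq_one_up A.Tα.over_i hc
  have huc : V₃.valuation ((u * ((β : F' →+* F) b₂)⁻¹) ^ q - (α : F' →+* F) c) < 1 := by
    apply sub_lt_of_div_sub_one hαc3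
    have e : (u * ((β : F' →+* F) b₂)⁻¹) ^ q / (α : F' →+* F) c =
        (u / (β : F' →+* F) b₂) ^ q / (α : F' →+* F) c := by
      rw [div_eq_mul_inv u]
    rw [e]
    exact (ValuationSubring.mem_nonunits_iff V₃).1 (pu_iff.1 hu3)
  have hqV₃ : V₃.valuation (q : F) < 1 :=
    natCast_lt_one_987 w hw q hqR T.base₃ T.unif₃.2.1
  have cC : CondW R m V₂' c :=
    condW_down m (α : F' →+* F) hαR V₃ V₂' q hq.pos A.Tα.over_i A.Tα.res_i
      (fun y y' hy hy' => add_pow_sub_lt_987 hq hqV₃ y y' hy hy') hy3 huc cC0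
  exact ⟨cA, cB, condW_pow m hc cC q'⟩

/-- **REALIZE** from RED-SURJ (E-form, mixed shape) and the toric wall. -/
theorem realizeAt_of (w : R) (hw : Irreducible w) (q : ℕ) (hq : q.Prime)
    (hqR : (q : R) ∈ IsLocalRing.maximalIdeal R)
    (α β : F' →ₐ[E] F) (x : F) (x' : F')
    (V₁ V₂ V₃ : ValuationSubring F) (V₁' V₂' : ValuationSubring F')
    (T : TripleCtx w q α β x x' V₁ V₂ V₃ V₁' V₂') (m : ℕ) (hm : 0 < m) (hqm : ¬ q ∣ m)
    (hR : RedSurjE R E m V₁' V₂') (hT : ToricWallE E m α β V₁ V₂ V₃) :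
    LoSqC.RealizeAt E m α β V₁ V₂ V₃ := by
  intro u hu0 hdu hU₁ hU₂ hU₃
  obtain ⟨π, hπ, A⟩ := absCtx_of_ctx w hw q hq hqR α β x x' V₁ V₂ V₃ V₁' V₂' T
  have hv₁ : V₁.valuation u = 1 := val_of_unitAt_987 hU₁
  have hv₂ : V₂.valuation u = 1 := val_of_unitAt_987 hU₂
  have hv₃ : V₃.valuation u = 1 := val_of_unitAt_987 hU₃
  obtain ⟨a₁, b₂, c, ha₁, hb₂, hc, hu1, hu2, hu3⟩ :=
    exists_red_triple (α : F' →+* F) (β : F' →+* F)
      (S29.H395.normAlong α) (S29.H395.normAlong β) q (algebraMap R F' w) π V₁' V₂' V₁ V₂ V₃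
      A.Tα A.Tβ u hv₁ hv₂ hv₃
  obtain ⟨q', j, hqq⟩ := exists_inv_mod_987 hq.pos hm ((Nat.Prime.coprime_iff_not_dvd hq).2 hqm)
  obtain ⟨cA, cB, cC⟩ := condW_triple w hw q hq hqR α β x x' V₁ V₂ V₃ V₁' V₂' T hm u hdu
    hU₁ hU₂ hU₃ a₁ b₂ c ha₁ hb₂ hc hu1 hu2 hu3 q'
  have hcq : V₂'.valuation (c ^ q') = 1 := by rw [map_pow, hc, one_pow]
  obtain ⟨g, h₁, h₂, hdg, hh₁, hh₂, hg1, hg2⟩ := hR a₁ (c ^ q') ha₁ hcq cA cC
  obtain ⟨g', h₁', h₂', hdg', hh₁', hh₂', hg'1, hg'2⟩ :=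
    hR 1 b₂ (map_one _) hb₂ (condW_one m V₁') cB
  rw [one_mul] at hg'1
  obtain ⟨G, hG0, H1, H2, H3⟩ := redGen_core (α : F' →+* F) (β : F' →+* F)
    (S29.H395.normAlong α) (S29.H395.normAlong β) q m (algebraMap R F' w) π V₁' V₂' V₁ V₂ V₃
    A.Tα A.Tβ A.hap_res u hv₃ a₁ b₂ c ha₁ hb₂ hc hu1 hu2 hu3 q' j hqq g g' h₁ h₂ h₁' h₂'
    hh₁ hh₂ hh₁' hh₂' (pu_iff.2 hg1) (pu_iff.2 hg2) (pu_iff.2 hg'1) (pu_iff.2 hg'2)
  have hg0 : g ≠ 0 := by
    rintro rfl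
    rw [zero_div] at hg1
    exact (pu_iff.2 hg1 : PU V₁' (0 : F')).ne_zero rfl
  have hg'0 : g' ≠ 0 := by
    rintro rfl
    rw [zero_div] at hg'1
    exact (pu_iff.2 hg'1 : PU V₁' (0 : F')).ne_zero rfl
  have hA0 : α g ≠ 0 := (map_ne_zero α).2 hg0
  have hA'0 : β g' ≠ 0 := (map_ne_zero β).2 hg'0
  have hGm0 : G ^ m ≠ 0 := pow_ne_zero _ hG0
  have hdu' : A2.DivisibleDiv E m (u / (α g * β g' * G ^ m)) :=
    divisibleDiv_quot_987 m hG0 hdu (divisibleDiv_map_987 α m hg0 hdg)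
      (divisibleDiv_map_987 β m hg'0 hdg')
  obtain ⟨g₂, g₂', h, hdg₂, hdg₂', hu'⟩ :=
    hT (u / (α g * β g' * G ^ m)) hdu' (pu_iff.1 H1) (pu_iff.1 H2) (pu_iff.1 H3)
  have hu'0 : u / (α g * β g' * G ^ m) ≠ 0 :=
    div_ne_zero hu0 (mul_ne_zero (mul_ne_zero hA0 hA'0) hGm0)
  have hg₂ : g₂ ≠ 0 := by
    rintro rfl
    rw [map_zero, zero_mul, zero_mul] at hu'
    exact hu'0 hu'
  have hg₂' : g₂' ≠ 0 := by
    rintro rfl
    rw [map_zero, mul_zero, zero_mul] at hu'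
    exact hu'0 hu'
  have hh : h ≠ 0 := by
    rintro rfl
    rw [zero_pow hm.ne', mul_zero] at hu'
    exact hu'0 hu'
  refine ⟨1, g * g₂, g' * g₂', G * h, mul_ne_zero hg0 hg₂, mul_ne_zero hg'0 hg₂',
    mul_ne_zero hG0 hh, divisibleDiv_mul_987 m hdg hdg₂, divisibleDiv_mul_987 m hdg' hdg₂', ?_⟩
  have e : u = α g * β g' * G ^ m * (u / (α g * β g' * G ^ m)) := by
    field_simp
  rw [map_one, one_mul, map_mul, map_mul, mul_pow]
  calc u = α g * β g' * G ^ m * (u / (α g * β g' * G ^ m)) := e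
    _ = α g * β g' * G ^ m * (α g₂ * β g₂' * h ^ m) := by rw [← hu']
    _ = α g * α g₂ * (β g' * β g₂') * (G ^ m * h ^ m) := by ring

end Main

end Fermat.Agent.S59.LoSqC.H987

end
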