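import Fermat.Agent.S59.LoSqC.H987.Realize
import Fermat.Agent.S59.LoSqC.Skel
import Fermat.Agent.S59.LoSqC.H987.NewUnits

/-!
# S59 / cell (C) LO-SQ (helper987): `LeafRealize` from RED-SURJ and the toric wall (leaf form)

* `LeafRedSurj` : RED-SURJ at level `M q` (E-form, mixed shape, `H987.RedSurjE`) for all objects.
* `LeafToric`   : the toric wall at level `M q q` (`H987.ToricWallE`) for all objects.
* **`leafRealize_of : LeafCtx → LeafRedSurj → LeafToric → LoSqC.LeafRealize`** (frozen `Spec`).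
-/

set_option autoImplicit false
set_option linter.style.haveILetI false
set_option linter.unusedSectionVars false
set_option linter.unusedVariables false
set_option synthInstance.maxHeartbeats 400000
set_option maxHeartbeats 1600000

noncomputable section

namespace Fermat.Agent.S59.LoSqC.H987

open ModularCurve AlgebraicCurve
open Fermat.Agent.S36 Fermat.Agent.S36.Eng
open Fermat.Agent

/-- **RED-SURJ (leaf).**  At level `M q`, every pair of residues on `(V₁', V₂')` with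
`p`-divisible divisors is the pair of residues of some `g` with `p ∣ div g`, up to `p`-th
powers. -/
def LeafRedSurj : Prop :=
  Mod3.Leaf fun P E M q _ _ _ _ V₁' V₂' _ _ _ =>
    q ≠ 2 → ∀ p : ℕ, p.Prime → p ≠ 2 → p ≠ q → RedSurjE (A2.RE P E) E p V₁' V₂'

/-- **TORIC WALL (leaf).**  At level `M q q`, every `u ≡ 1` on `V₁, V₂, V₃` with `p ∣ div u` is
`α g · β g' · h ^ p` with `p ∣ div g, g'`. -/
def LeafToric : Prop :=
  Mod3.Leaf fun _ E M q _ _ _ _ _ _ V₁ V₂ V₃ =>
    q ≠ 2 → ∀ p : ℕ, p.Prime → p ≠ 2 → p ≠ q →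
      ToricWallE E p (A2.Mod.αE E (M * q) q) (A2.Mod.βE E (M * q) q) V₁ V₂ V₃

/-- **REALIZE** (frozen leaf of `LoSqC/Spec.lean`) from CTX, RED-SURJ and the toric wall. -/
theorem leafRealize_of (hCtx : LoSqC.LeafCtx) (hR : LeafRedSurj) (hT : LeafToric) :
    LoSqC.LeafRealize := by
  intro P E M q _ _ _ w hS V₁' V₂' V₁ V₂ V₃ W' W hO hq2 p hp hp2 hpq
  haveI : IsDiscreteValuationRing ↥(A2.RE P E) := hS.unram.1.dvr
  haveI : HenselianLocalRing ↥(A2.RE P E) := hS.unram.1.henselian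
  haveI : IsAlgClosed (IsLocalRing.ResidueField ↥(A2.RE P E)) := hS.unram.1.algClosed
  have hctx := hCtx P E M q w hS V₁' V₂' V₁ V₂ V₃ W' W hO
  have hqp : ¬ q ∣ p := fun hd => hpq ((Nat.prime_dvd_prime_iff_eq hS.q_prime hp).1 hd).symm
  exact realizeAt_of (R := ↥(A2.RE P E)) (E := E) (F := ↥(A2.Mod.FE E (M * q * q)))
    (F' := ↥(A2.Mod.FE E (M * q))) w hS.unif q hS.q_prime
    (natCast_mem_maximalIdeal_RE E hS.lies_over)
    (A2.Mod.αE E (M * q) q) (A2.Mod.βE E (M * q) q) (Mod3.x3E E M q) (A2.Mod.xE E M q)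
    V₁ V₂ V₃ V₁' V₂' hctx p hp.pos hqp
    (hR P E M q w hS V₁' V₂' V₁ V₂ V₃ W' W hO hq2 p hp hp2 hpq)
    (hT P E M q w hS V₁' V₂' V₁ V₂ V₃ W' W hO hq2 p hp hp2 hpq)

/-- The level wall from NEW-UNITS (proved), CTX, RED-SURJ and the toric wall. -/
theorem levelWall_of_surj (hCtx : LoSqC.LeafCtx) (hR : LeafRedSurj) (hT : LeafToric) :
    LoSqC.LevelWallStatement :=
  LoSqC.levelWall_of_leaves newUnits hCtx (leafRealize_of hCtx hR hT)

end Fermat.Agent.S59.LoSqC.H987

end
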