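import Fermat.Agent.S59.LoSqC.H987.RealizeLeaf

/-!
# S59 / cell (C) LO-SQ (helper987): RED-SURJ in mixed shape from the shape `(0, *)` and Fricke

* `redSurjE_of_rsurj1` (abstract): if `W'` is an involution of `F'` over `E` with
  `V₂' = V₁'.comap W'`, then `RSurj1E R E m V₁' V₂'` (shape `(0, *)`) implies
  `RedSurjE R E m V₁' V₂'` (shape `(*, *)`).
* `LeafRSurj1` : R-SURJ1 at level `M q` for all objects (`Mod3.Leaf` form).
* `leafRedSurj_of_rsurj1 : LeafRSurj1 → LeafRedSurj`.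
* **`leafRealize_of_rsurj1 : LeafCtx → LeafRSurj1 → LeafToric → LoSqC.LeafRealize`**.
-/

set_option autoImplicit false
set_option linter.style.haveILetI false
set_option linter.unusedSectionVars false
set_option linter.unusedVariables false
set_option synthInstance.maxHeartbeats 400000
set_option maxHeartbeats 1600000

noncomputable section

namespace Fermat.Agent.S59.LoSqC.H987

open ModularCurve AlgebraicCurve
open Fermat.Agent.S36 Fermat.Agent.S36.Eng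
open Fermat.Agent.S36.H586
open Fermat.Agent

section Abs

variable {R E F' : Type} [CommRing R] [Field E] [Algebra R E] [Field F'] [Algebra E F']
  [Algebra R F'] [IsScalarTower R E F']

/-- **Mixed shape from the shape `(0, *)` and the Fricke involution.** -/
theorem redSurjE_of_rsurj1 (m : ℕ) (V₁' V₂' : ValuationSubring F') (W' : F' ≃ₐ[E] F')
    (hinv : ∀ f, W' (W' f) = f)
    (hV : V₂' = V₁'.comap ((W' : F' →ₐ[E] F') : F' →+* F'))
    (hR : RSurj1E R E m V₁' V₂') : RedSurjE R E m V₁' V₂' := by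
  set φ : F' →+* F' := ((W' : F' →ₐ[E] F') : F' →+* F') with hφ
  have hφa : ∀ y : F', φ y = W' y := fun _ => rfl
  have hov₁ : ∀ y : F', φ y ∈ V₁' ↔ y ∈ V₂' := by
    intro y
    rw [hV, ValuationSubring.mem_comap]
  have hov₂ : ∀ y : F', φ y ∈ V₂' ↔ y ∈ V₁' := by
    intro y
    rw [hV, ValuationSubring.mem_comap]
    rw [hφa, hφa, hinv]
  have hφR : ∀ r : R, φ (algebraMap R F' r) = algebraMap R F' r := by
    intro r
    rw [hφa, IsScalarTower.algebraMap_apply R E F']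
    exact W'.commutes _
  intro a b ha hb hCa hCb
  -- shape `(1, b)`
  obtain ⟨g₂, h₂, hdg₂, hg₂1, hh₂, hg₂2⟩ := hR b hb hCb
  -- shape `(a, 1)` by Fricke
  have hWa : V₂'.valuation (φ a) = 1 := val_eq_one_up hov₂ ha
  have hCWa : CondW R m V₂' (φ a) :=
    condW_down m φ hφR V₁' V₂' 1 Nat.one_pos hov₁
      (fun y _ => ⟨φ y, by
        rw [pow_one, hφa, hφa, hinv, sub_self, map_zero]
        exact zero_lt_one⟩)
      (fun y y' _ _ => by
        have e : (y + y') ^ 1 - y ^ 1 - y' ^ 1 = 0 := by ring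
        rw [e, map_zero]
        exact zero_lt_one)
      ha (by
        rw [pow_one, hφa, hφa, hinv, sub_self, map_zero]
        exact zero_lt_one) hCa
  obtain ⟨g₁, h₁, hdg₁, hg₁1, hh₁, hg₁2⟩ := hR (φ a) hWa hCWa
  have hg₁0 : g₁ ≠ 0 := (pu_iff.2 hg₁1 : PU V₁' g₁).ne_zero
  have hP1 : PU V₁' (φ (g₁ / (φ a * h₁ ^ m))) := (over_pu hov₁ _).2 (pu_iff.2 hg₁2)
  have hP2 : PU V₂' (φ g₁) := (over_pu hov₂ _).2 (pu_iff.2 hg₁1)
  have e1 : φ (g₁ / (φ a * h₁ ^ m)) = φ g₁ / (a * (φ h₁) ^ m) := by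
    rw [map_div₀, map_mul, map_pow]
    congr 2
    rw [hφa, hφa, hinv]
  rw [e1] at hP1
  refine ⟨φ g₁ * g₂, φ h₁, h₂, ?_, val_eq_one_up hov₁ hh₁, hh₂, ?_, ?_⟩
  · exact divisibleDiv_mul_987 m (divisibleDiv_map_987 (W' : F' →ₐ[E] F') m hg₁0 hdg₁) hdg₂
  · have e : φ g₁ * g₂ / (a * (φ h₁) ^ m) = φ g₁ / (a * (φ h₁) ^ m) * g₂ := by
      rw [mul_div_right_comm]
    rw [e]
    exact pu_iff.1 (hP1.mul (pu_iff.2 hg₂1))
  · have e : φ g₁ * g₂ / (b * h₂ ^ m) = φ g₁ * (g₂ / (b * h₂ ^ m)) := by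
      rw [mul_div_assoc]
    rw [e]
    exact pu_iff.1 (hP2.mul (pu_iff.2 hg₂2))

end Abs

/-- **R-SURJ1 (leaf)**, shape `(0, *)`: at level `M q`, every residue on `V₂'` with `p`-divisible
divisor is, up to `p`-th powers, the residue of some `g` with `p ∣ div g`, `g ≡ 1` on `V₁'`. -/
def LeafRSurj1 : Prop :=
  Mod3.Leaf fun P E M q _ _ _ _ V₁' V₂' _ _ _ =>
    q ≠ 2 → ∀ p : ℕ, p.Prime → p ≠ 2 → p ≠ q → RSurj1E (A2.RE P E) E p V₁' V₂'

theorem leafRedSurj_of_rsurj1 (hR : LeafRSurj1) : LeafRedSurj := by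
  intro P E M q _ _ _ w hS V₁' V₂' V₁ V₂ V₃ W' W hO hq2 p hp hp2 hpq
  exact redSurjE_of_rsurj1 (R := ↥(A2.RE P E)) (E := E) (F' := ↥(A2.Mod.FE E (M * q))) p V₁' V₂'
    W' hO.fricke'.2 hO.vzero' (hR P E M q w hS V₁' V₂' V₁ V₂ V₃ W' W hO hq2 p hp hp2 hpq)

/-- **REALIZE** (frozen leaf) from CTX, R-SURJ1 (shape `(0, *)`) and the toric wall. -/
theorem leafRealize_of_rsurj1 (hCtx : LoSqC.LeafCtx) (hR : LeafRSurj1) (hT : LeafToric) :
    LoSqC.LeafRealize :=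
  leafRealize_of hCtx (leafRedSurj_of_rsurj1 hR) hT

end Fermat.Agent.S59.LoSqC.H987

end
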