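import Fermat.Agent.S36.H586.StepAB

/-!
# S59 / cell (C) LO-SQ, leaf W-SUB, reduction half (helper987): abstract core

Abstract setting of `S36/H586/StepAB.lean` (Mathlib only): three vertical valuations
`V_FF`, `V_mid`, `V_VV` of `F` over the two vertical valuations `V1`, `V2` of `F'`, with the norm
tables of the two degeneracy embeddings `α`, `β` (`H586.NormTable`):

* via `α`: `V_FF`, `V_mid` over `V1` (residue degree `1`), `V_VV` over `V2` (purely inseparable);
* via `β`: `V_VV`, `V_mid` over `V2` (residue degree `1`), `V_FF` over `V1` (purely inseparable).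

Let `u` be `≡ 1` on `V_FF` and `V_VV` and a unit at `V_mid` (the output of W-NEW).

* `exists_red_pair` : there are `b c : F'`, units at `V2`, with `u ≡ β b` on `V_mid` and
  `α c · (β b) ^ q ≡ 1` on `V_VV`.
* `redSub_core` : for `g g' : F'`, both `≡ 1` on `V1`, with `g' ≡ b · h ^ m` and
  `g ≡ c ^ q' · h' ^ m` on `V2` (`q q' = 1 + j m`), there is `G` with
  `u / (α g · β g' · G ^ m) ≡ 1` on `V_FF`, `V_mid`, `V_VV`.

So a class with reductions `(0, ρ, 0)` is killed, as far as reductions are concerned, by old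
classes `α^* y + β^* y'` where `y`, `y'` have trivial reduction on `V1`.
-/

set_option autoImplicit false

namespace Fermat.Agent.S59.LoSqC.H987

open Fermat.Agent.S36.H586

section RedSub

variable {F' F : Type*} [Field F'] [Field F]

/-- The residues to be realised at level `M q`. -/
theorem exists_red_pair
    (α β : F' →+* F) (Nα Nβ : F → F') (q : ℕ)
    (w' : F') (π : F)
    (V1 V2 : ValuationSubring F') (VFF Vmid VVV : ValuationSubring F)
    (Tα : NormTable α Nα q w' π V1 V2 VFF Vmid VVV)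
    (Tβ : NormTable β Nβ q w' π V2 V1 VVV Vmid VFF)
    (u : F) (humid : Vmid.valuation u = 1) :
    ∃ b c : F', V2.valuation b = 1 ∧ V2.valuation c = 1 ∧
      PU Vmid (u / β b) ∧ PU VVV (α c * (β b) ^ q) := by
  obtain ⟨b, hb⟩ := Tβ.res_r u humid
  have hβb : Vmid.valuation (β b) = 1 := val_eq_one_of_sub_lt humid hb
  have hb1 : V2.valuation b = 1 := (over_val_eq_one Tβ.over_r b).1 hβb
  have hβbV : VVV.valuation (β b) = 1 := (over_val_eq_one Tβ.over_u b).2 hb1
  have hβb0 : β b ≠ 0 := ne_of_val hβbV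
  have hy : VVV.valuation (β b)⁻¹ = 1 := by rw [map_inv₀, hβbV, inv_one]
  obtain ⟨c, hc⟩ := Tα.res_i (β b)⁻¹ hy
  have hyq : VVV.valuation ((β b)⁻¹ ^ q) = 1 := by rw [map_pow, hy, one_pow]
  have hαc : VVV.valuation (α c) = 1 := val_eq_one_of_sub_lt hyq hc
  have hc1 : V2.valuation c = 1 := (over_val_eq_one Tα.over_i c).1 hαc
  refine ⟨b, c, hb1, hc1, pu_div_of_sub hβb hb, ?_⟩
  -- `α c ≡ (β b)⁻¹ ^ q`
  have h1 : PU VVV ((β b)⁻¹ ^ q / α c) := pu_div_of_sub hαc hc
  have e : α c * (β b) ^ q = ((β b)⁻¹ ^ q / α c)⁻¹ := by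
    have hαc0 : α c ≠ 0 := ne_of_val hαc
    rw [inv_pow]
    field_simp
  rw [e]
  exact h1.inv

/-- **W-SUB, reduction half (abstract core).** -/
theorem redSub_core
    (α β : F' →+* F) (Nα Nβ : F → F') (q m : ℕ)
    (w' : F') (π : F)
    (V1 V2 : ValuationSubring F') (VFF Vmid VVV : ValuationSubring F)
    (Tα : NormTable α Nα q w' π V1 V2 VFF Vmid VVV)
    (Tβ : NormTable β Nβ q w' π V2 V1 VVV Vmid VFF)
    (hap_res : ∀ g₁ g₂ g₃ : F, VFF.valuation g₁ = 1 → Vmid.valuation g₂ = 1 →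
      VVV.valuation g₃ = 1 → ∃ g : F, PU VFF (g / g₁) ∧ PU Vmid (g / g₂) ∧ PU VVV (g / g₃))
    (u : F) (huFF : PU VFF u) (huVV : PU VVV u)
    (b c : F') (hb1 : V2.valuation b = 1)
    (hub : PU Vmid (u / β b)) (hcb : PU VVV (α c * (β b) ^ q))
    (q' j : ℕ) (hqq : q * q' = 1 + j * m)
    (g g' h h' : F') (hg1 : PU V1 g) (hg'1 : PU V1 g')
    (hh : V2.valuation h = 1) (hh' : V2.valuation h' = 1)
    (hg' : PU V2 (g' / (b * h ^ m))) (hg : PU V2 (g / (c ^ q' * h' ^ m))) :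
    ∃ G : F, G ≠ 0 ∧ PU VFF (u / (α g * β g' * G ^ m)) ∧
      PU Vmid (u / (α g * β g' * G ^ m)) ∧ PU VVV (u / (α g * β g' * G ^ m)) := by
  -- units
  have hb0 : b ≠ 0 := ne_of_val hb1
  have hh0 : h ≠ 0 := ne_of_val hh
  have hh'0 : h' ≠ 0 := ne_of_val hh'
  have hB0 : β b ≠ 0 := (map_ne_zero β).2 hb0
  have hH0 : β h ≠ 0 := (map_ne_zero β).2 hh0
  have hH'0 : α h' ≠ 0 := (map_ne_zero α).2 hh'0
  have hBmid : Vmid.valuation (β b) = 1 := (over_val_eq_one Tβ.over_r b).2 hb1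
  have hBVV : VVV.valuation (β b) = 1 := (over_val_eq_one Tβ.over_u b).2 hb1
  have hHmid : Vmid.valuation (β h) = 1 := (over_val_eq_one Tβ.over_r h).2 hh
  have hHVV : VVV.valuation (β h) = 1 := (over_val_eq_one Tβ.over_u h).2 hh
  have hH'VV : VVV.valuation (α h') = 1 := (over_val_eq_one Tα.over_i h').2 hh'
  have hg0 : g ≠ 0 := hg1.ne_zero
  have hg'0 : g' ≠ 0 := hg'1.ne_zero
  have hA0 : α g ≠ 0 := (map_ne_zero α).2 hg0
  have hA'0 : β g' ≠ 0 := (map_ne_zero β).2 hg'0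
  have hC0 : α c ≠ 0 := by
    intro h0
    rw [h0, zero_mul] at hcb
    exact hcb.ne_zero rfl
  -- the pull-backs at the three places
  have aFF : PU VFF (α g) := (over_pu Tα.over_u g).2 hg1
  have amid : PU Vmid (α g) := (over_pu Tα.over_r g).2 hg1
  have a'FF : PU VFF (β g') := (over_pu Tβ.over_i g').2 hg'1
  have a'mid : PU Vmid (β g' / (β b * (β h) ^ m)) := by
    have := (over_pu Tβ.over_r _).2 hg'
    rwa [map_div₀, map_mul, map_pow] at this
  have a'VV : PU VVV (β g' / (β b * (β h) ^ m)) := by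
    have := (over_pu Tβ.over_u _).2 hg'
    rwa [map_div₀, map_mul, map_pow] at this
  have aVV : PU VVV (α g / ((α c) ^ q' * (α h') ^ m)) := by
    have := (over_pu Tα.over_i _).2 hg
    rwa [map_div₀, map_mul, map_pow, map_pow] at this
  -- approximation
  obtain ⟨G, hG1, hG2, hG3⟩ := hap_res 1 (β h)⁻¹ ((β b) ^ j * (α h' * β h)⁻¹) (map_one _)
    (by rw [map_inv₀, hHmid, inv_one])
    (by rw [map_mul, map_inv₀, map_mul, map_pow, hBVV, hH'VV, hHVV, one_pow, one_mul, one_mul,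
      inv_one])
  have hG0 : G ≠ 0 := by
    intro h0
    rw [h0, zero_div] at hG1
    exact hG1.ne_zero rfl
  have hGm0 : G ^ m ≠ 0 := pow_ne_zero _ hG0
  refine ⟨G, hG0, ?_, ?_, ?_⟩
  · have e : u / (α g * β g' * G ^ m) = u * (α g)⁻¹ * (β g')⁻¹ * ((G / 1) ^ m)⁻¹ := by
      rw [div_one]
      field_simp
    rw [e]
    exact ((huFF.mul aFF.inv).mul a'FF.inv).mul (hG1.pow m).inv
  · have e : u / (α g * β g' * G ^ m) =
        (u / β b) * (α g)⁻¹ * (β g' / (β b * (β h) ^ m))⁻¹ * ((G / (β h)⁻¹) ^ m)⁻¹ := by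
      rw [div_pow, inv_pow]
      field_simp
    rw [e]
    exact ((hub.mul amid.inv).mul a'mid.inv).mul (hG2.pow m).inv
  · have e : u / (α g * β g' * G ^ m) =
        u * (α g / ((α c) ^ q' * (α h') ^ m))⁻¹ * (β g' / (β b * (β h) ^ m))⁻¹ *
          ((G / ((β b) ^ j * (α h' * β h)⁻¹)) ^ m)⁻¹ * ((α c * (β b) ^ q) ^ q')⁻¹ := by
      have hpow : (β b) ^ (q * q') = β b * ((β b) ^ j) ^ m := by
        rw [hqq, pow_add, pow_one, pow_mul]
      rw [div_pow, mul_pow (α c), ← pow_mul, hpow, mul_pow ((β b) ^ j), inv_pow, mul_pow]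
      field_simp
    rw [e]
    exact ((((huVV.mul aVV.inv).mul a'VV.inv).mul (hG3.pow m).inv)).mul (hcb.pow q').inv

end RedSub

end Fermat.Agent.S59.LoSqC.H987
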