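import Fermat.Agent.S59.LoSqC.H987.LeafNew
import Fermat.Agent.S59.LoSqC.H987.RedSubCore
import Fermat.Agent.Ribet.H127.HorDesc

/-!
# S59 / cell (C) LO-SQ, leaf W-SUB, reduction half, in `Eng.TripleCtx` form (helper987)

* `divisibleDiv_map_987` : `m ∣ div g` ⟹ `m ∣ div (φ g)` for an `E`-embedding `φ : F' → F`
  (pull-back of divisors; no finiteness needed).
* `redPair` : for `u ≡ 1` on `V₁`, `V₃`, `u` a unit at `V₂` (output of `wNew`) there are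
  `b c : F'`, units at `V₂'`, with `u ≡ β b` on `V₂` and `α c · (β b) ^ q ≡ 1` on `V₃`.
* `redSub` : for `g g' : F'`, `≡ 1` on `V₁'`, with `g' ≡ b · h ^ m`, `g ≡ c ^ q' · h' ^ m` on `V₂'`
  (`q q' = 1 + j m`) there is `G ≠ 0` with `u / (α g · β g' · G ^ m) ≡ 1` on `V₁, V₂, V₃`; if
  moreover `m ∣ div u, g, g'` then `m ∣ div` of the quotient.
* `RSurjAt`, `redSub_of_surj` : the same with `g`, `g'` produced by surjectivity of the
  reductions at level `M q` in the form `(0, *)`.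
-/

set_option autoImplicit false
set_option linter.style.haveILetI false
set_option linter.unusedSectionVars false
set_option linter.unusedVariables false
set_option synthInstance.maxHeartbeats 400000
set_option maxHeartbeats 1600000

noncomputable section

namespace Fermat.Agent.S59.LoSqC.H987

open Fermat.Agent.S36.Eng
open Fermat.Agent.S36.H586
open Fermat.Agent

/-! ## Pull-back of `DivisibleDiv` -/

section Pull

variable {F : Type*} [Field F]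

/-- A discrete valuation subring has value group generated by the value of a uniformiser. -/
theorem exists_val_zpow_987 (V : ValuationSubring F) [IsDiscreteValuationRing V] :
    ∃ t : F, t ≠ 0 ∧ V.valuation t < 1 ∧
      ∀ f : F, f ≠ 0 → ∃ k : ℤ, V.valuation f = V.valuation t ^ k := by
  obtain ⟨ϖ, hϖ⟩ := IsDiscreteValuationRing.exists_irreducible V
  have ht0 : (ϖ : F) ≠ 0 := fun h => hϖ.ne_zero (Subtype.ext h)
  have htlt : V.valuation (ϖ : F) < 1 := by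
    rw [← ValuationSubring.valuation_lt_one_iff]
    exact (IsLocalRing.mem_maximalIdeal _).2 hϖ.not_isUnit
  refine ⟨(ϖ : F), ht0, htlt, ?_⟩
  have key : ∀ z : F, z ≠ 0 → z ∈ V → ∃ n : ℕ, V.valuation z = V.valuation (ϖ : F) ^ n := by
    intro z hz0 hzV
    have hz0' : (⟨z, hzV⟩ : V) ≠ 0 := fun h => hz0 (congrArg Subtype.val h)
    obtain ⟨n, hn⟩ := IsDiscreteValuationRing.associated_pow_irreducible hz0' hϖ
    obtain ⟨u, hu⟩ := hn
    refine ⟨n, ?_⟩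
    have h1 : z * ((u : V) : F) = (ϖ : F) ^ n := by
      have := congrArg Subtype.val hu
      simpa using this
    have h2 : V.valuation (((u : V) : F)) = 1 := ValuationSubring.valuation_unit V u
    have h3 := congrArg V.valuation h1
    rw [map_mul, h2, mul_one, map_pow] at h3
    exact h3
  intro f hf
  rcases V.mem_or_inv_mem f with h | h
  · obtain ⟨n, hn⟩ := key f hf h
    exact ⟨n, by rw [hn, zpow_natCast]⟩
  · obtain ⟨n, hn⟩ := key f⁻¹ (inv_ne_zero hf) h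
    refine ⟨-n, ?_⟩
    rw [map_inv₀] at hn
    rw [zpow_neg, zpow_natCast, ← hn, inv_inv]

variable {E F' : Type*} [Field E] [Field F'] [Algebra E F'] [Algebra E F]

/-- `m ∣ div g` ⟹ `m ∣ div (φ g)`. -/
theorem divisibleDiv_map_987 (φ : F' →ₐ[E] F) (m : ℕ) {g : F'} (hg0 : g ≠ 0)
    (hg : A2.DivisibleDiv E m g) : A2.DivisibleDiv E m (φ g) := by
  intro V hV hEV
  haveI := hV
  obtain ⟨t, ht0, htlt, hval⟩ := exists_val_zpow_987 V
  have hγ0 : V.valuation t ≠ 0 := (Valuation.ne_zero_iff _).2 ht0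
  rcases Fermat.Agent.Ribet.H127.comap_trivial_or_dvr_h127 (φ : F' →+* F) V hγ0 htlt hval with
    htriv | hdvr
  · have h1 : V.valuation (φ g) = 1 := htriv g hg0
    refine ⟨1, φ g, one_ne_zero, ?_, ?_, by rw [one_pow, mul_one]⟩
    · exact (ValuationSubring.valuation_le_one_iff V _).1 h1.le
    · refine (ValuationSubring.valuation_le_one_iff V _).1 ?_
      rw [map_inv₀, h1, inv_one]
  · have hE' : ∀ e : E, algebraMap E F' e ∈ V.comap (φ : F' →+* F) := by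
      intro e
      rw [ValuationSubring.mem_comap]
      have : (φ : F' →+* F) (algebraMap E F' e) = algebraMap E F e := φ.commutes e
      rw [this]
      exact hEV e
    obtain ⟨h, u, hh0, hu, hu', hgu⟩ := hg (V.comap (φ : F' →+* F)) hdvr hE'
    refine ⟨φ h, φ u, (map_ne_zero φ).2 hh0, ?_, ?_, ?_⟩
    · exact (ValuationSubring.mem_comap).1 hu
    · have := (ValuationSubring.mem_comap).1 hu'
      rwa [show (φ : F' →+* F) u⁻¹ = (φ u)⁻¹ from map_inv₀ φ u] at this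
    · rw [hgu, map_mul, map_pow]

/-- `DivisibleDiv` of a quotient `u / (a · a' · G ^ m)`. -/
theorem divisibleDiv_quot_987 (m : ℕ) {u a a' G : F} (hG : G ≠ 0)
    (hu : A2.DivisibleDiv E m u) (ha : A2.DivisibleDiv E m a) (ha' : A2.DivisibleDiv E m a') :
    A2.DivisibleDiv E m (u / (a * a' * G ^ m)) := by
  intro V hV hEV
  obtain ⟨h₁, u₁, hh₁, hu₁, hu₁', e₁⟩ := hu V hV hEV
  obtain ⟨h₂, u₂, hh₂, hu₂, hu₂', e₂⟩ := ha V hV hEV
  obtain ⟨h₃, u₃, hh₃, hu₃, hu₃', e₃⟩ := ha' V hV hEV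
  refine ⟨h₁ * h₂⁻¹ * h₃⁻¹ * G⁻¹, u₁ * u₂⁻¹ * u₃⁻¹,
    mul_ne_zero (mul_ne_zero (mul_ne_zero hh₁ (inv_ne_zero hh₂)) (inv_ne_zero hh₃))
      (inv_ne_zero hG), ?_, ?_, ?_⟩
  · exact V.mul_mem _ _ (V.mul_mem _ _ hu₁ hu₂') hu₃'
  · have e : (u₁ * u₂⁻¹ * u₃⁻¹)⁻¹ = u₁⁻¹ * u₂ * u₃ := by
      rw [mul_inv, mul_inv, inv_inv, inv_inv]
    rw [e]
    exact V.mul_mem _ _ (V.mul_mem _ _ hu₁' hu₂) hu₃
  · rw [e₁, e₂, e₃, mul_pow, mul_pow, mul_pow, inv_pow, inv_pow, inv_pow]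
    by_cases hu₂0 : u₂ = 0
    · simp [hu₂0]
    by_cases hu₃0 : u₃ = 0
    · simp [hu₃0]
    have : h₂ ^ m ≠ 0 := pow_ne_zero _ hh₂
    have : h₃ ^ m ≠ 0 := pow_ne_zero _ hh₃
    have : G ^ m ≠ 0 := pow_ne_zero _ hG
    field_simp

end Pull

/-! ## The reduction half of W-SUB -/

section RedSub

variable {R E F F' : Type} [CommRing R] [IsDomain R] [IsDiscreteValuationRing R]
  [HenselianLocalRing R] [IsAlgClosed (IsLocalRing.ResidueField R)]
  [Field E] [CharZero E] [Algebra R E] [IsFractionRing R E]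
  [Field F] [Algebra E F] [Algebra R F] [IsScalarTower R E F]
  [Field F'] [Algebra E F'] [Algebra R F'] [IsScalarTower R E F']

/-- The residues to be realised at level `M q`: `u ≡ β b` on `V₂`, `α c · (β b) ^ q ≡ 1` on
`V₃`. -/
theorem redPair (w : R) (hw : Irreducible w) (q : ℕ) (hq : q.Prime)
    (hqR : (q : R) ∈ IsLocalRing.maximalIdeal R)
    (α β : F' →ₐ[E] F) (x : F) (x' : F')
    (V₁ V₂ V₃ : ValuationSubring F) (V₁' V₂' : ValuationSubring F')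
    (T : TripleCtx w q α β x x' V₁ V₂ V₃ V₁' V₂')
    (u : F) (hu₂ : V₂.valuation u = 1) :
    ∃ b c : F', V₂'.valuation b = 1 ∧ V₂'.valuation c = 1 ∧
      u / β b - 1 ∈ V₂.nonunits ∧ α c * (β b) ^ q - 1 ∈ V₃.nonunits := by
  obtain ⟨π, hπ, A⟩ := absCtx_of_ctx w hw q hq hqR α β x x' V₁ V₂ V₃ V₁' V₂' T
  obtain ⟨b, c, hb, hc, h1, h2⟩ := exists_red_pair (α : F' →+* F) (β : F' →+* F)
    (S29.H395.normAlong α) (S29.H395.normAlong β) q (algebraMap R F' w) π V₁' V₂' V₁ V₂ V₃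
    A.Tα A.Tβ u hu₂
  exact ⟨b, c, hb, hc, pu_iff.1 h1, pu_iff.1 h2⟩

/-- **W-SUB, reduction half.**  Old classes with trivial reduction on `V₁'` and the reductions
`b`, `c ^ q'` on `V₂'` kill the reductions of `u`. -/
theorem redSub (w : R) (hw : Irreducible w) (q : ℕ) (hq : q.Prime)
    (hqR : (q : R) ∈ IsLocalRing.maximalIdeal R)
    (α β : F' →ₐ[E] F) (x : F) (x' : F')
    (V₁ V₂ V₃ : ValuationSubring F) (V₁' V₂' : ValuationSubring F')
    (T : TripleCtx w q α β x x' V₁ V₂ V₃ V₁' V₂') (m : ℕ)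
    (u : F) (hu₁ : u - 1 ∈ V₁.nonunits) (hu₃ : u - 1 ∈ V₃.nonunits)
    (b c : F') (hb : V₂'.valuation b = 1)
    (hub : u / β b - 1 ∈ V₂.nonunits) (hcb : α c * (β b) ^ q - 1 ∈ V₃.nonunits)
    (q' j : ℕ) (hqq : q * q' = 1 + j * m)
    (g g' h h' : F') (hg₁ : g - 1 ∈ V₁'.nonunits) (hg'₁ : g' - 1 ∈ V₁'.nonunits)
    (hh : V₂'.valuation h = 1) (hh' : V₂'.valuation h' = 1)
    (hg' : g' / (b * h ^ m) - 1 ∈ V₂'.nonunits)
    (hg : g / (c ^ q' * h' ^ m) - 1 ∈ V₂'.nonunits) :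
    ∃ G : F, G ≠ 0 ∧ u / (α g * β g' * G ^ m) - 1 ∈ V₁.nonunits ∧
      u / (α g * β g' * G ^ m) - 1 ∈ V₂.nonunits ∧
      u / (α g * β g' * G ^ m) - 1 ∈ V₃.nonunits ∧
      (A2.DivisibleDiv E m u → A2.DivisibleDiv E m g → A2.DivisibleDiv E m g' →
        A2.DivisibleDiv E m (u / (α g * β g' * G ^ m))) := by
  obtain ⟨π, hπ, A⟩ := absCtx_of_ctx w hw q hq hqR α β x x' V₁ V₂ V₃ V₁' V₂' T
  obtain ⟨G, hG0, h1, h2, h3⟩ := redSub_core (α : F' →+* F) (β : F' →+* F)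
    (S29.H395.normAlong α) (S29.H395.normAlong β) q m (algebraMap R F' w) π V₁' V₂' V₁ V₂ V₃
    A.Tα A.Tβ A.hap_res u (pu_iff.2 hu₁) (pu_iff.2 hu₃) b c hb (pu_iff.2 hub) (pu_iff.2 hcb)
    q' j hqq g g' h h' (pu_iff.2 hg₁) (pu_iff.2 hg'₁) hh hh' (pu_iff.2 hg') (pu_iff.2 hg)
  refine ⟨G, hG0, pu_iff.1 h1, pu_iff.1 h2, pu_iff.1 h3, ?_⟩
  intro hdu hdg hdg'
  have hg0 : g ≠ 0 := (pu_iff.2 hg₁ : PU V₁' g).ne_zero
  have hg'0 : g' ≠ 0 := (pu_iff.2 hg'₁ : PU V₁' g').ne_zero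
  exact divisibleDiv_quot_987 m hG0 hdu (divisibleDiv_map_987 α m hg0 hdg)
    (divisibleDiv_map_987 β m hg'0 hdg')

/-- Surjectivity of the reductions at level `M q` in the form `(0, *)`, for ONE residue `b`:
there is `g` with `m ∣ div g`, `g ≡ 1` on `V₁'` and `g ≡ b · h ^ m` on `V₂'`. -/
def RSurjAt {E F' : Type*} [Field E] [Field F'] [Algebra E F'] (m : ℕ)
    (V₁' V₂' : ValuationSubring F') (b : F') : Prop :=
  ∃ g h : F', A2.DivisibleDiv E m g ∧ g - 1 ∈ V₁'.nonunits ∧ V₂'.valuation h = 1 ∧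
    g / (b * h ^ m) - 1 ∈ V₂'.nonunits

/-- **W-SUB, reduction half, with surjectivity.**  If the two residues `b`, `c ^ q'` of
`redPair` are realised at level `M q` (`RSurjAt`), then `u = α g · β g' · G ^ m · u'` with
`u' ≡ 1` on `V₁, V₂, V₃` and `m ∣ div g, g', u'`. -/
theorem redSub_of_surj (w : R) (hw : Irreducible w) (q : ℕ) (hq : q.Prime)
    (hqR : (q : R) ∈ IsLocalRing.maximalIdeal R)
    (α β : F' →ₐ[E] F) (x : F) (x' : F')
    (V₁ V₂ V₃ : ValuationSubring F) (V₁' V₂' : ValuationSubring F')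
    (T : TripleCtx w q α β x x' V₁ V₂ V₃ V₁' V₂') (m : ℕ)
    (u : F) (hdu : A2.DivisibleDiv E m u)
    (hu₁ : u - 1 ∈ V₁.nonunits) (hu₃ : u - 1 ∈ V₃.nonunits)
    (b c : F') (hb : V₂'.valuation b = 1)
    (hub : u / β b - 1 ∈ V₂.nonunits) (hcb : α c * (β b) ^ q - 1 ∈ V₃.nonunits)
    (q' j : ℕ) (hqq : q * q' = 1 + j * m)
    (hSb : RSurjAt (E := E) m V₁' V₂' b) (hSc : RSurjAt (E := E) m V₁' V₂' (c ^ q')) :
    ∃ (g g' : F') (G u' : F), G ≠ 0 ∧ A2.DivisibleDiv E m g ∧ A2.DivisibleDiv E m g' ∧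
      A2.DivisibleDiv E m u' ∧ u = α g * β g' * G ^ m * u' ∧
      u' - 1 ∈ V₁.nonunits ∧ u' - 1 ∈ V₂.nonunits ∧ u' - 1 ∈ V₃.nonunits := by
  obtain ⟨g', h, hdg', hg'₁, hh, hg'⟩ := hSb
  obtain ⟨g, h', hdg, hg₁, hh', hg⟩ := hSc
  obtain ⟨G, hG0, h1, h2, h3, hd⟩ := redSub w hw q hq hqR α β x x' V₁ V₂ V₃ V₁' V₂' T m u
    hu₁ hu₃ b c hb hub hcb q' j hqq g g' h h' hg₁ hg'₁ hh hh' hg' hg
  have hg0 : g ≠ 0 := (pu_iff.2 hg₁ : PU V₁' g).ne_zero
  have hg'0 : g' ≠ 0 := (pu_iff.2 hg'₁ : PU V₁' g').ne_zero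
  refine ⟨g, g', G, u / (α g * β g' * G ^ m), hG0, hdg, hdg', hd hdu hdg hdg', ?_, h1, h2, h3⟩
  have hA0 : α g ≠ 0 := (map_ne_zero α).2 hg0
  have hA'0 : β g' ≠ 0 := (map_ne_zero β).2 hg'0
  have hGm0 : G ^ m ≠ 0 := pow_ne_zero _ hG0
  field_simp

end RedSub

end Fermat.Agent.S59.LoSqC.H987

end
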