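import Fermat.Agent.S59.LoSqC.H987.RedFricke
import Fermat.Agent.S59.LoSqC.H630.Adapters

/-!
# S59 / cell (C) LO-SQ (helper987): `LeafRealize` from the two surjectivity leaves of level `M q`

* `LeafLab1` : LAB1-SURJ at level `M q` for all objects (`H630.Lab1SurjE`, some primitive root).
* `leafToric_of_lab1 : LeafCtx → LeafLab1 → LeafToric` (helper630's `toricWallE630`).
* **`leafRealize_of_surj : LeafCtx → LeafRSurj1 → LeafLab1 → LoSqC.LeafRealize`**.
* `levelWall_of_surj2 : LeafCtx → LeafRSurj1 → LeafLab1 → LoSqC.LevelWallStatement`.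
-/

set_option autoImplicit false
set_option linter.style.haveILetI false
set_option linter.unusedSectionVars false
set_option linter.unusedVariables false
set_option synthInstance.maxHeartbeats 400000
set_option maxHeartbeats 1600000

noncomputable section

namespace Fermat.Agent.S59.LoSqC.H987

open ModularCurve AlgebraicCurve
open Fermat.Agent.S36 Fermat.Agent.S36.Eng
open Fermat.Agent

/-- **LAB1-SURJ (leaf)**: at level `M q`, every assignment of labels to the nodes of the finite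
chart is realised by some `g` with `p ∣ div g`, `g ≡ 1` on `V₁'`, `V₂'`. -/
def LeafLab1 : Prop :=
  Mod3.Leaf fun P E M q _ _ _ w V₁' V₂' _ _ _ =>
    q ≠ 2 → ∀ p : ℕ, p.Prime → p ≠ 2 → p ≠ q →
      ∃ ζ : A2.RE P E, IsPrimitiveRoot ζ p ∧
        Fermat.Agent.S59.LoSqC.H630.Lab1SurjE E w (A2.Mod.xE E M q) V₁' V₂' p ζ

/-- The toric wall (leaf) from CTX and LAB1-SURJ. -/
theorem leafToric_of_lab1 (hCtx : LoSqC.LeafCtx) (hL : LeafLab1) : LeafToric := by
  intro P E M q _ _ _ w hS V₁' V₂' V₁ V₂ V₃ W' W hO hq2 p hp hp2 hpq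
  haveI : IsDiscreteValuationRing ↥(A2.RE P E) := hS.unram.1.dvr
  haveI : HenselianLocalRing ↥(A2.RE P E) := hS.unram.1.henselian
  haveI : IsAlgClosed (IsLocalRing.ResidueField ↥(A2.RE P E)) := hS.unram.1.algClosed
  have hctx := hCtx P E M q w hS V₁' V₂' V₁ V₂ V₃ W' W hO
  have hqp : ¬ q ∣ p := fun hd => hpq ((Nat.prime_dvd_prime_iff_eq hS.q_prime hp).1 hd).symm
  obtain ⟨ζ, hζ, hLab⟩ := hL P E M q w hS V₁' V₂' V₁ V₂ V₃ W' W hO hq2 p hp hp2 hpq
  exact Fermat.Agent.S59.LoSqC.H630.toricWallE630 (R := ↥(A2.RE P E)) (E := E)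
    (F := ↥(A2.Mod.FE E (M * q * q))) (F' := ↥(A2.Mod.FE E (M * q))) hctx hS.unif hS.q_prime
    (natCast_mem_maximalIdeal_RE E hS.lies_over) hp.pos hqp hζ hLab

/-- **REALIZE** (frozen leaf) from CTX and the two surjectivity leaves of level `M q`. -/
theorem leafRealize_of_surj (hCtx : LoSqC.LeafCtx) (hR : LeafRSurj1) (hL : LeafLab1) :
    LoSqC.LeafRealize :=
  leafRealize_of_rsurj1 hCtx hR (leafToric_of_lab1 hCtx hL)

/-- The level wall from CTX and the two surjectivity leaves of level `M q`. -/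
theorem levelWall_of_surj2 (hCtx : LoSqC.LeafCtx) (hR : LeafRSurj1) (hL : LeafLab1) :
    LoSqC.LevelWallStatement :=
  LoSqC.levelWall_of_leaves newUnits hCtx (leafRealize_of_surj hCtx hR hL)

end Fermat.Agent.S59.LoSqC.H987

end
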